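import Fermat.Agent.RT.HeckeRep.Away
import Fermat.Agent.RT.Coh.CohPart

/-!
# The deformation ring acting on the part of `Coh N χ O`
-/

set_option autoImplicit false

noncomputable section

namespace FLTAgent.RT

open FLTAgent.GalRep IsLocalRing

local notation "Γℚ" => AlgebraicClosure ℚ ≃ₐ[ℚ] AlgebraicClosure ℚ

variable {M N : ℕ} {D : Type} [CommGroup D] {χ : (ZMod M)ˣ →* D} [Fact (Odd (Nat.card D))]
  [NeZero N] {O : Type} [CommRing O] [IsDomain O] [IsDiscreteValuationRing O]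
  [IsAdicComplete (maximalIdeal O) O] [Finite (ResidueField O)]

/-- `Coh N χ O` is free. -/
theorem moduleFree_coh (hMN : M ∣ N) : Module.Free O (Coh N χ O) := by
  have := moduleFinite_coh (χ := χ) O O hMN
  have : Module.IsTorsionFree O (Coh N χ O) := Function.Injective.moduleIsTorsionFree
    (fun φ x => φ x) (fun _ _ h => DFunLike.ext' h) (fun _ _ => rfl)
  infer_instance

/-- **`R` acts on the part of `Coh N χ O`**, given the homomorphism `Θ` of the Hecke algebra of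
level `N'` through which the good operators act. -/
theorem exists_algHom_cohPart {ι : Type} {l : ι → ℕ} (hMN : M ∣ N) (hl : ∀ i, (l i).Prime)
    (a : ι → O) [Nontrivial (cohPart χ hMN hl a)] {N' : ℕ} [NeZero N'] {S : Finset ℕ}
    {p : ℕ} [Fact p.Prime] (hmod : Nonempty (MatModel N' p ↑S))
    (hS : ∀ q : ℕ, q.Prime → q ∣ N' → q ∈ S) (hpS : p ∈ S)
    (hp2 : p ≠ 2) (hp : (p : O) ∈ maximalIdeal O)
    (hcov : ∀ ℓ : ℕ, ℓ.Prime → ¬ ℓ ∣ N' → ℓ ∉ S → ∃ i, l i = ℓ) [Nonempty ι]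
    (Θ : awayHecke N' →+* Module.End O (cohPart χ hMN hl a))
    (hΘ : ∀ (ℓ : ℕ) (hℓ : ℓ.Prime) (hℓN : ¬ ℓ ∣ N'), ℓ ∉ S →
      ∀ v, (Θ (awayT N' hℓ hℓN) v : Coh N χ O) = opP O O χ hMN hℓ v)
    {ρbar : ResidualGaloisRep (ResidueField O)} (habs : ρbar.IsAbsolutelyIrreducible)
    (S₁ : Finset ℕ)
    (hres : ∀ i, ¬ l i ∣ N' → l i ∉ S → l i ∉ S₁ → l i ≠ p →
      ∀ A : ValuationSubring (AlgebraicClosure ℚ), A.LiesOverPrime (l i) →
        ∀ σ : Γℚ, A.IsFrobeniusAt σ (l i) →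
          LinearMap.trace (ResidueField O) ρbar.V (ρbar.ρ σ) = residue O (a i))
    {𝒟 : ∀ ⦃A : Type⦄ [CommRing A] [IsLocalRing A] [Algebra O A], GaloisRepAdic A → Prop}
    (h𝒟 : GaloisRep.IsDeformationCondition O 𝒟) (Dat : GaloisRep.DeformationRingData O ρbar 𝒟)
    (hmax : ∀ (b : ℕ → O),
      (∀ ℓ : ℕ, ℓ.Prime → ¬ ℓ ∣ N' → ℓ ∉ S → ∃ i, l i = ℓ ∧ b ℓ = a i) →
      ∀ H : MaxDatum N' S O b ρbar, 𝒟 H.H.ρ) :
    ∃ φ : Dat.R →ₐ[O] Module.End O (cohPart χ hMN hl a),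
      (∀ r s, Commute (φ r) (φ s)) ∧
      (∀ t, Θ (restrictAway hS t) ∈ φ.range) ∧
      ∀ (ℓ : ℕ) (hℓ : ℓ.Prime) (hℓN : ¬ ℓ ∣ N'), ℓ ∉ S →
        ∀ A : ValuationSubring (AlgebraicClosure ℚ), A.LiesOverPrime ℓ →
          ∀ σ : Γℚ, A.IsFrobeniusAt σ ℓ → φ (Dat.ρ.trace σ) = Θ (awayT N' hℓ hℓN) := by
  classical
  have := moduleFinite_coh (χ := χ) O O hMN
  have := moduleFree_coh (χ := χ) (O := O) hMN
  let idx : ℕ → ι := fun ℓ => if h : ∃ i, l i = ℓ then h.choose else Classical.arbitrary ι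
  have hidx : ∀ ℓ : ℕ, ℓ.Prime → ¬ ℓ ∣ N' → ℓ ∉ S → l (idx ℓ) = ℓ := fun ℓ h1 h2 h3 => by
    simp only [idx, dif_pos (hcov ℓ h1 h2 h3)]
    exact (hcov ℓ h1 h2 h3).choose_spec
  have : Nontrivial (LinearMap.range (partProj (X := fun i => opP O O χ hMN (hl i))
      (fun i j => opP_comm (χ := χ) O O hMN (hl i) (hl j)) a)) :=
    ‹Nontrivial (cohPart χ hMN hl a)›
  refine exists_algHom_part (X := fun i => opP O O χ hMN (hl i))
    (fun i j => opP_comm (χ := χ) O O hMN (hl i) (hl j)) a hmod hS hpS hp2 hp Θ idx ?_ habs S₁ ?_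
    h𝒟 Dat (hmax _ fun ℓ h1 h2 h3 => ⟨idx ℓ, hidx ℓ h1 h2 h3, rfl⟩)
  · intro ℓ hℓ hℓN hℓS v
    refine (hΘ ℓ hℓ hℓN hℓS v).trans ?_
    congr! 1
    congr 1
    all_goals exact (hidx ℓ hℓ hℓN hℓS).symm
  · intro ℓ hℓ hℓN hℓS hℓS₁ hℓp A hA σ hσ
    have e := hidx ℓ hℓ hℓN hℓS
    exact hres (idx ℓ) (by rwa [e]) (by rwa [e]) (by rwa [e]) (by rwa [e]) A (by rwa [e]) σ
      (by rwa [e])

end FLTAgent.RT
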