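import Fermat.Agent.RT.HeckeRep.Datum

/-!
# Independence of the part from finitely many Hecke operators

If the operators `T ℓ` outside a finite set have residual eigenvalues given by the Frobenius traces
of a representation, so do the finitely many others.
-/

set_option autoImplicit false

namespace FLTAgent.RT

open FLTAgent.GalRep IsLocalRing

local notation "Γℚ" => AlgebraicClosure ℚ ≃ₐ[ℚ] AlgebraicClosure ℚ

variable {N : ℕ} [NeZero N] {p : ℕ} [Fact p.Prime] {S : Finset ℕ}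

theorem exists_congr_approx (M : MatModel N p ↑S) (hd : FrobeniusDense) {q : ℕ} (hq : q.Prime)
    (hqN : ¬ q ∣ N) (hqS : q ∉ (↑S : Set ℕ)) (hqp : q ≠ p) (A : ValuationSubring (AlgebraicClosure ℚ))
    (hA : A.LiesOverPrime q) (σ : Γℚ) (hσ : A.IsFrobeniusAt σ q)
    (L : IntermediateField ℚ (AlgebraicClosure ℚ)) [FiniteDimensional ℚ L] (S₁ : Finset ℕ) :
    ∃ (ℓ : ℕ) (hℓ : ℓ.Prime) (hℓN : ¬ ℓ ∣ N) (hℓS : ℓ ∉ (↑S : Set ℕ)), ℓ ∉ S₁ ∧ ℓ ≠ p ∧
      ∃ B : ValuationSubring (AlgebraicClosure ℚ), B.LiesOverPrime ℓ ∧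
        ∃ τ : Γℚ, B.IsFrobeniusAt τ ℓ ∧ (∀ x ∈ L, τ x = σ x) ∧
          ∃ t : CuspForm.heckeAlgebra N 2 (↑S : Set ℕ),
            CuspForm.heckeAlgebra.T hℓ hℓN hℓS - CuspForm.heckeAlgebra.T hq hqN hqS = p • t := by
  obtain ⟨c, hc⟩ := M.exists_bound
  obtain ⟨ℓ, hℓ, hℓN, hℓS, hℓS₁, B, hB, τ, hτ, hℓp, hag, he⟩ :=
    exists_approx_avoid M hd σ (c + 1) S₁ L
  refine ⟨ℓ, hℓ, hℓN, hℓS, hℓS₁, hℓp, B, hB, τ, hτ, hag, ?_⟩
  obtain ⟨t, ht⟩ := hc (c + 1) (CuspForm.heckeAlgebra.T hℓ hℓN hℓS -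
    CuspForm.heckeAlgebra.T hq hqN hqS) (by
      rw [map_sub, map_sub, map_sub, ← he, MatModel.phi, cyclo_frobenius hq hqp hA hσ,
        M.frob q hq hqN hqS hqp A hA σ hσ,
        sub_self])
  exact ⟨t, by rw [ht, Nat.add_sub_cancel_left, pow_one]⟩

variable {O : Type} [CommRing O] [IsDomain O] [IsDiscreteValuationRing O]
  {P : Type} [AddCommGroup P] [Module O P] [Module.Finite O P] [Module.Free O P]
  (Θ : CuspForm.heckeAlgebra N 2 (↑S : Set ℕ) →+* Module.End O P)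

/-- **Dropped operators keep their residual eigenvalue.** -/
theorem isTopNilpotent_of_dropped (M : MatModel N p ↑S) (hd : FrobeniusDense)
    (hp : (p : O) ∈ maximalIdeal O) (a : ℕ → O) (S₁ : Finset ℕ)
    (hnil : ∀ (ℓ : ℕ) (hℓ : ℓ.Prime) (hℓN : ¬ ℓ ∣ N) (hℓS : ℓ ∉ (↑S : Set ℕ)), ℓ ∉ S₁ →
      IsTopNilpotent (Θ (CuspForm.heckeAlgebra.T hℓ hℓN hℓS) -
        algebraMap O (Module.End O P) (a ℓ)))
    (ρbar : ResidualGaloisRep (ResidueField O))
    (hres : ∀ (ℓ : ℕ), ℓ.Prime → ¬ ℓ ∣ N → ℓ ∉ S → ℓ ≠ p →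
      ∀ A : ValuationSubring (AlgebraicClosure ℚ), A.LiesOverPrime ℓ →
        ∀ σ : Γℚ, A.IsFrobeniusAt σ ℓ →
          LinearMap.trace (ResidueField O) ρbar.V (ρbar.ρ σ) = residue O (a ℓ))
    {q : ℕ} (hq : q.Prime) (hqN : ¬ q ∣ N) (hqS : q ∉ (↑S : Set ℕ)) (hqp : q ≠ p)
    (A : ValuationSubring (AlgebraicClosure ℚ)) (hA : A.LiesOverPrime q) (σ : Γℚ)
    (hσ : A.IsFrobeniusAt σ q) :
    IsTopNilpotent (Θ (CuspForm.heckeAlgebra.T hq hqN hqS) -
      algebraMap O (Module.End O P) (a q)) := by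
  obtain ⟨L, hL, hker⟩ := ρbar.factorsThroughFiniteLevel
  obtain ⟨ℓ, hℓ, hℓN, hℓS, hℓS₁, hℓp, B, hB, τ, hτ, hag, t, ht⟩ :=
    exists_congr_approx M hd hq hqN hqS hqp A hA σ hσ L S₁
  have ha : a ℓ - a q ∈ maximalIdeal O := by
    rw [← residue_eq_zero_iff, map_sub, ← hres ℓ hℓ hℓN (by simpa using hℓS) hℓp B hB τ hτ,
      ← hres q hq hqN (by simpa using hqS) hqp A hA σ hσ, sub_eq_zero]
    conv_lhs => rw [show τ = σ * (σ⁻¹ * τ) by group, map_mul,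
      hker _ (fixing_of_agree hag).1, mul_one]
  obtain ⟨k, hk⟩ := hnil ℓ hℓ hℓN hℓS hℓS₁
  let xℓ : heckeImage Θ := toImage Θ (CuspForm.heckeAlgebra.T hℓ hℓN hℓS) -
    algebraMap O (heckeImage Θ) (a ℓ)
  let xq : heckeImage Θ := toImage Θ (CuspForm.heckeAlgebra.T hq hqN hqS) -
    algebraMap O (heckeImage Θ) (a q)
  obtain ⟨w, hw⟩ := sub_dvd_pow_sub_pow xq xℓ k
  have hdiff : xq - xℓ =
      algebraMap O (heckeImage Θ) (a ℓ - a q) - algebraMap O _ (p : O) * toImage Θ t := by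
    have h := congrArg (toImage Θ) ht
    rw [map_sub, map_nsmul, nsmul_eq_mul, ← map_natCast (algebraMap O (heckeImage Θ))] at h
    rw [← h, map_sub]
    simp only [xq, xℓ]
    ring
  refine ⟨k, fun v => ?_⟩
  have hmem : ∀ (c : O) (y : heckeImage Θ), c ∈ maximalIdeal O →
      ((algebraMap O (heckeImage Θ) c * y : heckeImage Θ) : Module.End O P) v ∈
        maximalIdeal O • (⊤ : Submodule O P) := fun c y hc => by
    rw [← Algebra.smul_def]
    exact Submodule.smul_mem_smul hc Submodule.mem_top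
  have key : ((xq ^ k - xℓ ^ k : heckeImage Θ) : Module.End O P) v ∈
      maximalIdeal O • (⊤ : Submodule O P) := by
    rw [hw, hdiff, sub_mul, mul_assoc]
    exact sub_mem (hmem _ _ ha) (hmem _ _ hp)
  have hl : ((xℓ ^ k : heckeImage Θ) : Module.End O P) v ∈
      maximalIdeal O • (⊤ : Submodule O P) := hk v
  have := add_mem key hl
  rwa [← LinearMap.add_apply, ← Subalgebra.coe_add, sub_add_cancel] at this

end FLTAgent.RT
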