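import Fermat.Agent.RT.HeckeRep.Pseudo
import Fermat.Agent.GalRep.Unramified
import Fermat.Agent.GalRep.AdicRep
import Fermat.Agent.Carayol.Rep
import Fermat.Prelude.Def_GaloisRep_LocalConditions
import Fermat.Prelude.Def_GaloisRep_ResidualEquiv
import Mathlib.Tactic.NoncommRing

/-!
# Galois representations over complete local rings receiving a Hecke algebra

From a matrix model of the Tate module of `J₀(N)`, a ring homomorphism `θ` of the Hecke algebra to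
a complete local ring `T` gives a pseudo-representation with values in `T`; if it is residually the
trace of an absolutely irreducible representation, it comes from a representation over `T`.
No reducedness is assumed.
-/

set_option autoImplicit false

namespace FLTAgent.RT

open Polynomial FLTAgent.GalRep IsLocalRing

local notation "Γℚ" => AlgebraicClosure ℚ ≃ₐ[ℚ] AlgebraicClosure ℚ

section Matrices

variable {N : ℕ} [NeZero N] {p : ℕ} [Fact p.Prime] {S : Finset ℕ} (M : MatModel N p ↑S)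

theorem redP_congr_of_le {r : ℕ} {m n : ℕ} (h : m ≤ n) {X Y : Matrix (Fin r) (Fin r) ℤ_[p]}
    (hXY : redP p n X = redP p n Y) : redP p m X = redP p m Y := by
  ext a b
  show PadicInt.toZModPow m (X a b) = PadicInt.toZModPow m (Y a b)
  rw [← PadicInt.zmod_cast_comp_toZModPow m n h, RingHom.comp_apply, RingHom.comp_apply]
  exact congrArg _ (congrFun (congrFun hXY a) b)

/-- Approximation by Hecke operators of Frobenius elements outside a given finite set. -/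
theorem exists_approx_avoid (hd : FrobeniusDense) (g : Γℚ) (n : ℕ) (S₁ : Finset ℕ)
    (L : IntermediateField ℚ (AlgebraicClosure ℚ)) [FiniteDimensional ℚ L] :
    ∃ (ℓ : ℕ) (hℓ : ℓ.Prime) (hℓN : ¬ ℓ ∣ N) (hℓS : ℓ ∉ (↑S : Set ℕ)), ℓ ∉ S₁ ∧
      ∃ A : ValuationSubring (AlgebraicClosure ℚ), A.LiesOverPrime ℓ ∧
        ∃ σ : Γℚ, A.IsFrobeniusAt σ ℓ ∧ ℓ ≠ p ∧ (∀ x ∈ L, σ x = g x) ∧
          redP p n (M.phi g) =
            redP p n (castP p (M.Tm (CuspForm.heckeAlgebra.T hℓ hℓN hℓS))) := by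
  obtain ⟨L₁, hL₁, h₁⟩ := M.cont n
  obtain ⟨L₂, hL₂, h₂⟩ := cyclo_continuous p n
  obtain ⟨ℓ, hℓ, hℓS, A, hA, σ, hσ, hag⟩ :=
    hd (L ⊔ L₁ ⊔ L₂) inferInstance g (insert p (S₁ ∪ S ∪ N.divisors))
  simp only [Finset.mem_insert, Finset.mem_union, Nat.mem_divisors, not_or] at hℓS
  obtain ⟨hℓp, ⟨hℓS₁, hℓS⟩, hℓN⟩ := hℓS
  have hℓN' : ¬ ℓ ∣ N := fun h => hℓN ⟨h, NeZero.ne N⟩
  refine ⟨ℓ, hℓ, hℓN', by simpa using hℓS, hℓS₁, A, hA, σ, hσ, hℓp,
    fun x hx => hag x (le_sup_left.trans (le_sup_left : L ⊔ L₁ ≤ L ⊔ L₁ ⊔ L₂) hx), ?_⟩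
  obtain ⟨ha, hb⟩ := fixing_of_agree hag
  have hle₁ : L₁ ≤ L ⊔ L₁ ⊔ L₂ := le_sup_right.trans le_sup_left
  have hle₂ : L₂ ≤ L ⊔ L₁ ⊔ L₂ := le_sup_right
  have e1 : redP p n (M.G σ) = redP p n (M.G g) := by
    rw [show σ = g * (g⁻¹ * σ) by group, map_mul, map_mul,
      h₁ _ fun x hx => ha x (hle₁ hx), mul_one]
  have e2 : redP p n (M.G g⁻¹) = redP p n (M.G σ⁻¹) := by
    rw [show g⁻¹ = g⁻¹ * σ * σ⁻¹ by group, map_mul, map_mul,
      h₁ _ fun x hx => ha x (hle₁ hx), one_mul]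
  have e3 : PadicInt.toZModPow n (cyclo p g : ℤ_[p]) = (ℓ : ZMod (p ^ n)) := by
    have h3 : (cyclo p σ : ℤ_[p]) = ℓ := cyclo_frobenius hℓ hℓp hA hσ
    rw [show g = σ * (σ⁻¹ * g) by group, map_mul, Units.val_mul, map_mul,
      h₂ _ fun x hx => hb x (hle₂ hx), mul_one, h3, map_natCast]
  rw [← M.frob ℓ hℓ hℓN' (by simpa using hℓS) hℓp A hA σ hσ, MatModel.phi, map_add, map_add,
    redP_smul, redP_smul, e1, e2, e3, map_natCast]

theorem phi_comm (hd : FrobeniusDense) (g h : Γℚ) : M.G h * M.phi g = M.phi g * M.G h := by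
  refine redP_ext fun n => ?_
  obtain ⟨ℓ, hℓ, hℓN, hℓS, A, -, σ, -, -, -, he⟩ := M.exists_approx hd g n ⊥
  rw [map_mul, map_mul, he, ← map_mul, ← map_mul, M.G_comm]

theorem phi_conj (g x : Γℚ) : M.phi (g * x * g⁻¹) = M.G g * M.phi x * M.G g⁻¹ := by
  have hχ : cyclo p (g * x * g⁻¹) = cyclo p x := by
    rw [map_mul, map_mul, map_inv, mul_comm (cyclo p g), mul_inv_cancel_right]
  rw [MatModel.phi, MatModel.phi, hχ, mul_add, add_mul, Matrix.mul_smul, Matrix.smul_mul,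
    show (g * x * g⁻¹)⁻¹ = g * x⁻¹ * g⁻¹ by group]
  simp only [map_mul]

theorem phi_mul_comm (hd : FrobeniusDense) (g h : Γℚ) : M.phi (g * h) = M.phi (h * g) := by
  conv_lhs => rw [show g * h = g * (h * g) * g⁻¹ by group]
  rw [phi_conj, phi_comm M hd, mul_assoc, ← map_mul, mul_inv_cancel, map_one, mul_one]

theorem phi_rel (hd : FrobeniusDense) (g h : Γℚ) :
    M.phi g * M.phi h = M.phi (g * h) + (cyclo p h : ℤ_[p]) • M.phi (g * h⁻¹) := by
  have key : M.G g⁻¹ * M.phi h = M.phi h * M.G g⁻¹ := phi_comm M hd h g⁻¹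
  have e1 : (g * h)⁻¹ = h⁻¹ * g⁻¹ := mul_inv_rev _ _
  have e2 : (g * h⁻¹)⁻¹ = h * g⁻¹ := by group
  have hχ : (cyclo p h : ℤ_[p]) * (cyclo p (g * h⁻¹) : ℤ_[p]) = cyclo p g := by
    rw [← Units.val_mul, map_mul, map_inv, mul_comm, inv_mul_cancel_right]
  have hχ' : (cyclo p (g * h) : ℤ_[p]) = cyclo p g * cyclo p h := by rw [map_mul, Units.val_mul]
  calc M.phi g * M.phi h
      = M.G g * M.phi h + (cyclo p g : ℤ_[p]) • (M.G g⁻¹ * M.phi h) := by
        rw [MatModel.phi, add_mul, Matrix.smul_mul]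
    _ = M.G g * M.phi h + (cyclo p g : ℤ_[p]) • (M.phi h * M.G g⁻¹) := by rw [key]
    _ = _ := by
        simp only [MatModel.phi, e1, e2, mul_add, add_mul, Matrix.mul_smul, Matrix.smul_mul,
          ← map_mul, smul_add, smul_smul, hχ, hχ']
        abel

theorem phi_one : M.phi 1 = 2 := by
  rw [MatModel.phi, map_one, inv_one, map_one, map_one, Units.val_one, one_smul, one_add_one_eq_two]

theorem phi_mul_inertia {q : ℕ} (hq : q.Prime) (hqn : ¬ q ∣ N * p)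
    {P : ValuationSubring (AlgebraicClosure ℚ)} (hP : P.LiesOverPrime q) {u : Γℚ}
    (hu : u ∈ P.inertiaSubgroupIn ℚ) (g : Γℚ) : M.phi (g * u) = M.phi g := by
  have hqp : q ≠ p := fun h => hqn (h ▸ dvd_mul_left q N)
  rw [MatModel.phi, MatModel.phi, _root_.mul_inv_rev, map_mul, map_mul, map_mul,
    M.inertia q hq hqn P hP u hu, M.inertia q hq hqn P hP u⁻¹ (inv_mem hu),
    cyclo_inertia hq hqp hP hu, mul_one, mul_one, one_mul]

end Matrices

section Limit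

variable {N : ℕ} [NeZero N] {p : ℕ} [Fact p.Prime] {S : Finset ℕ} (M : MatModel N p ↑S)
  {T : Type} [CommRing T] [IsLocalRing T] [IsAdicComplete (maximalIdeal T) T]
  (θ : CuspForm.heckeAlgebra N 2 (↑S : Set ℕ) →+* T)

include M in
/-- The pseudo-representation attached to a point `θ` of the Hecke algebra. -/
theorem exists_pseudo (hd : FrobeniusDense) (hp : (p : T) ∈ maximalIdeal T) :
    ∃ (τ : Γℚ → T) (χ : Γℚ →* Tˣ), Pseudo.IsPseudo τ χ ∧
      (χ complexConjugation : T) = -1 ∧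
      (∀ (n : ℕ) (σ : Γℚ) (a : ℕ),
        (∀ μ : AlgebraicClosure ℚ, μ ^ p ^ n = 1 → σ μ = μ ^ a) →
          (χ σ : T) - (a : T) ∈ Ideal.span {((p ^ n : ℕ) : T)}) ∧
      (∀ (ℓ : ℕ) (hℓ : ℓ.Prime) (hℓN : ¬ ℓ ∣ N) (hℓS : ℓ ∉ (↑S : Set ℕ)), ℓ ≠ p →
        ∀ A : ValuationSubring (AlgebraicClosure ℚ), A.LiesOverPrime ℓ →
          ∀ σ : Γℚ, A.IsFrobeniusAt σ ℓ →
            τ σ = θ (CuspForm.heckeAlgebra.T hℓ hℓN hℓS) ∧ (χ σ : T) = (ℓ : T)) ∧
      (∀ n : ℕ, ∃ L : IntermediateField ℚ (AlgebraicClosure ℚ), FiniteDimensional ℚ L ∧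
        ∀ σ : Γℚ, (∀ x ∈ L, σ x = x) → ∀ h, τ (h * σ) - τ h ∈ maximalIdeal T ^ n) ∧
      (∀ q : ℕ, q.Prime → ¬ q ∣ N * p →
        ∀ A : ValuationSubring (AlgebraicClosure ℚ), A.LiesOverPrime q →
          ∀ σ ∈ A.inertiaSubgroupIn ℚ, ∀ h, τ (h * σ) = τ h) ∧
      (∀ (g : Γℚ) (L : IntermediateField ℚ (AlgebraicClosure ℚ)) (_ : FiniteDimensional ℚ L)
        (S₁ : Finset ℕ),
        ∃ (ℓ : ℕ) (hℓ : ℓ.Prime) (hℓN : ¬ ℓ ∣ N) (hℓS : ℓ ∉ (↑S : Set ℕ)), ℓ ∉ S₁ ∧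
          ∃ A : ValuationSubring (AlgebraicClosure ℚ), A.LiesOverPrime ℓ ∧
            ∃ σ : Γℚ, A.IsFrobeniusAt σ ℓ ∧ ℓ ≠ p ∧ (∀ x ∈ L, σ x = g x) ∧
              τ g - θ (CuspForm.heckeAlgebra.T hℓ hℓN hℓS) ∈ maximalIdeal T) := by
  classical
  obtain ⟨c, hc⟩ := M.exists_bound
  obtain ⟨ψ⟩ := exists_padicHom p T hp
  have hsmall : ∀ (n : ℕ) (t : CuspForm.heckeAlgebra N 2 (↑S : Set ℕ)),
      redP p (n + c) (castP p (M.Tm t)) = 0 → θ t ∈ maximalIdeal T ^ n := fun n t ht => by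
    obtain ⟨t', ht'⟩ := hc _ t ht
    rw [ht']
    exact map_mem_maximalIdeal_pow θ hp (by omega) t'
  have hex : ∀ g n, ∃ t, redP p n (M.phi g) = redP p n (castP p (M.Tm t)) := fun g n => by
    obtain ⟨ℓ, hℓ, hℓN, hℓS, A, -, σ, -, -, -, he⟩ := M.exists_approx hd g n ⊥
    exact ⟨_, he⟩
  choose t ht using hex
  have hclose : ∀ (n : ℕ) (g : Γℚ) (s s' : CuspForm.heckeAlgebra N 2 (↑S : Set ℕ)),
      redP p (n + c) (M.phi g) = redP p (n + c) (castP p (M.Tm s)) →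
      redP p (n + c) (M.phi g) = redP p (n + c) (castP p (M.Tm s')) →
      θ s - θ s' ∈ maximalIdeal T ^ n := fun n g s s' h h' => by
    rw [← map_sub]
    refine hsmall n _ ?_
    rw [map_sub, map_sub, map_sub, ← h, ← h', sub_self]
  have hlim : ∀ g, ∃ x : T, ∀ n, x - θ (t g (n + c)) ∈ maximalIdeal T ^ n := fun g => by
    obtain ⟨x, hx⟩ := IsPrecomplete.prec' (I := maximalIdeal T) (M := T)
      (fun n => θ (t g (n + c))) fun {m n} hmn => by
        rw [SModEq.sub_mem, smul_eq_mul, Ideal.mul_top]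
        exact hclose m g _ _ (ht g _) (redP_congr_of_le (by omega) (ht g (n + c)))
    refine ⟨x, fun n => ?_⟩
    have := hx n
    rw [SModEq.sub_mem, smul_eq_mul, Ideal.mul_top] at this
    rw [← neg_sub]
    exact neg_mem this
  choose τ hτ using hlim
  have hτ' : ∀ (n : ℕ) (g : Γℚ) (s : CuspForm.heckeAlgebra N 2 (↑S : Set ℕ)),
      redP p (n + c) (M.phi g) = redP p (n + c) (castP p (M.Tm s)) →
        τ g - θ s ∈ maximalIdeal T ^ n := fun n g s hs => by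
    simpa using add_mem (hτ g n) (hclose n g _ s (ht g _) hs)
  have hzero : ∀ x : T, (∀ n, x ∈ maximalIdeal T ^ n) → x = 0 := fun x hx =>
    IsHausdorff.haus' (I := maximalIdeal T) x fun n => by
      rw [SModEq.sub_mem, smul_eq_mul, Ideal.mul_top, sub_zero]
      exact hx n
  have hcongr : ∀ (n : ℕ) (g g' : Γℚ),
      redP p (n + c) (M.phi g) = redP p (n + c) (M.phi g') →
        τ g - τ g' ∈ maximalIdeal T ^ n := fun n g g' h => by
    have := sub_mem (hτ' n g _ (h.trans (ht g' _))) (hτ g' n)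
    simpa using this
  let χ : Γℚ →* Tˣ := (Units.map ψ.toMonoidHom).comp (cyclo p)
  have hχ : ∀ g, (χ g : T) = ψ (cyclo p g : ℤ_[p]) := fun g => rfl
  refine ⟨τ, χ, ⟨?_, ?_, ?_⟩, ?_, ?_, ?_, ?_, ?_, ?_⟩
  · refine sub_eq_zero.mp (hzero _ fun n => ?_)
    have := hτ' n 1 2 (by rw [phi_one, map_ofNat M.Tm, map_ofNat (castP p)])
    rwa [map_ofNat θ] at this
  · intro g h
    exact sub_eq_zero.mp (hzero _ fun n => hcongr n _ _ (by rw [phi_mul_comm M hd]))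
  · intro g h
    refine sub_eq_zero.mp (hzero _ fun n => ?_)
    set a : ℕ := (PadicInt.toZModPow (n + c) (cyclo p h : ℤ_[p])).val
    haveI : NeZero (p ^ (n + c)) := ⟨pow_ne_zero _ (Fact.out : p.Prime).ne_zero⟩
    have ha : PadicInt.toZModPow (n + c) (cyclo p h : ℤ_[p]) = (a : ZMod (p ^ (n + c))) :=
      (ZMod.natCast_zmod_val _).symm
    have hX : θ (t (g * h) (n + c) + a • t (g * h⁻¹) (n + c) - t g (n + c) * t h (n + c)) ∈
        maximalIdeal T ^ n := by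
      refine hsmall n _ ?_
      simp only [map_sub, map_add, map_mul, map_nsmul, ← ht]
      rw [← Nat.cast_smul_eq_nsmul (ZMod (p ^ (n + c))), ← ha, ← redP_smul, ← map_add, ← map_mul,
        ← map_sub, phi_rel M hd, sub_self, map_zero]
    simp only [map_sub, map_add, map_mul, map_nsmul, nsmul_eq_mul, map_natCast] at hX
    have hψ : (χ h : T) - (a : T) ∈ maximalIdeal T ^ n := by
      refine Ideal.pow_le_pow_right (Nat.le_add_right n c) ?_
      rw [hχ, ← map_natCast ψ, ← map_sub]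
      exact padicHom_mem_pow ψ hp (by rw [map_sub, map_natCast, ha, sub_self])
    have h1 := hτ (g * h) n
    have h2 := Ideal.mul_mem_left _ (χ h : T) (hτ (g * h⁻¹) n)
    have h3 := Ideal.mul_mem_right (θ (t (g * h⁻¹) (n + c))) _ hψ
    have h4 := Ideal.mul_mem_right (τ h) _ (hτ g n)
    have h5 := Ideal.mul_mem_left _ (θ (t g (n + c))) (hτ h n)
    convert add_mem (sub_mem (add_mem (add_mem h1 h2) h3) (add_mem h4 h5)) hX using 1
    ring
  · rw [hχ, cyclo_complexConjugation, map_neg, map_one]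
  · intro n σ a ha
    rw [hχ, Nat.cast_pow, ← map_natCast ψ p, ← map_pow, ← map_natCast ψ a, ← map_sub]
    obtain ⟨ζ, hζ⟩ := HasEnoughRootsOfUnity.exists_primitiveRoot (AlgebraicClosure ℚ) (p ^ n)
    have h0 : PadicInt.toZModPow n ((cyclo p σ : ℤ_[p]) - (a : ℤ_[p])) = 0 := by
      rw [map_sub, map_natCast, toZModPow_cyclo_eq_natCast p σ hζ (ha ζ hζ.pow_eq_one), sub_self]
    rw [← RingHom.mem_ker, PadicInt.ker_toZModPow, Ideal.mem_span_singleton] at h0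
    exact Ideal.mem_span_singleton.mpr (map_dvd ψ h0)
  · intro ℓ hℓ hℓN hℓS hℓp A hA σ hσ
    refine ⟨sub_eq_zero.mp (hzero _ fun n => hτ' n σ _ ?_), ?_⟩
    · rw [MatModel.phi, cyclo_frobenius hℓ hℓp hA hσ, M.frob ℓ hℓ hℓN hℓS hℓp A hA σ hσ]
    · rw [hχ, cyclo_frobenius hℓ hℓp hA hσ, map_natCast]
  · intro n
    obtain ⟨L₁, hL₁, h₁⟩ := M.cont (n + c)
    obtain ⟨L₂, hL₂, h₂⟩ := cyclo_continuous p (n + c)
    refine ⟨L₁ ⊔ L₂, inferInstance, fun σ hσ h => hcongr n _ _ ?_⟩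
    have hσ' : ∀ x ∈ L₁, σ⁻¹ x = x := fun x hx => by
      conv_lhs => rw [← hσ x ((le_sup_left : L₁ ≤ L₁ ⊔ L₂) hx)]
      exact σ.symm_apply_apply x
    simp only [MatModel.phi, map_add, redP_smul, _root_.mul_inv_rev, map_mul, Units.val_mul,
      h₁ σ fun x hx => hσ x ((le_sup_left : L₁ ≤ L₁ ⊔ L₂) hx), h₁ σ⁻¹ hσ',
      h₂ σ fun x hx => hσ x ((le_sup_right : L₂ ≤ L₁ ⊔ L₂) hx), mul_one, one_mul]
  · intro q hq hqn A hA σ hσ h
    exact sub_eq_zero.mp (hzero _ fun n => hcongr n _ _ (by rw [phi_mul_inertia M hq hqn hA hσ]))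
  · intro g L hL S₁
    obtain ⟨ℓ, hℓ, hℓN, hℓS, hℓS₁, A, hA, σ, hσ, hℓp, hag, he⟩ :=
      exists_approx_avoid M hd g (1 + c) S₁ L
    refine ⟨ℓ, hℓ, hℓN, hℓS, hℓS₁, A, hA, σ, hσ, hℓp, hag, ?_⟩
    simpa using hτ' 1 g _ he

include M in
/-- **The representation over a Hecke algebra**: if the residual trace of a point `θ` of the Hecke
algebra with values in a complete local ring is the trace of an absolutely irreducible
representation, `θ` has an attached representation. -/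
theorem exists_galoisRepAdic (hd : FrobeniusDense) (hp2 : p ≠ 2) (hp : (p : T) ∈ maximalIdeal T)
    (ρbar : ResidualGaloisRep (ResidueField T)) (habs : ρbar.IsAbsolutelyIrreducible)
    (S₁ : Finset ℕ)
    (hres : ∀ (ℓ : ℕ) (hℓ : ℓ.Prime) (hℓN : ¬ ℓ ∣ N) (hℓS : ℓ ∉ (↑S : Set ℕ)), ℓ ∉ S₁ → ℓ ≠ p →
      ∀ A : ValuationSubring (AlgebraicClosure ℚ), A.LiesOverPrime ℓ →
        ∀ σ : Γℚ, A.IsFrobeniusAt σ ℓ →
          LinearMap.trace (ResidueField T) ρbar.V (ρbar.ρ σ) =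
            residue T (θ (CuspForm.heckeAlgebra.T hℓ hℓN hℓS))) :
    ∃ ρ : GaloisRepAdic T,
      (∀ (ℓ : ℕ) (hℓ : ℓ.Prime) (hℓN : ¬ ℓ ∣ N) (hℓS : ℓ ∉ (↑S : Set ℕ)), ℓ ≠ p →
        ∀ A : ValuationSubring (AlgebraicClosure ℚ), A.LiesOverPrime ℓ →
          ∀ σ : Γℚ, A.IsFrobeniusAt σ ℓ →
            ρ.trace σ = θ (CuspForm.heckeAlgebra.T hℓ hℓN hℓS) ∧
            LinearMap.charpoly (ρ.ρ σ) =
              X ^ 2 - C (θ (CuspForm.heckeAlgebra.T hℓ hℓN hℓS)) * X + C ((ℓ : T))) ∧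
      ρ.DetIsCyclotomic p ∧
      (∀ q : ℕ, q.Prime → ¬ q ∣ N * p → ρ.IsUnramifiedAt q) ∧
      ρ.residual.IsEquiv ρbar := by
  classical
  obtain ⟨τ, χ, hτ, hχc, hdet, hfrob, hcont, hinert, happ⟩ := exists_pseudo M θ hd hp
  have hbar : ∀ g, residue T (τ g) = LinearMap.trace (ResidueField T) ρbar.V (ρbar.ρ g) := by
    intro g
    obtain ⟨L, hL, hker⟩ := ρbar.factorsThroughFiniteLevel
    obtain ⟨ℓ, hℓ, hℓN, hℓS, hℓS₁, A, hA, σ, hσ, hℓp, hag, he⟩ := happ g L hL S₁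
    have hgσ : ρbar.ρ g = ρbar.ρ σ := by
      conv_lhs => rw [show g = σ * (σ⁻¹ * g) by group, map_mul, hker _ (fixing_of_agree hag).2,
        mul_one]
    rw [← IsLocalRing.residue_eq_zero_iff, map_sub, sub_eq_zero] at he
    rw [he, hgσ, hres ℓ hℓ hℓN hℓS hℓS₁ hℓp A hA σ hσ]
  have h2 : IsUnit (2 : T) := by
    rw [← IsLocalRing.notMem_maximalIdeal]
    intro h
    have hcop : Nat.Coprime 2 p := (Nat.coprime_primes Nat.prime_two Fact.out).mpr (Ne.symm hp2)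
    have h1 : ((Nat.gcd 2 p : ℕ) : ℤ) = (2 : ℕ) * Nat.gcdA 2 p + p * Nat.gcdB 2 p :=
      Nat.gcd_eq_gcd_ab 2 p
    rw [hcop.gcd_eq_one] at h1
    refine (maximalIdeal.isMaximal T).ne_top ((Ideal.eq_top_iff_one _).mpr ?_)
    have e := congrArg (fun z : ℤ => (z : T)) h1
    push_cast at e
    rw [e]
    exact add_mem (Ideal.mul_mem_right _ _ h) (Ideal.mul_mem_right _ _ hp)
  obtain ⟨g, hg⟩ := Carayol.hasUnitGram_of_isAbsolutelyIrreducible ρbar habs
  have hgram : IsUnit (Matrix.det (Matrix.of fun a b => τ (g a * g b))) := by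
    rw [← IsLocalRing.notMem_maximalIdeal, ← IsLocalRing.residue_eq_zero_iff, RingHom.map_det]
    refine fun h0 => hg.ne_zero (Eq.trans ?_ h0)
    congr 1
    ext a b
    show (Carayol.resMat ρbar (g a * g b)).trace = residue T (τ (g a * g b))
    rw [hbar, Carayol.resMat, Carayol.trace_matHom]
  obtain ⟨ρ, htr, hmem⟩ := Pseudo.exists_rep hτ h2 complexConjugation_mul_self hχc hgram
  have hρc : ∀ n : ℕ, ∃ L : IntermediateField ℚ (AlgebraicClosure ℚ), FiniteDimensional ℚ L ∧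
      ∀ σ : Γℚ, (∀ x ∈ L, σ x = x) → ∀ a b, (ρ σ - 1) a b ∈ maximalIdeal T ^ n := fun n => by
    obtain ⟨L, hL, h⟩ := hcont n
    exact ⟨L, hL, fun σ hσ => hmem _ σ (h σ hσ)⟩
  have htrace : ∀ σ, (adicOfMat ρ hρc).trace σ = τ σ := fun σ => by
    rw [← (htr σ).1]
    exact Matrix.trace_toLin'_eq (ρ σ)
  refine ⟨adicOfMat ρ hρc, ?_, ⟨hp, ?_⟩, ?_, ?_⟩
  · intro ℓ hℓ hℓN hℓS hℓp A hA σ hσ
    obtain ⟨e1, e2⟩ := hfrob ℓ hℓ hℓN hℓS hℓp A hA σ hσ
    refine ⟨(htrace σ).trans e1, ?_⟩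
    rw [charpoly_adicOfMat, (htr σ).1, (htr σ).2, e1, e2]
  · intro n σ a ha
    show LinearMap.det (Matrix.toLinAlgEquiv' (ρ σ)) - _ ∈ _
    rw [show Matrix.toLinAlgEquiv' (ρ σ) = Matrix.toLin' (ρ σ) from rfl, LinearMap.det_toLin',
      (htr σ).2]
    exact hdet n σ a ha
  · intro q hq hqn
    refine isUnramifiedAt_adicOfMat ρ hρc q fun P hP σ hσ => ?_
    refine sub_eq_zero.mp (Matrix.ext fun a b => ?_)
    exact (Submodule.mem_bot T).mp
      (hmem ⊥ σ (fun h => by rw [hinert q hq hqn P hP σ hσ h, sub_self]; exact zero_mem _) a b)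
  · have htb : ∀ σ, LinearMap.trace (ResidueField T) ρbar.V (ρbar.ρ σ) =
        LinearMap.trace (ResidueField T) (adicOfMat ρ hρc).residual.V
          ((adicOfMat ρ hρc).residual.ρ σ) := fun σ => by
      rw [← hbar, ← htrace]
      exact (LinearMap.trace_baseChange ((adicOfMat ρ hρc).ρ σ) (ResidueField T)).symm
    obtain ⟨e⟩ := Carayol.residual_isEquiv_of_trace_eq habs htb
    exact ⟨e.symm⟩

end Limit

end FLTAgent.RT
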