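import Fermat.Agent.RT.HeckeRep.Image
import Fermat.Agent.RT.HeckeRep.Limit
import Fermat.Agent.CommAlg.RtoT
import Fermat.Agent.CommAlg.FrobeniusExists
import Mathlib.Algebra.Module.Pi
import Mathlib.Algebra.Module.LinearMap.End

/-!
# The representation over the Hecke algebra acting on a lattice

A homomorphism `Θ` of a Hecke algebra to the endomorphisms of a finite free module over a complete
discrete valuation ring, residually a system of eigenvalues, gives a local complete algebra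
`heckeImage Θ`, a Galois representation over it, and the map from a deformation ring onto it.
-/

set_option autoImplicit false

namespace FLTAgent.RT

open Polynomial FLTAgent.GalRep IsLocalRing

local notation "Γℚ" => AlgebraicClosure ℚ ≃ₐ[ℚ] AlgebraicClosure ℚ

variable {N : ℕ} [NeZero N] {S : Finset ℕ} {O : Type} [CommRing O]
  {P : Type} [AddCommGroup P] [Module O P]
  (Θ : CuspForm.heckeAlgebra N 2 (↑S : Set ℕ) →+* Module.End O P)

/-- The algebra generated by the image of the Hecke algebra. -/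
def heckeImage : Subalgebra O (Module.End O P) :=
  Algebra.adjoin O (Set.range Θ)

instance heckeImage.instIsMulCommutative : IsMulCommutative (heckeImage Θ) :=
  Algebra.isMulCommutative_adjoin O fun x hx y hy => by
    obtain ⟨s, rfl⟩ := hx
    obtain ⟨t, rfl⟩ := hy
    exact (Commute.all s t).map Θ

open scoped IsMulCommutative in
instance heckeImage.instCommRing : CommRing (heckeImage Θ) := inferInstance

/-- The Hecke algebra maps to its image. -/
def toImage : CuspForm.heckeAlgebra N 2 (↑S : Set ℕ) →+* heckeImage Θ :=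
  Θ.codRestrict (heckeImage Θ) fun t => Algebra.subset_adjoin ⟨t, rfl⟩

theorem coe_toImage (t : CuspForm.heckeAlgebra N 2 (↑S : Set ℕ)) :
    ((toImage Θ t : heckeImage Θ) : Module.End O P) = Θ t := rfl

/-- The good Hecke operators inside the image. -/
def imageGens : Set (heckeImage Θ) :=
  {x | ∃ (ℓ : ℕ) (hℓ : ℓ.Prime) (hℓN : ¬ ℓ ∣ N) (hℓS : ℓ ∉ (↑S : Set ℕ)),
    x = toImage Θ (CuspForm.heckeAlgebra.T hℓ hℓN hℓS)}

theorem adjoin_imageGens (hS : ∀ q : ℕ, q.Prime → q ∣ N → q ∈ S) :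
    Algebra.adjoin O (imageGens Θ) = ⊤ := by
  have hgen : ∀ t, toImage Θ t ∈ Algebra.adjoin O (imageGens Θ) := by
    rintro ⟨x, hx⟩
    change x ∈ Algebra.adjoin ℤ (CuspForm.heckeGenerators N 2 (↑S : Set ℕ)) at hx
    induction hx using Algebra.adjoin_induction with
    | mem x hx =>
      rcases hx with ⟨l, hl, hlN, hlS, rfl⟩ | ⟨q, hqN, hq, hqS, -⟩
      · exact Algebra.subset_adjoin ⟨l, hl, hlN, hlS, rfl⟩
      · exact absurd (hS q hq hqN) hqS
    | algebraMap n =>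
      rw [show (⟨_, algebraMap_mem (CuspForm.heckeAlgebra N 2 (↑S : Set ℕ)) n⟩ :
        CuspForm.heckeAlgebra N 2 (↑S : Set ℕ)) = algebraMap ℤ _ n from rfl, eq_intCast,
        map_intCast]
      exact intCast_mem _ n
    | add x y hx hy ihx ihy =>
      exact map_add (toImage Θ) ⟨x, hx⟩ ⟨y, hy⟩ ▸ add_mem ihx ihy
    | mul x y hx hy ihx ihy =>
      exact map_mul (toImage Θ) ⟨x, hx⟩ ⟨y, hy⟩ ▸ mul_mem ihx ihy
  refine eq_top_iff.mpr fun x _ => ?_
  have hle : heckeImage Θ ≤ (Algebra.adjoin O (imageGens Θ)).map (heckeImage Θ).val :=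
    Algebra.adjoin_le (Set.range_subset_iff.mpr fun t => ⟨toImage Θ t, hgen t, rfl⟩)
  obtain ⟨y, hy, hyx⟩ := hle x.2
  exact Subtype.ext hyx ▸ hy

theorem nontrivial_heckeImage [Nontrivial P] : Nontrivial (heckeImage Θ) :=
  ⟨⟨0, 1, fun h => by
    obtain ⟨v, hv⟩ := exists_ne (0 : P)
    exact hv (by simpa using (LinearMap.congr_fun (congrArg Subtype.val h) v).symm)⟩⟩

section Finite

variable [Module.Finite O P] [Module.Free O P]

instance heckeImage.instFinite [IsNoetherianRing O] : Module.Finite O (heckeImage Θ) :=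
  Module.Finite.of_injective (heckeImage Θ).val.toLinearMap Subtype.val_injective

instance heckeImage.instFree [IsDomain O] [IsPrincipalIdealRing O] :
    Module.Free O (heckeImage Θ) :=
  Module.Free.of_basis
    (Submodule.basisOfPid (Module.Free.chooseBasis O (Module.End O P))
      (heckeImage Θ).toSubmodule).2

instance heckeImage.instIsNoetherianRing [IsNoetherianRing O] :
    IsNoetherianRing (heckeImage Θ) :=
  IsNoetherianRing.of_finite O _

variable [IsDomain O] [IsDiscreteValuationRing O]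

/-- The residual system of eigenvalues makes every element a scalar modulo every maximal ideal. -/
theorem heckeImage_scalar (hS : ∀ q : ℕ, q.Prime → q ∣ N → q ∈ S) (a : ℕ → O)
    (hnil : ∀ (ℓ : ℕ) (hℓ : ℓ.Prime) (hℓN : ¬ ℓ ∣ N) (hℓS : ℓ ∉ (↑S : Set ℕ)),
      IsTopNilpotent (Θ (CuspForm.heckeAlgebra.T hℓ hℓN hℓS) -
        algebraMap O (Module.End O P) (a ℓ)))
    (x : heckeImage Θ) :
    ∃ r : O, ∀ m : Ideal (heckeImage Θ), m.IsMaximal →
      x - algebraMap O (heckeImage Θ) r ∈ m := by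
  refine exists_scalar_of_adjoin (adjoin_imageGens Θ hS) ?_ x
  rintro g ⟨ℓ, hℓ, hℓN, hℓS, rfl⟩
  exact ⟨a ℓ, fun m hm => mem_of_isTopNilpotent (heckeImage Θ).val Subtype.val_injective
    (by simpa [coe_toImage] using hnil ℓ hℓ hℓN hℓS) m⟩

theorem isLocalRing_heckeImage [Nontrivial P] (hS : ∀ q : ℕ, q.Prime → q ∣ N → q ∈ S) (a : ℕ → O)
    (hnil : ∀ (ℓ : ℕ) (hℓ : ℓ.Prime) (hℓN : ¬ ℓ ∣ N) (hℓS : ℓ ∉ (↑S : Set ℕ)),
      IsTopNilpotent (Θ (CuspForm.heckeAlgebra.T hℓ hℓN hℓS) -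
        algebraMap O (Module.End O P) (a ℓ))) :
    IsLocalRing (heckeImage Θ) := by
  have := nontrivial_heckeImage Θ
  exact isLocalRing_of_scalar (heckeImage_scalar Θ hS a hnil)

variable [IsLocalRing (heckeImage Θ)]

instance heckeImage.instIsLocalHom : IsLocalHom (algebraMap O (heckeImage Θ)) :=
  isLocalHom_of_finite

instance heckeImage.instIsAdicComplete [IsAdicComplete (maximalIdeal O) O] :
    IsAdicComplete (maximalIdeal (heckeImage Θ)) (heckeImage Θ) :=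
  isAdicComplete_of_finite_free (O := O)

theorem residue_toImage (a : ℕ → O)
    (hnil : ∀ (ℓ : ℕ) (hℓ : ℓ.Prime) (hℓN : ¬ ℓ ∣ N) (hℓS : ℓ ∉ (↑S : Set ℕ)),
      IsTopNilpotent (Θ (CuspForm.heckeAlgebra.T hℓ hℓN hℓS) -
        algebraMap O (Module.End O P) (a ℓ)))
    (ℓ : ℕ) (hℓ : ℓ.Prime) (hℓN : ¬ ℓ ∣ N) (hℓS : ℓ ∉ (↑S : Set ℕ)) :
    residue _ (toImage Θ (CuspForm.heckeAlgebra.T hℓ hℓN hℓS)) =
      ResidueField.map (algebraMap O (heckeImage Θ)) (residue O (a ℓ)) := by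
  rw [ResidueField.map_residue]
  exact Ideal.Quotient.eq.mpr
    (mem_of_isTopNilpotent (heckeImage Θ).val Subtype.val_injective
      (by simpa [coe_toImage] using hnil ℓ hℓ hℓN hℓS) _)

end Finite

/-- Absolute irreducibility is stable under extension of the field. -/
theorem isAbsolutelyIrreducible_baseChangeAlong {k k' : Type} [Field k] [Field k'] (φ : k →+* k')
    (ρ : ResidualGaloisRep k) (h : ρ.IsAbsolutelyIrreducible) :
    (ρ.baseChangeAlong φ).IsAbsolutelyIrreducible := by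
  let : Algebra k k' := φ.toAlgebra
  obtain ⟨g, hg⟩ := Carayol.hasUnitGram_of_isAbsolutelyIrreducible ρ h
  refine Carayol.isAbsolutelyIrreducible_of_hasUnitGram _
    (Carayol.hasUnitGram_congr (fun σ => ?_)
      (⟨g, ?_⟩ : Carayol.HasUnitGram (Carayol.matHom
        (Algebra.TensorProduct.basis k' (Carayol.resBasis ρ)) (ρ.baseChange k').ρ)))
  · rw [Carayol.resMat, Carayol.trace_matHom, Carayol.trace_matHom]
    rfl
  · rw [Carayol.gram_baseChange, ← RingHom.mapMatrix_apply, ← RingHom.map_det]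
    exact hg.map _

variable [Module.Finite O P] [Module.Free O P] [IsDomain O] [IsDiscreteValuationRing O]
  [IsAdicComplete (maximalIdeal O) O] [IsLocalRing (heckeImage Θ)]

/-- **The Galois representation over the Hecke algebra of a lattice.** -/
theorem exists_rep_heckeImage {p : ℕ} [Fact p.Prime] (M : MatModel N p ↑S) (hd : FrobeniusDense)
    (hp2 : p ≠ 2) (hp : (p : O) ∈ maximalIdeal O) (a : ℕ → O)
    (hnil : ∀ (ℓ : ℕ) (hℓ : ℓ.Prime) (hℓN : ¬ ℓ ∣ N) (hℓS : ℓ ∉ (↑S : Set ℕ)),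
      IsTopNilpotent (Θ (CuspForm.heckeAlgebra.T hℓ hℓN hℓS) -
        algebraMap O (Module.End O P) (a ℓ)))
    (ρbar : ResidualGaloisRep (ResidueField O)) (habs : ρbar.IsAbsolutelyIrreducible)
    (S₁ : Finset ℕ)
    (hres : ∀ (ℓ : ℕ), ℓ.Prime → ¬ ℓ ∣ N → ℓ ∉ S → ℓ ∉ S₁ → ℓ ≠ p →
      ∀ A : ValuationSubring (AlgebraicClosure ℚ), A.LiesOverPrime ℓ →
        ∀ σ : Γℚ, A.IsFrobeniusAt σ ℓ →
          LinearMap.trace (ResidueField O) ρbar.V (ρbar.ρ σ) = residue O (a ℓ)) :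
    ∃ ρ : GaloisRepAdic (heckeImage Θ),
      (∀ (ℓ : ℕ) (hℓ : ℓ.Prime) (hℓN : ¬ ℓ ∣ N) (hℓS : ℓ ∉ (↑S : Set ℕ)), ℓ ≠ p →
        ∀ A : ValuationSubring (AlgebraicClosure ℚ), A.LiesOverPrime ℓ →
          ∀ σ : Γℚ, A.IsFrobeniusAt σ ℓ →
            ρ.trace σ = toImage Θ (CuspForm.heckeAlgebra.T hℓ hℓN hℓS) ∧
            LinearMap.charpoly (ρ.ρ σ) =
              X ^ 2 - C (toImage Θ (CuspForm.heckeAlgebra.T hℓ hℓN hℓS)) * X +
                C ((ℓ : heckeImage Θ))) ∧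
      ρ.DetIsCyclotomic p ∧
      (∀ q : ℕ, q.Prime → ¬ q ∣ N * p → ρ.IsUnramifiedAt q) ∧
      ρ.residual.IsEquiv
        (ρbar.baseChangeAlong (ResidueField.map (algebraMap O (heckeImage Θ)))) := by
  refine exists_galoisRepAdic M (toImage Θ) hd hp2 ?_ _
    (isAbsolutelyIrreducible_baseChangeAlong _ ρbar habs) S₁ ?_
  · rw [← map_natCast (algebraMap O (heckeImage Θ)) p]
    exact map_nonunit (algebraMap O (heckeImage Θ)) _ hp
  · intro ℓ hℓ hℓN hℓS hℓS₁ hℓp A hA σ hσ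
    rw [residue_toImage Θ a hnil ℓ hℓ hℓN hℓS,
      ← hres ℓ hℓ hℓN (by simpa using hℓS) hℓS₁ hℓp A hA σ hσ]
    let : Algebra (ResidueField O) (ResidueField (heckeImage Θ)) :=
      (ResidueField.map (algebraMap O (heckeImage Θ))).toAlgebra
    exact LinearMap.trace_baseChange (ρbar.ρ σ) (ResidueField (heckeImage Θ))

/-- **The map from a deformation ring onto the Hecke algebra of a lattice.** -/
theorem exists_algHom_heckeImage {p : ℕ} (hS : ∀ q : ℕ, q.Prime → q ∣ N → q ∈ S) (hpS : p ∈ S)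
    (a : ℕ → O)
    (hnil : ∀ (ℓ : ℕ) (hℓ : ℓ.Prime) (hℓN : ¬ ℓ ∣ N) (hℓS : ℓ ∉ (↑S : Set ℕ)),
      IsTopNilpotent (Θ (CuspForm.heckeAlgebra.T hℓ hℓN hℓS) -
        algebraMap O (Module.End O P) (a ℓ)))
    {ρbar : ResidualGaloisRep (ResidueField O)}
    {𝒟 : ∀ ⦃A : Type⦄ [CommRing A] [IsLocalRing A] [Algebra O A], GaloisRepAdic A → Prop}
    (D : GaloisRep.DeformationRingData O ρbar 𝒟) (ρ : GaloisRepAdic (heckeImage Θ))
    (htr : ∀ (ℓ : ℕ) (hℓ : ℓ.Prime) (hℓN : ¬ ℓ ∣ N) (hℓS : ℓ ∉ (↑S : Set ℕ)), ℓ ≠ p →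
      ∀ A : ValuationSubring (AlgebraicClosure ℚ), A.LiesOverPrime ℓ →
        ∀ σ : Γℚ, A.IsFrobeniusAt σ ℓ →
          ρ.trace σ = toImage Θ (CuspForm.heckeAlgebra.T hℓ hℓN hℓS))
    (h𝒟 : 𝒟 ρ)
    (hres : ρ.residual.IsEquiv
      (ρbar.baseChangeAlong (ResidueField.map (algebraMap O (heckeImage Θ))))) :
    ∃ φ : D.R →ₐ[O] heckeImage Θ, Function.Surjective φ ∧
      (∀ σ, φ (D.ρ.trace σ) = ρ.trace σ) ∧
      ∃ hφ : IsLocalHom (φ : D.R →+* heckeImage Θ),
        (D.ρ.baseChangeAlong (φ : D.R →+* heckeImage Θ) hφ).IsEquiv ρ := by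
  obtain ⟨φ, ⟨hφ, heq⟩, -⟩ := D.universal (heckeImage Θ)
    (residue_surjective_of_scalar (heckeImage_scalar Θ hS a hnil)) ρ h𝒟 hres
  have htrφ : ∀ σ, φ (D.ρ.trace σ) = ρ.trace σ := fun σ => by
    rw [← CommAlg.trace_eq_of_isEquiv heq, CommAlg.trace_baseChangeAlong]
    rfl
  refine ⟨φ, fun x => ?_, htrφ, hφ, heq⟩
  have hle : Algebra.adjoin O (imageGens Θ) ≤ φ.range := by
    refine Algebra.adjoin_le ?_
    rintro _ ⟨ℓ, hℓ, hℓN, hℓS, rfl⟩
    obtain ⟨A, hA, σ, hσ⟩ := CommAlg.exists_liesOverPrime_isFrobeniusAt hℓ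
    exact ⟨D.ρ.trace σ, (htrφ σ).trans
      (htr ℓ hℓ hℓN hℓS (fun h => hℓS (by simpa [h] using hpS)) A hA σ hσ)⟩
  rw [adjoin_imageGens Θ hS] at hle
  exact hle (x := x) Algebra.mem_top

end FLTAgent.RT
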