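import Mathlib.RingTheory.DiscreteValuationRing.Basic
import Mathlib.RingTheory.IntegralClosure.IsIntegral.Basic
import Mathlib.RingTheory.Ideal.MinimalPrime.Localization
import Mathlib.RingTheory.Ideal.GoingUp
import Mathlib.RingTheory.Algebraic.Integral
import Mathlib.FieldTheory.IsAlgClosed.AlgebraicClosure
import Mathlib.RingTheory.Localization.FractionRing
import Mathlib.LinearAlgebra.FreeModule.Basic

/-!
# Elements vanishing at all characteristic zero points are nilpotent
-/

set_option autoImplicit false

namespace FLTAgent.RT

variable {O : Type} [CommRing O] [IsDomain O]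
  {A : Type} [CommRing A] [Algebra O A] [Module.Finite O A] [Module.Free O A]

/-- In a finite free algebra over a domain, an element killed by every point with values in the
algebraic closure of the fraction field is nilpotent. -/
theorem isNilpotent_of_forall_point (x : A)
    (h : ∀ χ : A →ₐ[O] AlgebraicClosure (FractionRing O), χ x = 0) : IsNilpotent x := by
  rw [nilpotent_iff_mem_prime]
  intro P hP
  obtain ⟨Q, hQ, hQP⟩ := Ideal.exists_minimalPrimes_le (bot_le : ⊥ ≤ P)
  refine hQP ?_
  have := hQ.1.1
  have hinj : Function.Injective (algebraMap O (A ⧸ Q)) := by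
    rw [injective_iff_map_eq_zero]
    intro c hc
    by_contra hc0
    have hnzd : algebraMap O A c ∈ nonZeroDivisors A := by
      rw [mem_nonZeroDivisors_iff_right]
      intro y hy
      rw [mul_comm, ← Algebra.smul_def] at hy
      exact (Module.Free.chooseBasis O A).repr.injective (by
        ext i
        have := congrArg (fun z => (Module.Free.chooseBasis O A).repr z i) hy
        simpa [hc0] using this)
    exact Set.disjoint_left.mp (Ideal.disjoint_nonZeroDivisors_of_mem_minimalPrimes hQ)
      (Ideal.Quotient.eq_zero_iff_mem.mp hc : algebraMap O A c ∈ Q) hnzd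
  have : Module.IsTorsionFree O (A ⧸ Q) := (Module.isTorsionFree_iff_algebraMap_injective).mpr hinj
  have : Algebra.IsIntegral O (A ⧸ Q) := Algebra.IsIntegral.of_finite O (A ⧸ Q)
  let K := AlgebraicClosure (FractionRing O)
  have hK : Function.Injective (algebraMap O K) := by
    rw [IsScalarTower.algebraMap_eq O (FractionRing O) K]
    exact (algebraMap (FractionRing O) K).injective.comp (IsFractionRing.injective O _)
  have : Module.IsTorsionFree O K := (Module.isTorsionFree_iff_algebraMap_injective).mpr hK
  let g : (A ⧸ Q) →ₐ[O] K := IsAlgClosed.lift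
  have hg : Function.Injective g := by
    refine (RingHom.injective_iff_ker_eq_bot g.toRingHom).mpr ?_
    refine Ideal.eq_bot_of_comap_eq_bot (R := O) (le_bot_iff.mp fun c hc => ?_)
    rw [Ideal.mem_comap, RingHom.mem_ker] at hc
    exact Ideal.mem_bot.mpr (hK (by simpa using hc))
  have := h (g.comp (Ideal.Quotient.mkₐ O Q))
  rw [← Ideal.Quotient.eq_zero_iff_mem]
  exact hg (by simpa using this)

end FLTAgent.RT
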