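import Fermat.Agent.GalRep.Span
import Fermat.Agent.GalRep.Approx
import Fermat.Agent.Carayol.Rep
import Mathlib.RingTheory.Filtration

/-!
# Representations are determined by the traces of Frobenius elements
-/

set_option autoImplicit false

namespace FLTAgent.RT

open FLTAgent.GalRep IsLocalRing

local notation "Γℚ" => AlgebraicClosure ℚ ≃ₐ[ℚ] AlgebraicClosure ℚ

variable {B : Type} [CommRing B] [IsLocalRing B] [IsNoetherianRing B]

/-- Adic representations with the same Frobenius traces have the same traces. -/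
theorem trace_eq_of_frobenius (hd : FrobeniusDense) (ρ₁ ρ₂ : GaloisRepAdic B) (S₁ : Finset ℕ)
    (h : ∀ ℓ : ℕ, ℓ.Prime → ℓ ∉ S₁ →
      ∀ A : ValuationSubring (AlgebraicClosure ℚ), A.LiesOverPrime ℓ →
        ∀ σ : Γℚ, A.IsFrobeniusAt σ ℓ → ρ₁.trace σ = ρ₂.trace σ) (g : Γℚ) :
    ρ₁.trace g = ρ₂.trace g := by
  rw [← sub_eq_zero, ← Ideal.mem_bot,
    ← Ideal.iInf_pow_eq_bot_of_isLocalRing (maximalIdeal B) (maximalIdeal.isMaximal B).ne_top,
    Submodule.mem_iInf]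
  intro n
  obtain ⟨L₁, hL₁, h₁⟩ := ρ₁.isAdicContinuous n
  obtain ⟨L₂, hL₂, h₂⟩ := ρ₂.isAdicContinuous n
  obtain ⟨ℓ, hℓ, hℓS, A, hA, σ, hσ, hag⟩ := hd (L₁ ⊔ L₂) inferInstance g S₁
  have hfix := (fixing_of_agree hag).1
  have e₁ : ρ₁.trace σ - ρ₁.trace g ∈ maximalIdeal B ^ n :=
    trace_sub_mem ρ₁ (h₁ _ fun x hx => hfix x ((le_sup_left : L₁ ≤ L₁ ⊔ L₂) hx))
  have e₂ : ρ₂.trace σ - ρ₂.trace g ∈ maximalIdeal B ^ n :=
    trace_sub_mem ρ₂ (h₂ _ fun x hx => hfix x ((le_sup_right : L₂ ≤ L₁ ⊔ L₂) hx))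
  rw [h ℓ hℓ hℓS A hA σ hσ] at e₁
  have := sub_mem e₂ e₁
  rwa [sub_sub_sub_cancel_left] at this

/-- Equivalent residual representations have the same absolute irreducibility. -/
theorem isAbsolutelyIrreducible_of_isEquiv {k : Type} [Field k] {ρ₁ ρ₂ : ResidualGaloisRep k}
    (h : ρ₁.IsEquiv ρ₂) (h₂ : ρ₂.IsAbsolutelyIrreducible) : ρ₁.IsAbsolutelyIrreducible := by
  obtain ⟨e⟩ := h
  refine Carayol.isAbsolutelyIrreducible_of_trace_eq h₂ fun σ => ?_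
  have : ρ₂.ρ σ = e.toLinearEquiv.conj (ρ₁.ρ σ) := LinearMap.ext fun x => by
    rw [LinearEquiv.conj_apply_apply, e.map_apply, LinearEquiv.apply_symm_apply]
  rw [this, LinearMap.trace_conj']

/-- A representation with residually absolutely irreducible reduction is determined by the traces
of Frobenius elements. -/
theorem isEquiv_of_frobenius (hd : FrobeniusDense) {ρ₁ ρ₂ : GaloisRepAdic B}
    (habs : ρ₁.residual.IsAbsolutelyIrreducible) (S₁ : Finset ℕ)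
    (h : ∀ ℓ : ℕ, ℓ.Prime → ℓ ∉ S₁ →
      ∀ A : ValuationSubring (AlgebraicClosure ℚ), A.LiesOverPrime ℓ →
        ∀ σ : Γℚ, A.IsFrobeniusAt σ ℓ → ρ₁.trace σ = ρ₂.trace σ) :
    ρ₁.IsEquiv ρ₂ :=
  Carayol.isEquiv_of_trace_eq habs (trace_eq_of_frobenius hd ρ₁ ρ₂ S₁ h)

end FLTAgent.RT
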