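import Fermat.Agent.RT.Coh.HeckeU
import Fermat.Agent.RT.Ihara.TW
import Fermat.Agent.RT.Sys.Raise
import Fermat.Agent.RT.HeckeRep.GenericPoints
import Fermat.Agent.RT.HeckeRep.TraceExt
import Fermat.Agent.RT.NewPart.OldRelation
import Fermat.Agent.RT.NewPart.DvrExtension
import Fermat.Agent.LevelDrop.Inputs
import Fermat.Agent.Newform.Occurs
import Fermat.Agent.GalRep.Dense

/-!
# The raising element is nilpotent on the new part

For a level pair `N`, `N q` the element `(tr ρ(Frob q))² - (q + 1)²` acts nilpotently on the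
cokernel of the degeneracy map between the parts.

The kernel of the adjoint map carries `U q` with `U q ^ 2 = 1`; an eigensystem on it comes from an
eigenform of level `N M q`, whose newform is special at `q` or has `a_q = ± (q + 1)`.
-/

set_option autoImplicit false

noncomputable section

namespace FLTAgent.RT

open LevelRaise CongruenceSubgroup IsLocalRing FLTAgent.GalRep
open scoped MatrixGroups

local notation "Γℚ" => AlgebraicClosure ℚ ≃ₐ[ℚ] AlgebraicClosure ℚ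

namespace NewPart

set_option maxHeartbeats 1600000 in
/-- The Galois side: the raising element vanishes on a point whose good values come from an
eigenform of level `K q`, new at `q` or not, with `a_q = ±1`. -/
theorem point_raise_eq_zero (h35 : LevelDrop.NewformSpecialCharpoly) {K q p : ℕ} [NeZero K]
    [NeZero q] [Fact p.Prime] (hq : q.Prime) (hqK : ¬ q ∣ K) (hqp : q ≠ p)
    {B : Type} [CommRing B] [IsDomain B] [IsDiscreteValuationRing B]
    [IsAdicComplete (maximalIdeal B) B] [Finite (ResidueField B)] [CharZero B]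
    (hpB : (p : B) ∈ maximalIdeal B) (ρ : GaloisRepAdic B) (T : Finset ℕ) (hqT : q ∉ T)
    (hpT : p ∈ T) (hKT : ∀ r : ℕ, r.Prime → r ∣ K → r ∈ T)
    (χ : CuspForm.heckeAlgebra (K * q) 2 (↑T : Set ℕ) →+* B)
    (hU : χ (CuspForm.heckeAlgebra.U hq (dvd_mul_left q K) (Finset.mem_coe.not.mpr hqT)) ^ 2 = 1)
    (hρ : ∀ (ℓ : ℕ) (hℓ : ℓ.Prime) (hℓN : ¬ ℓ ∣ K * q) (hℓT : ℓ ∉ (↑T : Set ℕ)),
      ∀ A : ValuationSubring (AlgebraicClosure ℚ), A.LiesOverPrime ℓ →
        ∀ σ : Γℚ, A.IsFrobeniusAt σ ℓ → ρ.trace σ = χ (CuspForm.heckeAlgebra.T hℓ hℓN hℓT))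
    (A : ValuationSubring (AlgebraicClosure ℚ)) (hA : A.LiesOverPrime q) (σ : Γℚ)
    (hσ : A.IsFrobeniusAt σ q) : ρ.trace σ ^ 2 = ((q : B) + 1) ^ 2 := by
  classical
  -- the values of the character in `ℂ`
  have := FLTAgent.IntegralStructure.moduleFinite_heckeAlgebra (N := K * q) 2 (↑T : Set ℕ)
  have : Module.Finite ℤ χ.range :=
    Module.Finite.of_surjective χ.rangeRestrict.toIntAlgHom.toLinearMap χ.rangeRestrict_surjective
  have : Algebra.IsAlgebraic ℤ χ.range := Algebra.IsIntegral.isAlgebraic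
  let e : χ.range →ₐ[ℤ] ℂ := IsAlgClosed.lift
  have he : Function.Injective e := by
    refine (RingHom.injective_iff_ker_eq_bot e.toRingHom).mpr ?_
    refine Ideal.eq_bot_of_comap_eq_bot (R := ℤ) (le_bot_iff.mp fun z hz => ?_)
    rw [Ideal.mem_comap, RingHom.mem_ker] at hz
    simpa using hz
  obtain ⟨f, hf, hfT, hfU⟩ :=
    Newform.exists_eigenform_of_partialChar ((e : χ.range →+* ℂ).comp χ.rangeRestrict)
  obtain ⟨z, hz, hzU⟩ : ∃ z : ℤ, (z = 1 ∨ z = -1) ∧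
      χ (CuspForm.heckeAlgebra.U hq (dvd_mul_left q K) (Finset.mem_coe.not.mpr hqT)) = z := by
    rcases sq_eq_one_iff.mp hU with h | h
    · exact ⟨1, Or.inl rfl, by rw [h, Int.cast_one]⟩
    · exact ⟨-1, Or.inr rfl, by rw [h, Int.cast_neg, Int.cast_one]⟩
  have hfq : ModularFormClass.qCoeff f q = (z : ℂ) := by
    rw [hfU q hq (dvd_mul_left q K) (Finset.mem_coe.not.mpr hqT)]
    show e (χ.rangeRestrict _) = _
    rw [show χ.rangeRestrict (CuspForm.heckeAlgebra.U hq (dvd_mul_left q K)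
      (Finset.mem_coe.not.mpr hqT)) = (z : χ.range) from Subtype.ext (by simpa using hzU),
      map_intCast]
  obtain ⟨M', hM', g, hg, hgf⟩ := Newform.exists_newform hf
  have hM'0 : NeZero M' := ⟨fun h => NeZero.ne (K * q) (Nat.eq_zero_of_zero_dvd (h ▸ hM'))⟩
  -- the set of primes left out for `g`
  let T' : Finset ℕ := if q ∣ M' then insert q T else T
  have hTT' : T ⊆ T' := by
    show T ⊆ if q ∣ M' then insert q T else T
    split
    · exact Finset.subset_insert q T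
    · exact Finset.Subset.refl T
  have hT'M : ∀ r : ℕ, r.Prime → r ∣ M' → r ∈ T' := fun r hr hd => by
    rcases hr.dvd_mul.mp (hd.trans hM') with h | h
    · exact hTT' (hKT r hr h)
    · have := (Nat.prime_dvd_prime_iff_eq hr hq).mp h
      subst this
      show r ∈ if r ∣ M' then insert r T else T
      rw [if_pos hd]
      exact Finset.mem_insert_self r T
  have hold : ¬ q ∣ M' → ModularFormClass.qCoeff g q = (z * (q + 1) : ℤ) := fun hqM' => by
    have hM'K : M' ∣ K :=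
      ((hq.coprime_iff_not_dvd.mpr hqM').symm).dvd_of_dvd_mul_right hM'
    have h := qCoeff_old_relation hq hqK hM'K hf hg.isNormalizedEigenform
      ((K * q).primeFactors) fun ℓ hℓ hℓn => (hgf ℓ hℓ fun hd =>
        hℓn (Nat.mem_primeFactors.mpr ⟨hℓ, hd, NeZero.ne _⟩)).symm
    rw [hfq] at h
    rcases hz with rfl | rfl
    · push_cast at h ⊢
      linear_combination -h
    · push_cast at h ⊢
      linear_combination h
  -- the coefficient ring of `g` inside the values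
  set chig := FLTAgent.Quick.eigenformChar hg.isNormalizedEigenform (↑T' : Set ℕ)
  have hchig : ∀ (ℓ : ℕ) (hℓ : ℓ.Prime) (hℓM : ¬ ℓ ∣ M') (hℓS : ℓ ∉ (↑T' : Set ℕ)),
      chig (CuspForm.heckeAlgebra.T hℓ hℓM hℓS) = ModularFormClass.qCoeff g ℓ :=
    fun ℓ hℓ hℓM hℓS => FLTAgent.Quick.eigenformChar_T hg.isNormalizedEigenform hℓ hℓM hℓS
  have hgood : ∀ (ℓ : ℕ) (hℓ : ℓ.Prime) (hℓq : ℓ ≠ q) (hℓT : ℓ ∉ (↑T : Set ℕ)),
      ∃ hℓN : ¬ ℓ ∣ K * q, ModularFormClass.qCoeff g ℓ =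
        e (χ.rangeRestrict (CuspForm.heckeAlgebra.T hℓ hℓN hℓT)) := fun ℓ hℓ hℓq hℓT => by
    have hℓN : ¬ ℓ ∣ K * q := fun hd => (hℓ.dvd_mul.mp hd).elim
      (fun h => hℓT (Finset.mem_coe.mpr (hKT ℓ hℓ h)))
      (fun h => hℓq ((Nat.prime_dvd_prime_iff_eq hℓ hq).mp h))
    exact ⟨hℓN, by rw [hgf ℓ hℓ hℓN, hfT ℓ hℓ hℓN hℓT]; rfl⟩
  have hle : chig.range ≤ (e : χ.range →+* ℂ).range := by
    rintro _ ⟨⟨t, ht⟩, rfl⟩
    induction ht using Algebra.adjoin_induction with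
    | mem x hx =>
      rcases hx with ⟨ℓ, hℓ, hℓM, hℓS, rfl⟩ | ⟨r, hrM, hr, hrS, -⟩
      · have h1 : chig ⟨_, _⟩ = ModularFormClass.qCoeff g ℓ := hchig ℓ hℓ hℓM hℓS
        rw [h1]
        by_cases hℓq : ℓ = q
        · subst hℓq
          exact ⟨((z * (ℓ + 1) : ℤ) : χ.range), by rw [map_intCast, hold hℓM]⟩
        · obtain ⟨hℓN, h2⟩ := hgood ℓ hℓ hℓq fun h => hℓS (Finset.coe_subset.mpr hTT' h)
          exact ⟨_, h2.symm⟩
      · exact absurd (Finset.mem_coe.mpr (hT'M r hr hrM)) hrS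
    | algebraMap n =>
      rw [show (⟨_, algebraMap_mem (CuspForm.heckeAlgebra M' 2 (↑T' : Set ℕ)) n⟩ :
        CuspForm.heckeAlgebra M' 2 (↑T' : Set ℕ)) = algebraMap ℤ _ n from rfl, eq_intCast,
        map_intCast]
      exact ⟨n, map_intCast _ n⟩
    | add x y hx hy ihx ihy =>
      rw [show (⟨x + y, _⟩ : CuspForm.heckeAlgebra M' 2 (↑T' : Set ℕ)) = ⟨x, hx⟩ + ⟨y, hy⟩ from rfl,
        map_add]
      exact add_mem ihx ihy
    | mul x y hx hy ihx ihy =>
      rw [show (⟨x * y, _⟩ : CuspForm.heckeAlgebra M' 2 (↑T' : Set ℕ)) = ⟨x, hx⟩ * ⟨y, hy⟩ from rfl,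
        map_mul]
      exact mul_mem ihx ihy
  let E : χ.range ≃+* (e : χ.range →+* ℂ).range :=
    RingEquiv.ofBijective (e : χ.range →+* ℂ).rangeRestrict
      ⟨fun a b h => he (congrArg Subtype.val h), RingHom.rangeRestrict_surjective _⟩
  let iota : chig.range →+* B :=
    χ.range.subtype.comp ((E.symm : (e : χ.range →+* ℂ).range →+* χ.range).comp
      (Subring.inclusion hle))
  have hiota : ∀ (c : chig.range) (y : χ.range), (c : ℂ) = e y → iota c = (y : B) := by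
    intro c y h
    show ((E.symm (Subring.inclusion hle c) : χ.range) : B) = _
    rw [show Subring.inclusion hle c = E y from Subtype.ext h, RingEquiv.symm_apply_apply]
  obtain ⟨B', _, _, _, _, _, _, _, _, hloc, hinj, ρg, hρg, hspec⟩ :=
    h35 hg p T' B hpB chig hchig iota (hTT' hpT) hT'M
  -- compare with `ρ`
  have htr : (ρ.baseChangeAlong (algebraMap B B') hloc).trace σ = ρg.trace σ := by
    refine trace_eq_of_frobenius GalRep.frobeniusDense _ ρg (insert q T) ?_ σ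
    intro ℓ hℓ hℓT A' hA' τ hτ
    rw [Finset.mem_insert, not_or] at hℓT
    have hℓT' : ℓ ∉ (↑T : Set ℕ) := fun h => hℓT.2 (Finset.mem_coe.mp h)
    obtain ⟨hℓN, h2⟩ := hgood ℓ hℓ hℓT.1 hℓT'
    have hℓM' : ¬ ℓ ∣ M' := fun h => hℓN (h.trans hM')
    have hℓS' : ℓ ∉ (↑T' : Set ℕ) := by
      rw [Finset.mem_coe]
      show ℓ ∉ if q ∣ M' then insert q T else T
      split
      · simp [hℓT.1, hℓT.2]
      · exact hℓT.2
    rw [CommAlg.trace_baseChangeAlong, hρ ℓ hℓ hℓN hℓT' A' hA' τ hτ,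
      trace_eq_of_charpoly ρg (hρg ℓ hℓ hℓM' hℓS' A' hA' τ hτ)]
    refine congrArg (algebraMap B B') ?_
    refine ((hiota _ (χ.rangeRestrict (CuspForm.heckeAlgebra.T hℓ hℓN hℓT')) ?_).trans rfl).symm
    show chig _ = _
    rw [hchig, h2]
  rw [CommAlg.trace_baseChangeAlong] at htr
  apply hinj
  rw [map_pow, map_pow, htr, map_add, map_natCast, map_one]
  by_cases hqM' : q ∣ M'
  · have hq2 : ¬ q ^ 2 ∣ M' := fun h => hqK (Nat.dvd_of_mul_dvd_mul_right hq.pos
      (by rw [← pow_two]; exact h.trans hM'))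
    rcases hspec q hq hqp hqM' hq2 A hA σ hσ with h | h
    · rw [trace_eq_of_charpoly ρg h]
    · rw [trace_eq_of_charpoly ρg (a := -((q : B') + 1)) (b := (q : B'))
        (by rw [h, map_neg]; ring), neg_sq]
  · have hqS' : q ∉ (↑T' : Set ℕ) := by
      rw [Finset.mem_coe]
      show q ∉ if q ∣ M' then insert q T else T
      rw [if_neg hqM']
      exact hqT
    rw [trace_eq_of_charpoly ρg (hρg q hq hqM' hqS' A hA σ hσ)]
    have hval : iota (chig.rangeRestrict (CuspForm.heckeAlgebra.T hq hqM' hqS')) =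
        ((z * (q + 1) : ℤ) : B) := by
      refine (hiota _ ((z * (q + 1) : ℤ) : χ.range) ?_).trans
        (map_intCast χ.range.subtype _)
      show chig _ = _
      rw [hchig, hold hqM', map_intCast]
    rw [show ((iota.comp chig.rangeRestrict) (CuspForm.heckeAlgebra.T hq hqM' hqS')) = _ from hval,
      map_intCast]
    rcases hz with rfl | rfl <;> push_cast <;> ring


section Algebra

variable {O : Type} [CommRing O] [IsDomain O] [IsDiscreteValuationRing O]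
  [IsAdicComplete (maximalIdeal O) O] [Finite (ResidueField O)] [CharZero O]
  {ρbar : ResidualGaloisRep (ResidueField O)}
  {𝒟 : ∀ ⦃A : Type⦄ [CommRing A] [IsLocalRing A] [Algebra O A], GaloisRepAdic A → Prop}
  (Dat : GaloisRep.DeformationRingData O ρbar 𝒟)
  {K q p : ℕ} [NeZero K] [NeZero q] [Fact p.Prime]

/-- The raising element is nilpotent in a finite free algebra carrying the Hecke algebra of level
`K q` with `U q ^ 2 = 1` compatibly with the traces of the deformation ring. -/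
theorem isNilpotent_raise (h35 : LevelDrop.NewformSpecialCharpoly) (hq : q.Prime) (hqK : ¬ q ∣ K)
    (hqp : q ≠ p) (hp : (p : O) ∈ maximalIdeal O) (T : Finset ℕ) (hqT : q ∉ T) (hpT : p ∈ T)
    (hKT : ∀ r : ℕ, r.Prime → r ∣ K → r ∈ T) {A₀ : Type} [CommRing A₀] [Algebra O A₀]
    [Module.Finite O A₀] [Module.Free O A₀] (φ₁ : Dat.R →ₐ[O] A₀)
    (ΘA : CuspForm.heckeAlgebra (K * q) 2 (↑T : Set ℕ) →+* A₀)
    (hU : ΘA (CuspForm.heckeAlgebra.U hq (dvd_mul_left q K) (Finset.mem_coe.not.mpr hqT)) ^ 2 = 1)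
    (hΘ : ∀ (ℓ : ℕ) (hℓ : ℓ.Prime) (hℓN : ¬ ℓ ∣ K * q) (hℓT : ℓ ∉ (↑T : Set ℕ)),
      ∀ A : ValuationSubring (AlgebraicClosure ℚ), A.LiesOverPrime ℓ →
        ∀ σ : Γℚ, A.IsFrobeniusAt σ ℓ →
          φ₁ (Dat.ρ.trace σ) = ΘA (CuspForm.heckeAlgebra.T hℓ hℓN hℓT))
    (Aq : ValuationSubring (AlgebraicClosure ℚ)) (hAq : Aq.LiesOverPrime q) (σq : Γℚ)
    (hσq : Aq.IsFrobeniusAt σq q) :
    IsNilpotent (φ₁ (Dat.ρ.trace σq ^ 2 - ((q : Dat.R) + 1) ^ 2)) := by
  refine isNilpotent_of_forall_point (O := O) _ fun ψ => ?_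
  have : Module.Finite O ψ.range :=
    Module.Finite.of_surjective ψ.rangeRestrict.toLinearMap ψ.rangeRestrict_surjective
  have hKinj : Function.Injective (algebraMap O (AlgebraicClosure (FractionRing O))) := by
    rw [IsScalarTower.algebraMap_eq O (FractionRing O) (AlgebraicClosure (FractionRing O))]
    exact (algebraMap (FractionRing O) _).injective.comp (IsFractionRing.injective O _)
  obtain ⟨B, _, _, _, _, _, _, _, _, hlocB, iotaB, hiotaB⟩ :=
    exists_dvr_extension O ψ.range fun c d h => hKinj (congrArg Subtype.val h)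
  let x : Dat.R →ₐ[O] B := (iotaB.comp ψ.rangeRestrict).comp φ₁
  have hx : IsLocalHom (x : Dat.R →+* B) := by
    refine ⟨fun r hr => ?_⟩
    by_contra hru
    obtain ⟨k, hk⟩ := Patch.exists_map_pow_eq_zero
      ((residue B).comp (x : Dat.R →+* B)) ((IsLocalRing.mem_maximalIdeal r).mpr hru)
    exact (hr.map (residue B)).ne_zero (eq_zero_of_pow_eq_zero hk)
  have hpB : (p : B) ∈ maximalIdeal B := by
    rw [← map_natCast (algebraMap O B)]
    exact map_nonunit (algebraMap O B) _ hp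
  have key := point_raise_eq_zero h35 hq hqK hqp hpB
    (Dat.ρ.baseChangeAlong (x : Dat.R →+* B) hx) T hqT hpT hKT
    (((iotaB.comp ψ.rangeRestrict : A₀ →ₐ[O] B) : A₀ →+* B).comp ΘA)
    (by
      rw [RingHom.comp_apply, ← map_pow, hU, map_one])
    (fun ℓ hℓ hℓN hℓT A hAℓ σ hσ => by
      rw [CommAlg.trace_baseChangeAlong, RingHom.comp_apply, ← hΘ ℓ hℓ hℓN hℓT A hAℓ σ hσ]
      rfl)
    Aq hAq σq hσq
  rw [CommAlg.trace_baseChangeAlong] at key
  have hx0 : x (Dat.ρ.trace σq ^ 2 - ((q : Dat.R) + 1) ^ 2) = 0 := by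
    rw [map_sub, map_pow, map_pow, map_add, map_natCast, map_one, sub_eq_zero]
    exact key
  exact congrArg Subtype.val (hiotaB (hx0.trans (map_zero iotaB).symm))

/-- The same for an action on a finite free module with an operator commuting with it. -/
theorem isNilpotent_raise_end (h35 : LevelDrop.NewformSpecialCharpoly) (hq : q.Prime)
    (hqK : ¬ q ∣ K) (hqp : q ≠ p) (hp : (p : O) ∈ maximalIdeal O) (T : Finset ℕ) (hqT : q ∉ T)
    (hpT : p ∈ T) (hKT : ∀ r : ℕ, r.Prime → r ∣ K → r ∈ T) {P₀ : Type} [AddCommGroup P₀]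
    [Module O P₀] [Module.Finite O P₀] [Module.Free O P₀] (φ₀ : Dat.R →ₐ[O] Module.End O P₀)
    (Θ : CuspForm.heckeAlgebra (K * q) 2 (↑T : Set ℕ) →+* Module.End O P₀)
    (hU : Θ (CuspForm.heckeAlgebra.U hq (dvd_mul_left q K) (Finset.mem_coe.not.mpr hqT)) ^ 2 = 1)
    (hcomm : ∀ r, Commute
      (Θ (CuspForm.heckeAlgebra.U hq (dvd_mul_left q K) (Finset.mem_coe.not.mpr hqT))) (φ₀ r))
    (hΘ : ∀ (ℓ : ℕ) (hℓ : ℓ.Prime) (hℓN : ¬ ℓ ∣ K * q) (hℓT : ℓ ∉ (↑T : Set ℕ)),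
      ∀ A : ValuationSubring (AlgebraicClosure ℚ), A.LiesOverPrime ℓ →
        ∀ σ : Γℚ, A.IsFrobeniusAt σ ℓ →
          φ₀ (Dat.ρ.trace σ) = Θ (CuspForm.heckeAlgebra.T hℓ hℓN hℓT))
    (Aq : ValuationSubring (AlgebraicClosure ℚ)) (hAq : Aq.LiesOverPrime q) (σq : Γℚ)
    (hσq : Aq.IsFrobeniusAt σq q) :
    IsNilpotent (φ₀ (Dat.ρ.trace σq ^ 2 - ((q : Dat.R) + 1) ^ 2)) := by
  classical
  set u₀ := Θ (CuspForm.heckeAlgebra.U hq (dvd_mul_left q K) (Finset.mem_coe.not.mpr hqT))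
  let A₀ : Subalgebra O (Module.End O P₀) := Algebra.adjoin O (insert u₀ (Set.range φ₀))
  have : IsMulCommutative A₀ := Algebra.isMulCommutative_adjoin O (by
    rintro x (rfl | ⟨r, rfl⟩) y (rfl | ⟨s, rfl⟩)
    · rfl
    · exact hcomm s
    · exact (hcomm r).symm
    · exact (Commute.all r s).map φ₀)
  let _ : CommRing A₀ := { A₀.toRing with mul_comm := mul_comm' }
  have : Module.Finite O A₀ := Module.Finite.of_injective A₀.val.toLinearMap Subtype.val_injective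
  have : Module.IsTorsionFree O A₀ :=
    Function.Injective.moduleIsTorsionFree A₀.val Subtype.val_injective (fun c x => rfl)
  have hmem : ∀ t, Θ t ∈ A₀ := by
    rintro ⟨t, ht⟩
    induction ht using Algebra.adjoin_induction with
    | mem x hx =>
      rcases hx with ⟨ℓ, hℓ, hℓN, hℓS, rfl⟩ | ⟨r, hrN, hr, hrS, rfl⟩
      · obtain ⟨A, hAℓ, σ, hσ⟩ := CommAlg.exists_liesOverPrime_isFrobeniusAt hℓ
        show Θ (CuspForm.heckeAlgebra.T hℓ hℓN hℓS) ∈ A₀
        rw [← hΘ ℓ hℓ hℓN hℓS A hAℓ σ hσ]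
        exact Algebra.subset_adjoin (Set.mem_insert_of_mem _ ⟨_, rfl⟩)
      · obtain rfl : r = q := (hr.dvd_mul.mp hrN).elim
          (fun h => absurd (Finset.mem_coe.mpr (hKT r hr h)) hrS)
          (Nat.prime_dvd_prime_iff_eq hr hq).mp
        exact Algebra.subset_adjoin (Set.mem_insert _ _)
    | algebraMap n =>
      rw [show (⟨_, algebraMap_mem (CuspForm.heckeAlgebra (K * q) 2 (↑T : Set ℕ)) n⟩ :
        CuspForm.heckeAlgebra (K * q) 2 (↑T : Set ℕ)) = algebraMap ℤ _ n from rfl, eq_intCast,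
        map_intCast]
      exact intCast_mem A₀ n
    | add x y hx hy ihx ihy =>
      rw [show (⟨x + y, _⟩ : CuspForm.heckeAlgebra (K * q) 2 (↑T : Set ℕ)) = ⟨x, hx⟩ + ⟨y, hy⟩ from
        rfl, map_add]
      exact add_mem ihx ihy
    | mul x y hx hy ihx ihy =>
      rw [show (⟨x * y, _⟩ : CuspForm.heckeAlgebra (K * q) 2 (↑T : Set ℕ)) = ⟨x, hx⟩ * ⟨y, hy⟩ from
        rfl, map_mul]
      exact mul_mem ihx ihy
  let φ₁ : Dat.R →ₐ[O] A₀ :=
    φ₀.codRestrict A₀ fun r => Algebra.subset_adjoin (Set.mem_insert_of_mem _ ⟨r, rfl⟩)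
  obtain ⟨k, hk⟩ := isNilpotent_raise Dat h35 hq hqK hqp hp T hqT hpT hKT φ₁
    (Θ.codRestrict A₀ hmem) (Subtype.ext hU)
    (fun ℓ hℓ hℓN hℓT A hAℓ σ hσ => Subtype.ext (hΘ ℓ hℓ hℓN hℓT A hAℓ σ hσ)) Aq hAq σq hσq
  exact ⟨k, congrArg Subtype.val hk⟩

end Algebra

end NewPart

section Part

variable {M N q : ℕ} {D : Type} [CommGroup D] [Fintype D] {χ : (ZMod M)ˣ →* D}
  [Fact (Odd (Nat.card D))] [NeZero N] [NeZero q] {O : Type} [CommRing O] [IsDomain O]
  [IsDiscreteValuationRing O] [IsAdicComplete (maximalIdeal O) O] [Finite (ResidueField O)]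
  [CharZero O] {ι : Type} {l : ι → ℕ} {a : ι → O} (W : WData N q) (hMN : M ∣ N)
  (hl : ∀ i, (l i).Prime) (hne : ∀ i, l i ≠ q)
  {ρbar : ResidualGaloisRep (ResidueField O)}
  {𝒟 : ∀ ⦃A : Type⦄ [CommRing A] [IsLocalRing A] [Algebra O A], GaloisRepAdic A → Prop}
  (h𝒟 : GaloisRep.IsDeformationCondition O 𝒟) {Dat : GaloisRep.DeformationRingData O ρbar 𝒟}
  {S₁ : Finset ℕ}

set_option maxHeartbeats 3200000 in
include h𝒟 in
/-- On the kernel of the adjoint maps the raising element is nilpotent. -/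
theorem exists_pow_kill_adj_ker (h35 : LevelDrop.NewformSpecialCharpoly)
    (hNE : NonEis l a) (hsq : Squarefree M) (hex : ∀ r : ℕ, r.Prime → r ∣ M → ¬ r ^ 2 ∣ N)
    {p : ℕ} [Fact p.Prime] (hp : (p : O) ∈ maximalIdeal O) (hqp : q ≠ p)
    {φ : Dat.R →ₐ[O] Module.End O (cohPart χ hMN hl a)} (hφ : Sys.IsFrobCompat Dat S₁ φ)
    {φ' : Dat.R →ₐ[O] Module.End O (Sys.upPart χ hMN hl a q)} (hφ' : Sys.IsFrobCompat Dat S₁ φ')
    (Aq : ValuationSubring (AlgebraicClosure ℚ)) (hAq : Aq.LiesOverPrime q) (σq : Γℚ)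
    (hσq : Aq.IsFrobeniusAt σq q) :
    ∃ k : ℕ, ∀ y, Sys.adjFst W hMN hl hne y = 0 → Sys.adjSnd W hMN hl hne y = 0 →
      φ' ((Dat.ρ.trace σq ^ 2 - ((q : Dat.R) + 1) ^ 2) ^ k) y = 0 := by
  classical
  have := isAddTorsionFree_of_charZero (O := O)
  have hq := W.prime
  have : NeZero M := ⟨fun h => NeZero.ne N (Nat.eq_zero_of_zero_dvd (h ▸ hMN))⟩
  have := moduleFinite_coh (χ := χ) O O hMN
  have := moduleFinite_coh (χ := χ) O O (hMN.trans (dvd_mul_right N q))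
  have := isNoetherian_of_isNoetherianRing_of_finite O (Coh N χ O)
  have := isNoetherian_of_isNoetherianRing_of_finite O (Coh (N * q) χ O)
  have : Module.IsTorsionFree O (Coh (N * q) χ O) := Function.Injective.moduleIsTorsionFree
    (fun φ x => φ x) (fun _ _ h => DFunLike.ext' h) (fun _ _ => rfl)
  have hint := Sys.intertwine_deg W hMN hl hne h𝒟 (Finset.mem_insert_self q S₁)
    (hφ.mono (Finset.subset_insert q S₁)) (hφ'.mono (Finset.subset_insert q S₁))
  -- the kernel of the adjoint maps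
  let P₀ : Submodule O (Sys.upPart χ hMN hl a q) := LinearMap.ker (Sys.adjFst W hMN hl hne) ⊓
    LinearMap.ker (Sys.adjSnd W hMN hl hne)
  have hP₀ : ∀ r, ∀ z ∈ P₀, φ' r z ∈ P₀ := fun r z hz => by
    refine ⟨LinearMap.mem_ker.mpr ?_, LinearMap.mem_ker.mpr ?_⟩
    · rw [← LinearMap.comp_apply, (hint r).2.2.1, LinearMap.comp_apply, LinearMap.mem_ker.mp hz.1,
        map_zero]
    · rw [← LinearMap.comp_apply, (hint r).2.2.2, LinearMap.comp_apply, LinearMap.mem_ker.mp hz.2,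
        map_zero]
  -- the Hecke algebra of level `N M q` on the part
  let T : Finset ℕ := (S₁ ∪ (N * M * q).primeFactors ∪ {p}).erase q
  have hqT : q ∉ T := Finset.notMem_erase q _
  have hqK : ¬ q ∣ N * M := fun h =>
    (hq.dvd_mul.mp h).elim W.not_dvd fun h' => W.not_dvd (h'.trans hMN)
  have hKT : ∀ r : ℕ, r.Prime → r ∣ N * M → r ∈ T := fun r hr hd => Finset.mem_erase.mpr
    ⟨fun e => hqK (e ▸ hd), Finset.mem_union_left _ (Finset.mem_union_right _
      (Nat.mem_primeFactors.mpr ⟨hr, hd.mul_right q, NeZero.ne _⟩))⟩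
  have hST : ∀ ℓ : ℕ, ¬ ℓ ∣ N * M * q → ℓ ∉ (↑T : Set ℕ) → ℓ ∉ S₁ := fun ℓ hℓN h hS =>
    h (Finset.mem_coe.mpr (Finset.mem_erase.mpr
      ⟨fun e => hℓN (e ▸ dvd_mul_left q (N * M)),
        Finset.mem_union_left _ (Finset.mem_union_left _ hS)⟩))
  obtain ⟨Θ, hΘT, hΘU⟩ := exists_thetaP (χ := χ) (O := O) (N' := N * M * q) (hMN.trans (dvd_mul_right N q)) hl a hNE
    hsq
    (fun r hr hrM hd => by
      have hrq : ¬ r ∣ q := fun h => W.not_dvd
        (((Nat.prime_dvd_prime_iff_eq hr hq).mp h) ▸ hrM.trans hMN)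
      exact hex r hr hrM
        ((Nat.Coprime.pow_left 2 ((hr.coprime_iff_not_dvd).mpr hrq)).dvd_of_dvd_mul_right hd))
    (by ring) (↑T : Set ℕ) (fun r hr hd => Finset.mem_coe.mpr (hKT r hr (hd.mul_left N)))
  set tU := CuspForm.heckeAlgebra.U hq (dvd_mul_left q (N * M)) (Finset.mem_coe.not.mpr hqT)
  have hUW : ∀ z ∈ P₀, (Θ tU z : Coh (N * q) χ O) = -opW O W χ hMN (z : Coh (N * q) χ O) := by
    intro z hz
    have h0 : coresB O W χ hMN (opW O W χ hMN (z : Coh (N * q) χ O)) = 0 :=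
      congrArg Subtype.val (LinearMap.mem_ker.mp hz.2)
    have h := resB_coresB_opW (R := O) W hMN (z : Coh (N * q) χ O)
    rw [h0, map_zero] at h
    rw [hΘU, opP_of_dvd (χ := χ) O O _ hq (dvd_mul_left q N)]
    exact eq_neg_of_add_eq_zero_right h.symm
  have hUP₀ : ∀ z ∈ P₀, Θ tU z ∈ P₀ := fun z hz => by
    have hc1 : coresB O W χ hMN (z : Coh (N * q) χ O) = 0 :=
      congrArg Subtype.val (LinearMap.mem_ker.mp hz.1)
    have hc2 : coresB O W χ hMN (opW O W χ hMN (z : Coh (N * q) χ O)) = 0 :=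
      congrArg Subtype.val (LinearMap.mem_ker.mp hz.2)
    refine ⟨LinearMap.mem_ker.mpr (Subtype.ext ?_), LinearMap.mem_ker.mpr (Subtype.ext ?_)⟩
    · rw [Sys.coe_adjFst, hUW z hz, map_neg, hc2, neg_zero]; rfl
    · rw [Sys.coe_adjSnd, hUW z hz, map_neg, opW_opW O W hMN, map_neg, hc1, neg_zero]; rfl
  have hU2 : ∀ z ∈ P₀, Θ tU (Θ tU z) = z := fun z hz => Subtype.ext (by
    rw [hUW _ (hUP₀ z hz), hUW z hz, map_neg, neg_neg, opW_opW O W hMN])
  have hUcomm : ∀ r, Θ tU ∘ₗ φ' r = φ' r ∘ₗ Θ tU := by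
    refine Sys.intertwine_of_frobTraces h𝒟 Dat S₁ φ' φ' (Θ tU) ?_
    rintro _ ⟨ℓ, hℓ, hℓS, A, hAℓ, σ, hσ, rfl⟩
    refine LinearMap.ext fun v => Subtype.ext ?_
    rw [LinearMap.comp_apply, LinearMap.comp_apply, hφ' ℓ hℓ hℓS A hAℓ σ hσ, hΘU, hΘU,
      hφ' ℓ hℓ hℓS A hAℓ σ hσ, ← Module.End.mul_apply, (opP_comm (χ := χ) O O _ hq hℓ).eq,
      Module.End.mul_apply]
  have hΘP₀ : ∀ t, ∀ z ∈ P₀, Θ t z ∈ P₀ := by
    rintro ⟨t, ht⟩
    induction ht using Algebra.adjoin_induction with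
    | mem x hx =>
      rcases hx with ⟨ℓ, hℓ, hℓN, hℓS, rfl⟩ | ⟨r, hrN, hr, hrS, rfl⟩
      · intro z hz
        obtain ⟨A, hAℓ, σ, hσ⟩ := CommAlg.exists_liesOverPrime_isFrobeniusAt hℓ
        have e : Θ (CuspForm.heckeAlgebra.T hℓ hℓN hℓS) z = φ' (Dat.ρ.trace σ) z :=
          Subtype.ext ((hΘT ℓ hℓ hℓN hℓS z).trans
            (hφ' ℓ hℓ (hST ℓ hℓN hℓS) A hAℓ σ hσ z).symm)
        exact e ▸ hP₀ _ z hz
      · obtain rfl : r = q := (hr.dvd_mul.mp hrN).elim
          (fun h => absurd (Finset.mem_coe.mpr (hKT r hr h)) hrS)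
          (Nat.prime_dvd_prime_iff_eq hr hq).mp
        exact hUP₀
    | algebraMap n =>
      intro z hz
      rw [show (⟨_, algebraMap_mem (CuspForm.heckeAlgebra (N * M * q) 2 (↑T : Set ℕ)) n⟩ :
        CuspForm.heckeAlgebra (N * M * q) 2 (↑T : Set ℕ)) = algebraMap ℤ _ n from rfl, eq_intCast,
        map_intCast, Module.End.intCast_apply]
      exact zsmul_mem hz n
    | add x y hx hy ihx ihy =>
      intro z hz
      rw [show (⟨x + y, _⟩ : CuspForm.heckeAlgebra (N * M * q) 2 (↑T : Set ℕ)) =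
        ⟨x, hx⟩ + ⟨y, hy⟩ from rfl, map_add, LinearMap.add_apply]
      exact add_mem (ihx z hz) (ihy z hz)
    | mul x y hx hy ihx ihy =>
      intro z hz
      rw [show (⟨x * y, _⟩ : CuspForm.heckeAlgebra (N * M * q) 2 (↑T : Set ℕ)) =
        ⟨x, hx⟩ * ⟨y, hy⟩ from rfl, map_mul, Module.End.mul_apply]
      exact ihx _ (ihy z hz)
  -- the restricted actions
  let φ₀ : Dat.R →ₐ[O] Module.End O P₀ :=
    { toFun := fun r => (φ' r).restrict (hP₀ r)
      map_one' := LinearMap.ext fun z => Subtype.ext (LinearMap.congr_fun (map_one φ') _)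
      map_mul' := fun r s => LinearMap.ext fun z => Subtype.ext
        (LinearMap.congr_fun (map_mul φ' r s) _)
      map_zero' := LinearMap.ext fun z => Subtype.ext (LinearMap.congr_fun (map_zero φ') _)
      map_add' := fun r s => LinearMap.ext fun z => Subtype.ext
        (LinearMap.congr_fun (map_add φ' r s) _)
      commutes' := fun c => LinearMap.ext fun z => Subtype.ext
        (LinearMap.congr_fun (φ'.commutes c) _) }
  let Θ₀ : CuspForm.heckeAlgebra (N * M * q) 2 (↑T : Set ℕ) →+* Module.End O P₀ :=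
    { toFun := fun t => (Θ t).restrict (hΘP₀ t)
      map_one' := LinearMap.ext fun z => Subtype.ext (LinearMap.congr_fun (map_one Θ) _)
      map_mul' := fun r s => LinearMap.ext fun z => Subtype.ext
        (LinearMap.congr_fun (map_mul Θ r s) _)
      map_zero' := LinearMap.ext fun z => Subtype.ext (LinearMap.congr_fun (map_zero Θ) _)
      map_add' := fun r s => LinearMap.ext fun z => Subtype.ext
        (LinearMap.congr_fun (map_add Θ r s) _) }
  have : Module.IsTorsionFree O P₀ := Function.Injective.moduleIsTorsionFree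
    (fun z : P₀ => ((z : Sys.upPart χ hMN hl a q) : Coh (N * q) χ O))
    (Subtype.val_injective.comp Subtype.val_injective) (fun _ _ => rfl)
  have : Module.Finite O P₀ := inferInstance
  have : Module.Free O P₀ := @Module.free_of_finite_type_torsion_free' O _ P₀ _ _ _ _ _ _
  have hUsq : Θ₀ tU ^ 2 = 1 := LinearMap.ext fun z => Subtype.ext (by
    rw [pow_two]
    exact hU2 _ z.2)
  have hcomm₀ : ∀ r, Commute (Θ₀ tU) (φ₀ r) :=
    fun r => LinearMap.ext fun z => Subtype.ext (LinearMap.congr_fun (hUcomm r) _)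
  have hΘ₀ : ∀ (ℓ : ℕ) (hℓ : ℓ.Prime) (hℓN : ¬ ℓ ∣ N * M * q) (hℓT : ℓ ∉ (↑T : Set ℕ)),
      ∀ A : ValuationSubring (AlgebraicClosure ℚ), A.LiesOverPrime ℓ →
        ∀ σ : Γℚ, A.IsFrobeniusAt σ ℓ →
          φ₀ (Dat.ρ.trace σ) = Θ₀ (CuspForm.heckeAlgebra.T hℓ hℓN hℓT) :=
    fun ℓ hℓ hℓN hℓT A hAℓ σ hσ => LinearMap.ext fun z => Subtype.ext (Subtype.ext
      ((hφ' ℓ hℓ (hST ℓ hℓN hℓT) A hAℓ σ hσ z.1).trans (hΘT ℓ hℓ hℓN hℓT z.1).symm))
  have hpT : p ∈ T := Finset.mem_erase.mpr ⟨fun e => hqp e.symm, Finset.mem_union_right _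
    (Finset.mem_singleton_self p)⟩
  obtain ⟨k, hk⟩ := NewPart.isNilpotent_raise_end Dat (K := N * M) h35 hq hqK hqp hp T hqT hpT hKT
    (P₀ := ↥P₀) φ₀ Θ₀ hUsq hcomm₀ hΘ₀ Aq hAq σq hσq
  refine ⟨k, fun y h1 h2 => ?_⟩
  have := LinearMap.congr_fun hk ⟨y, LinearMap.mem_ker.mpr h1, LinearMap.mem_ker.mpr h2⟩
  rw [← map_pow] at this
  exact congrArg Subtype.val this

set_option maxHeartbeats 3200000 in
include h𝒟 in
/-- **The raising element is nilpotent on the new part.** -/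
theorem exists_pow_eq_degFst_add_degSnd (h35 : LevelDrop.NewformSpecialCharpoly)
    (hNE : NonEis l a) (hsq : Squarefree M) (hex : ∀ r : ℕ, r.Prime → r ∣ M → ¬ r ^ 2 ∣ N)
    {p : ℕ} [Fact p.Prime] (hp : (p : O) ∈ maximalIdeal O) (hqp : q ≠ p)
    {φ : Dat.R →ₐ[O] Module.End O (cohPart χ hMN hl a)} (hφ : Sys.IsFrobCompat Dat S₁ φ)
    {φ' : Dat.R →ₐ[O] Module.End O (Sys.upPart χ hMN hl a q)} (hφ' : Sys.IsFrobCompat Dat S₁ φ')
    (Aq : ValuationSubring (AlgebraicClosure ℚ)) (hAq : Aq.LiesOverPrime q) (σq : Γℚ)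
    (hσq : Aq.IsFrobeniusAt σq q)
    (hT : ∀ v, (φ (Dat.ρ.trace σq) v : Coh N χ O) = opP O O χ hMN W.prime v) :
    ∃ m : ℕ, ∀ z, ∃ x₁ x₂, (φ' (Dat.ρ.trace σq ^ 2 - ((q : Dat.R) + 1) ^ 2) ^ m) z =
      Sys.degFst W hMN hl hne x₁ + Sys.degSnd W hMN hl hne x₂ := by
  classical
  obtain ⟨k, hk⟩ := exists_pow_kill_adj_ker W hMN hl hne h𝒟 h35 hNE hsq hex hp hqp hφ hφ' Aq hAq σq hσq
  have hint := Sys.intertwine_deg W hMN hl hne h𝒟 (Finset.mem_insert_self q S₁)
    (hφ.mono (Finset.subset_insert q S₁)) (hφ'.mono (Finset.subset_insert q S₁))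
  refine ⟨k + 1, fun z => ?_⟩
  -- modulo the image, `rr z` lies in the kernel
  set rr := Dat.ρ.trace σq ^ 2 - ((q : Dat.R) + 1) ^ 2 with hrr
  set i₁ := Sys.degFst W hMN hl hne (a := a) (χ := χ)
  set i₂ := Sys.degSnd W hMN hl hne (a := a) (χ := χ)
  set j₁ := Sys.adjFst W hMN hl hne (a := a) (χ := χ)
  set j₂ := Sys.adjSnd W hMN hl hne (a := a) (χ := χ)
  set t := φ (Dat.ρ.trace σq)
  have ht : ∀ x : cohPart χ hMN hl a,
      (t x : Coh N χ O) = opT O O χ hMN W.prime W.not_dvd x := fun x => by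
    rw [hT, opP_of_not_dvd (χ := χ) O O hMN W.prime W.not_dvd]
  have hji : ∀ x₁ x₂, j₁ (i₁ x₁ + i₂ x₂) = (q + 1) • x₁ + t x₂ ∧
      j₂ (i₁ x₁ + i₂ x₂) = t x₁ + (q + 1) • x₂ := fun x₁ x₂ => by
    have h := adjB_degB W hMN ((x₁ : Coh N χ O), (x₂ : Coh N χ O))
    exact ⟨Subtype.ext ((congrArg Prod.fst h).trans (congrArg₂ (· + ·) rfl (ht x₂).symm)),
      Subtype.ext ((congrArg Prod.snd h).trans (congrArg₂ (· + ·) (ht x₁).symm rfl))⟩
  have hrrA : ∀ v : cohPart χ hMN hl a, φ rr v = t (t v) - (q + 1) • (q + 1) • v := fun v => by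
    rw [hrr, ← Nat.cast_add_one, map_sub, map_pow, map_pow, map_natCast, pow_two, pow_two,
      LinearMap.sub_apply, Module.End.mul_apply, Module.End.mul_apply, Module.End.natCast_apply,
      Module.End.natCast_apply]
  set u₁ := (q + 1) • j₁ z - t (j₂ z) with hu₁
  set u₂ := (q + 1) • j₂ z - t (j₁ z) with hu₂
  have hy : j₁ (φ' rr z + (i₁ u₁ + i₂ u₂)) = 0 ∧ j₂ (φ' rr z + (i₁ u₁ + i₂ u₂)) = 0 := by
    refine ⟨?_, ?_⟩
    · show j₁ _ = 0
      rw [map_add, (hji u₁ u₂).1, ← LinearMap.comp_apply, (hint rr).2.2.1, LinearMap.comp_apply,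
        hrrA, hu₁, hu₂]
      simp only [map_sub, map_nsmul, smul_sub]
      abel
    · show j₂ _ = 0
      rw [map_add, (hji u₁ u₂).2, ← LinearMap.comp_apply, (hint rr).2.2.2, LinearMap.comp_apply,
        hrrA, hu₁, hu₂]
      simp only [map_sub, map_nsmul, smul_sub]
      abel
  have hkill : φ' (rr ^ k) (φ' rr z + (i₁ u₁ + i₂ u₂)) = 0 := hk _ hy.1 hy.2
  refine ⟨-(φ (rr ^ k) u₁), -(φ (rr ^ k) u₂), ?_⟩
  rw [map_add, map_add] at hkill
  rw [pow_succ, Module.End.mul_apply, ← map_pow, eq_neg_of_add_eq_zero_left hkill, map_neg,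
    map_neg, ← LinearMap.comp_apply i₁, (hint _).1, ← LinearMap.comp_apply i₂, (hint _).2.1,
    LinearMap.comp_apply, LinearMap.comp_apply, neg_add]

include W hne h𝒟 in
/-- Without old forms the raising element is nilpotent on the whole part. -/
theorem isNilpotent_raise_of_cohPart_eq_bot (h35 : LevelDrop.NewformSpecialCharpoly)
    (hNE : NonEis l a) (hsq : Squarefree M) (hex : ∀ r : ℕ, r.Prime → r ∣ M → ¬ r ^ 2 ∣ N)
    {p : ℕ} [Fact p.Prime] (hp : (p : O) ∈ maximalIdeal O) (hqp : q ≠ p)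
    (h0 : cohPart χ hMN hl a = ⊥)
    {φ' : Dat.R →ₐ[O] Module.End O (Sys.upPart χ hMN hl a q)} (hφ' : Sys.IsFrobCompat Dat S₁ φ')
    (Aq : ValuationSubring (AlgebraicClosure ℚ)) (hAq : Aq.LiesOverPrime q) (σq : Γℚ)
    (hσq : Aq.IsFrobeniusAt σq q) :
    IsNilpotent (φ' (Dat.ρ.trace σq ^ 2 - ((q : Dat.R) + 1) ^ 2)) := by
  have hzero : ∀ v : cohPart χ hMN hl a, v = 0 := fun v =>
    Subtype.ext ((Submodule.mem_bot O).mp (h0 ▸ v.2))
  have hend : ∀ f g : Module.End O (cohPart χ hMN hl a), f = g := fun f g =>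
    LinearMap.ext fun v => (hzero _).trans (hzero _).symm
  let φ : Dat.R →ₐ[O] Module.End O (cohPart χ hMN hl a) :=
    { toFun := fun _ => 1
      map_one' := rfl
      map_mul' := fun _ _ => hend _ _
      map_zero' := hend _ _
      map_add' := fun _ _ => hend _ _
      commutes' := fun _ => hend _ _ }
  have hφ : Sys.IsFrobCompat Dat S₁ φ := fun ℓ hℓ _ A _ σ _ v => by
    rw [hzero v]
    simp only [map_zero, Submodule.coe_zero]
  obtain ⟨m, hm⟩ := exists_pow_eq_degFst_add_degSnd W hMN hl hne h𝒟 h35 hNE hsq hex hp hqp hφ hφ'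
    Aq hAq σq hσq fun v => by
      rw [hzero v]
      simp only [map_zero, Submodule.coe_zero]
  refine ⟨m, LinearMap.ext fun z => ?_⟩
  obtain ⟨x₁, x₂, h⟩ := hm z
  rw [h, hzero x₁, hzero x₂, map_zero, map_zero, add_zero]
  rfl

end Part

end FLTAgent.RT
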