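import Mathlib.RingTheory.DiscreteValuationRing.Basic
import Mathlib.RingTheory.AdicCompletion.Basic
import Mathlib.RingTheory.Ideal.GoingUp
import Mathlib.RingTheory.Filtration
import Mathlib.RingTheory.Polynomial.ScaleRoots
import Mathlib.RingTheory.LocalRing.ResidueField.Basic
import Mathlib.LinearAlgebra.FreeModule.Finite.Matrix
import Mathlib.LinearAlgebra.FreeModule.PID
import Mathlib.RingTheory.IntegralClosure.IsIntegral.Basic

/-!
# Algebras of endomorphisms with a topologically nilpotent augmentation

A finite algebra over a complete discrete valuation ring, all of whose elements are scalars up to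
operators which are nilpotent modulo the uniformiser, is local, complete, with the same residue
field.
-/

set_option autoImplicit false

namespace FLTAgent.RT

open IsLocalRing

variable {O : Type} [CommRing O] [IsDomain O] [IsDiscreteValuationRing O]
  {P : Type} [AddCommGroup P] [Module O P] [Module.Finite O P] [Module.Free O P]

/-- An operator maps into the maximal ideal modulo a power of itself. -/
def IsTopNilpotent (x : Module.End O P) : Prop :=
  ∃ k : ℕ, ∀ v : P, (x ^ k) v ∈ maximalIdeal O • (⊤ : Submodule O P)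

theorem exists_smul_eq_of_range_le {π : O} (hπ : maximalIdeal O = Ideal.span {π})
    {x : Module.End O P} (hx : ∀ v, x v ∈ maximalIdeal O • (⊤ : Submodule O P)) :
    ∃ z : Module.End O P, x = π • z := by
  have hb : ∀ i, ∃ w : P, x (Module.Free.chooseBasis O P i) = π • w := fun i => by
    have h := hx (Module.Free.chooseBasis O P i)
    rw [hπ, Submodule.ideal_span_singleton_smul] at h
    obtain ⟨w, -, hw⟩ := h
    exact ⟨w, hw.symm⟩
  choose w hw using hb
  refine ⟨(Module.Free.chooseBasis O P).constr O w, (Module.Free.chooseBasis O P).ext fun i => ?_⟩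
  rw [LinearMap.smul_apply, Module.Basis.constr_basis, hw]

variable {A : Type} [CommRing A] [Algebra O A] (ι : A →ₐ[O] Module.End O P)

/-- An element acting topologically nilpotently lies in every maximal ideal. -/
theorem mem_of_isTopNilpotent [Module.Finite O A] (hι : Function.Injective ι) {x : A}
    (hx : IsTopNilpotent (ι x)) (m : Ideal A) [m.IsMaximal] : x ∈ m := by
  obtain ⟨k, hk⟩ := hx
  obtain ⟨π, hπ⟩ := IsDiscreteValuationRing.exists_irreducible O
  obtain ⟨z, hz⟩ := exists_smul_eq_of_range_le hπ.maximalIdeal_eq hk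
  have : Algebra.IsIntegral O A := Algebra.IsIntegral.of_finite O A
  have hπm : algebraMap O A π ∈ m := by
    have hmax : (m.comap (algebraMap O A)).IsMaximal :=
      Ideal.isMaximal_comap_of_isIntegral_of_isMaximal m
    have : π ∈ m.comap (algebraMap O A) := by
      rw [IsLocalRing.eq_maximalIdeal hmax, hπ.maximalIdeal_eq]
      exact Ideal.mem_span_singleton_self π
    exact this
  obtain ⟨q, hq, hqz⟩ := Algebra.IsIntegral.isIntegral (R := O) z
  have hy : Polynomial.aeval (π • z) (q.scaleRoots π) = 0 := by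
    rw [Algebra.smul_def]
    exact Polynomial.scaleRoots_aeval_eq_zero hqz
  rw [← hz, ← map_pow, Polynomial.aeval_algHom_apply, ← map_zero ι] at hy
  have hroot := hι hy
  have hd : (q.scaleRoots π).natDegree = q.natDegree := Polynomial.natDegree_scaleRoots q π
  rw [Polynomial.aeval_eq_sum_range, Finset.sum_range_succ, hd, Polynomial.coeff_scaleRoots,
    Nat.sub_self, pow_zero, mul_one, hq.coeff_natDegree, one_smul] at hroot
  have hmem : (x ^ k) ^ q.natDegree ∈ m := by
    rw [eq_neg_of_add_eq_zero_right hroot]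
    refine neg_mem (Ideal.sum_mem m fun i hi => ?_)
    rw [Polynomial.coeff_scaleRoots, Algebra.smul_def, map_mul, map_pow]
    refine Ideal.mul_mem_right _ _ (Ideal.mul_mem_left _ _ (Ideal.pow_mem_of_mem _ hπm _ ?_))
    have := Finset.mem_range.mp hi
    omega
  exact (Ideal.IsMaximal.isPrime ‹_›).mem_of_pow_mem _
    ((Ideal.IsMaximal.isPrime ‹_›).mem_of_pow_mem _ hmem)

/-- Every element is a scalar plus an element of all maximal ideals, if the generators are. -/
theorem exists_scalar_of_adjoin {G : Set A} (hG : Algebra.adjoin O G = ⊤)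
    (h : ∀ g ∈ G, ∃ r : O, ∀ m : Ideal A, m.IsMaximal → g - algebraMap O A r ∈ m) (x : A) :
    ∃ r : O, ∀ m : Ideal A, m.IsMaximal → x - algebraMap O A r ∈ m := by
  have hx : x ∈ Algebra.adjoin O G := hG ▸ Algebra.mem_top
  induction hx using Algebra.adjoin_induction with
  | mem g hg => exact h g hg
  | algebraMap r => exact ⟨r, fun m _ => by rw [sub_self]; exact m.zero_mem⟩
  | add x y _ _ hx hy =>
    obtain ⟨r, hr⟩ := hx
    obtain ⟨s, hs⟩ := hy
    refine ⟨r + s, fun m hm => ?_⟩
    rw [map_add, show x + y - (algebraMap O A r + algebraMap O A s) =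
      (x - algebraMap O A r) + (y - algebraMap O A s) by ring]
    exact m.add_mem (hr m hm) (hs m hm)
  | mul x y _ _ hx hy =>
    obtain ⟨r, hr⟩ := hx
    obtain ⟨s, hs⟩ := hy
    refine ⟨r * s, fun m hm => ?_⟩
    rw [map_mul, show x * y - algebraMap O A r * algebraMap O A s =
      (x - algebraMap O A r) * y + algebraMap O A r * (y - algebraMap O A s) by ring]
    exact m.add_mem (m.mul_mem_right _ (hr m hm)) (m.mul_mem_left _ (hs m hm))

section Finite

variable [Module.Finite O A] [Nontrivial A]

omit [IsDiscreteValuationRing O] [IsDomain O] in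
theorem isLocalRing_of_scalar [IsLocalRing O]
    (h : ∀ x : A, ∃ r : O, ∀ m : Ideal A, m.IsMaximal → x - algebraMap O A r ∈ m) :
    IsLocalRing A := by
  have : Algebra.IsIntegral O A := Algebra.IsIntegral.of_finite O A
  refine IsLocalRing.of_unique_max_ideal ?_
  obtain ⟨m₀, hm₀⟩ := Ideal.exists_maximal A
  refine ⟨m₀, hm₀, fun m hm => Eq.symm (hm₀.eq_of_le hm.ne_top fun x hx => ?_)⟩
  obtain ⟨r, hr⟩ := h x
  have hr0 : r ∈ maximalIdeal O := by
    have : (m₀.comap (algebraMap O A)).IsMaximal :=
      Ideal.isMaximal_comap_of_isIntegral_of_isMaximal m₀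
    rw [← IsLocalRing.eq_maximalIdeal this, Ideal.mem_comap]
    simpa using m₀.sub_mem hx (hr m₀ hm₀)
  have hrm : algebraMap O A r ∈ m := by
    have : (m.comap (algebraMap O A)).IsMaximal :=
      Ideal.isMaximal_comap_of_isIntegral_of_isMaximal m
    rw [← Ideal.mem_comap, IsLocalRing.eq_maximalIdeal this]
    exact hr0
  simpa using m.add_mem (hr m hm) hrm

variable [IsLocalRing A]

omit [Nontrivial A] [IsDiscreteValuationRing O] [IsDomain O] in
theorem residue_surjective_of_scalar
    (h : ∀ x : A, ∃ r : O, ∀ m : Ideal A, m.IsMaximal → x - algebraMap O A r ∈ m) :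
    Function.Surjective (residue A ∘ algebraMap O A) := by
  intro y
  obtain ⟨x, rfl⟩ := residue_surjective y
  obtain ⟨r, hr⟩ := h x
  exact ⟨r, ((Ideal.Quotient.eq).mpr (hr _ (maximalIdeal.isMaximal A))).symm⟩

omit [Nontrivial A] [IsDiscreteValuationRing O] [IsDomain O] in
theorem isLocalHom_of_finite [IsLocalRing O] : IsLocalHom (algebraMap O A) := by
  have : Algebra.IsIntegral O A := Algebra.IsIntegral.of_finite O A
  refine ((local_hom_TFAE (algebraMap O A)).out 4 0).mp ?_
  exact IsLocalRing.eq_maximalIdeal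
    (Ideal.isMaximal_comap_of_isIntegral_of_isMaximal (maximalIdeal A))

omit [Nontrivial A] in
theorem isAdicComplete_of_finite_free [IsAdicComplete (maximalIdeal O) O] [Module.Free O A] :
    IsAdicComplete (maximalIdeal A) A := by
  have : IsNoetherianRing A := IsNoetherianRing.of_finite O A
  have : Algebra.IsIntegral O A := Algebra.IsIntegral.of_finite O A
  have := isLocalHom_of_finite (O := O) (A := A)
  obtain ⟨π, hπ⟩ := IsDiscreteValuationRing.exists_irreducible O
  have hπA : algebraMap O A π ∈ maximalIdeal A :=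
    map_nonunit (algebraMap O A) π (by rw [hπ.maximalIdeal_eq]; exact Ideal.mem_span_singleton_self π)
  have hrad : maximalIdeal A ≤ (Ideal.span {algebraMap O A π}).radical := by
    rw [Ideal.radical_eq_sInf]
    refine le_sInf fun Q hQ => ?_
    obtain ⟨hQπ, hQp⟩ := hQ
    have hQm : Q.IsMaximal := by
      refine Ideal.isMaximal_of_isIntegral_of_isMaximal_comap (R := O) Q ?_
      have hle : maximalIdeal O ≤ Q.comap (algebraMap O A) := by
        rw [hπ.maximalIdeal_eq, Ideal.span_singleton_le_iff_mem, Ideal.mem_comap]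
        exact hQπ (Ideal.mem_span_singleton_self _)
      rw [← (maximalIdeal.isMaximal O).eq_of_le (Ideal.comap_ne_top _ hQp.ne_top) hle]
      exact maximalIdeal.isMaximal O
    rw [IsLocalRing.eq_maximalIdeal hQm]
  obtain ⟨e, he⟩ := Ideal.exists_pow_le_of_le_radical_of_fg hrad
    (IsNoetherian.noetherian (maximalIdeal A))
  let b := Module.Free.chooseBasis O A
  have hH : IsHausdorff (maximalIdeal A) A := ⟨fun x hx => by
    have hx' : x ∈ ⨅ n, maximalIdeal A ^ n := by
      rw [Submodule.mem_iInf]
      intro n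
      simpa [SModEq.sub_mem] using hx n
    rwa [Ideal.iInf_pow_eq_bot_of_isLocalRing _ (maximalIdeal.isMaximal A).ne_top,
      Submodule.mem_bot] at hx'⟩
  refine { toIsHausdorff := hH, prec' := fun f hf => ?_ }
  have hmem : ∀ (n : ℕ) (a : A), a ∈ maximalIdeal A ^ ((e + 1) * n) →
      ∀ i, b.repr a i ∈ maximalIdeal O ^ n := fun n a ha i => by
    have h1 : a ∈ Ideal.span {algebraMap O A π} ^ n := by
      refine Ideal.pow_right_mono ((Ideal.pow_le_pow_right (by omega : e ≤ e + 1)).trans he) n ?_
      rwa [← pow_mul]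
    rw [Ideal.span_singleton_pow, Ideal.mem_span_singleton] at h1
    obtain ⟨a', rfl⟩ := h1
    rw [← map_pow, ← Algebra.smul_def, map_smul, Finsupp.smul_apply, smul_eq_mul]
    refine Ideal.mul_mem_right _ _ (Ideal.pow_mem_pow ?_ n)
    rw [hπ.maximalIdeal_eq]
    exact Ideal.mem_span_singleton_self π
  simp only [SModEq.sub_mem, smul_eq_mul, Ideal.mul_top] at hf ⊢
  have hc : ∀ i, ∃ l : O, ∀ n, b.repr (f ((e + 1) * n)) i - l ∈ maximalIdeal O ^ n := fun i => by
    obtain ⟨l, hl⟩ := IsPrecomplete.prec' (I := maximalIdeal O) (M := O)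
      (fun n => b.repr (f ((e + 1) * n)) i) fun {m n} hmn => by
        rw [SModEq.sub_mem, smul_eq_mul, Ideal.mul_top, ← Finsupp.sub_apply, ← map_sub]
        exact hmem m _ (hf (Nat.mul_le_mul_left _ hmn)) i
    exact ⟨l, fun n => by simpa [SModEq.sub_mem] using hl n⟩
  choose l hl using hc
  refine ⟨∑ i, l i • b i, fun n => ?_⟩
  have hn : n ≤ (e + 1) * n := Nat.le_mul_of_pos_left n (Nat.succ_pos e)
  have key : f ((e + 1) * n) - ∑ i, l i • b i ∈ maximalIdeal A ^ n := by
    rw [show f ((e + 1) * n) - ∑ i, l i • b i = ∑ i, (b.repr (f ((e + 1) * n)) i - l i) • b i by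
      simp [sub_smul, Finset.sum_sub_distrib, b.sum_repr]]
    refine Ideal.sum_mem _ fun i _ => ?_
    rw [Algebra.smul_def]
    refine Ideal.mul_mem_right _ _ ?_
    have h2 := Ideal.mem_map_of_mem (algebraMap O A) (hl i n)
    rw [Ideal.map_pow] at h2
    exact Ideal.pow_right_mono (((local_hom_TFAE (algebraMap O A)).out 0 2).mp
      (isLocalHom_of_finite (O := O) (A := A))) n h2
  simpa using add_mem (hf hn) key

end Finite

end FLTAgent.RT
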