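import Fermat.Agent.RT.HeckeRep.Quotient
import Fermat.Agent.RT.Coh.Part
import Fermat.Agent.GalRep.Dense
import Fermat.Agent.GalRep.Model

/-!
# The deformation ring acting on a generalised eigen part
-/

set_option autoImplicit false

namespace FLTAgent.RT

open FLTAgent.GalRep IsLocalRing

local notation "Γℚ" => AlgebraicClosure ℚ ≃ₐ[ℚ] AlgebraicClosure ℚ

variable {N : ℕ} [NeZero N] {S : Finset ℕ}

/-- The inclusion of the Hecke algebra away from `S` in the one away from the level. -/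
def restrictAway (hS : ∀ q : ℕ, q.Prime → q ∣ N → q ∈ S) :
    CuspForm.heckeAlgebra N 2 (↑S : Set ℕ) →+* awayHecke N :=
  (Subalgebra.inclusion (CuspForm.heckeAlgebra_mono
    (fun q hq => hS q hq.1 hq.2 : levelPrimes N ⊆ (↑S : Set ℕ)))).toRingHom

theorem restrictAway_T (hS : ∀ q : ℕ, q.Prime → q ∣ N → q ∈ S) {ℓ : ℕ} (hℓ : ℓ.Prime)
    (hℓN : ¬ ℓ ∣ N) (hℓS : ℓ ∉ (↑S : Set ℕ)) :
    restrictAway hS (CuspForm.heckeAlgebra.T hℓ hℓN hℓS) = awayT N hℓ hℓN := rfl

variable {O : Type} [CommRing O] [IsDomain O] [IsDiscreteValuationRing O]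
  [IsAdicComplete (maximalIdeal O) O] [Finite (ResidueField O)]
  {M : Type} [AddCommGroup M] [Module O M] [Module.Finite O M] {ι : Type}
  {X : ι → Module.End O M} (hX : ∀ i j, Commute (X i) (X j)) (a : ι → O)

/-- The family is topologically nilpotent around `a` on the part. -/
theorem isTopNilpotent_part [Module.Finite O (LinearMap.range (partProj hX a))]
    [Module.Free O (LinearMap.range (partProj hX a))]
    {x : Module.End O (LinearMap.range (partProj hX a))} {i : ι}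
    (hx : ∀ v, (x v : M) = X i v) :
    IsTopNilpotent (x - algebraMap O (Module.End O (LinearMap.range (partProj hX a))) (a i)) := by
  obtain ⟨k, hk⟩ := exists_pow_sub_mem hX a i 1
  refine isTopNilpotent_of_retract (LinearMap.range (partProj hX a)).subtype
    (partProj hX a).rangeRestrict ?_ (X := X i - a i • (1 : Module.End O M)) ?_ (k := k) ?_
  · rintro ⟨_, r, rfl⟩
    exact Subtype.ext (partProj_idem hX a r)
  · intro v
    simp [hx]
  · rintro ⟨_, r, rfl⟩
    have := hk r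
    rwa [pow_one] at this

variable [Module.Free O M]

instance instFreePart : Module.Free O (LinearMap.range (partProj hX a)) :=
  Module.Free.of_basis
    (Submodule.basisOfPid (Module.Free.chooseBasis O M) (LinearMap.range (partProj hX a))).2

instance instFinitePart : Module.Finite O (LinearMap.range (partProj hX a)) :=
  Module.Finite.range _

/-- **`R` acts on the part** through the Hecke operators: for a homomorphism `Θ` of the Hecke
algebra of level `N` to the endomorphisms of the part, sending each `T ℓ` to a member of the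
family. -/
theorem exists_algHom_part [Nontrivial (LinearMap.range (partProj hX a))] {p : ℕ} [Fact p.Prime]
    (hmod : Nonempty (MatModel N p ↑S)) (hS : ∀ q : ℕ, q.Prime → q ∣ N → q ∈ S) (hpS : p ∈ S)
    (hp2 : p ≠ 2) (hp : (p : O) ∈ maximalIdeal O)
    (Θ : awayHecke N →+* Module.End O (LinearMap.range (partProj hX a)))
    (idx : ℕ → ι)
    (hΘ : ∀ (ℓ : ℕ) (hℓ : ℓ.Prime) (hℓN : ¬ ℓ ∣ N), ℓ ∉ S →
      ∀ v, (Θ (awayT N hℓ hℓN) v : M) = X (idx ℓ) v)
    {ρbar : ResidualGaloisRep (ResidueField O)} (habs : ρbar.IsAbsolutelyIrreducible)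
    (S₁ : Finset ℕ)
    (hres : ∀ (ℓ : ℕ), ℓ.Prime → ¬ ℓ ∣ N → ℓ ∉ S → ℓ ∉ S₁ → ℓ ≠ p →
      ∀ A : ValuationSubring (AlgebraicClosure ℚ), A.LiesOverPrime ℓ →
        ∀ σ : Γℚ, A.IsFrobeniusAt σ ℓ →
          LinearMap.trace (ResidueField O) ρbar.V (ρbar.ρ σ) = residue O (a (idx ℓ)))
    {𝒟 : ∀ ⦃A : Type⦄ [CommRing A] [IsLocalRing A] [Algebra O A], GaloisRepAdic A → Prop}
    (h𝒟 : GaloisRep.IsDeformationCondition O 𝒟) (D : GaloisRep.DeformationRingData O ρbar 𝒟)
    (hmax : ∀ H : MaxDatum N S O (fun ℓ => a (idx ℓ)) ρbar, 𝒟 H.H.ρ) :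
    ∃ φ : D.R →ₐ[O] Module.End O (LinearMap.range (partProj hX a)),
      (∀ r s, Commute (φ r) (φ s)) ∧
      (∀ t, Θ (restrictAway hS t) ∈ φ.range) ∧
      ∀ (ℓ : ℕ) (hℓ : ℓ.Prime) (hℓN : ¬ ℓ ∣ N), ℓ ∉ S →
        ∀ A : ValuationSubring (AlgebraicClosure ℚ), A.LiesOverPrime ℓ →
          ∀ σ : Γℚ, A.IsFrobeniusAt σ ℓ → φ (D.ρ.trace σ) = Θ (awayT N hℓ hℓN) := by
  obtain ⟨Mm⟩ := hmod
  obtain ⟨hloc, ρ, φ, -, hsurj, -, -, -, htr, hfrob⟩ :=
    exists_algHom_of_maxDatum (Θ.comp (restrictAway hS)) Mm frobeniusDense hS hpS hp2 hp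
      (fun ℓ => a (idx ℓ))
      (fun ℓ hℓ hℓN hℓS => isTopNilpotent_part hX a (i := idx ℓ)
        (hΘ ℓ hℓ hℓN (by simpa using hℓS)))
      habs S₁ hres h𝒟 D hmax
  refine ⟨(heckeImage (Θ.comp (restrictAway hS))).val.comp φ, fun r s => ?_, fun t => ?_,
    fun ℓ hℓ hℓN hℓS A hA σ hσ => ?_⟩
  · exact (Commute.all (φ r) (φ s)).map (heckeImage (Θ.comp (restrictAway hS))).val
  · obtain ⟨r, hr⟩ := hsurj (toImage (Θ.comp (restrictAway hS)) t)
    exact ⟨r, congrArg Subtype.val hr⟩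
  · show (φ (D.ρ.trace σ)).val = _
    rw [htr, (hfrob ℓ hℓ hℓN (by simpa using hℓS) A hA σ hσ).1, coe_toImage]
    rfl

end FLTAgent.RT
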