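import Fermat.Agent.RT.HeckeRep.Max
import Fermat.Agent.RT.Cond.Main
import Fermat.Agent.FlatModel.DetCyclo
import Fermat.Agent.GalRep.Unramified
import Fermat.Agent.GalRep.Cyclo

/-!
# The deformation problems on Hecke Galois representation data
-/

set_option autoImplicit false

namespace FLTAgent.RT

open FLTAgent.GalRep IsLocalRing

local notation "Γℚ" => AlgebraicClosure ℚ ≃ₐ[ℚ] AlgebraicClosure ℚ

variable {p : ℕ} [Fact p.Prime] {N : ℕ} [NeZero N] {S : Finset ℕ}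
  {O : Type} [CommRing O] [IsDomain O] [IsDiscreteValuationRing O]
  [IsAdicComplete (maximalIdeal O) O]
  {θ : CuspForm.heckeAlgebra N 2 (↑S : Set ℕ) →+* ResidueField O}
  {T : Type} [CommRing T] [IsLocalRing T] [IsNoetherianRing T]
  [IsAdicComplete (maximalIdeal T) T] [Algebra O T] [IsLocalHom (algebraMap O T)]
  [Module.Finite O T] [Module.Free O T]

theorem detIsCyclotomic_datum (M : MatModel N p ↑S) (hd : FrobeniusDense)
    (hp : (p : O) ∈ maximalIdeal O) (H : CuspForm.HeckeGaloisRepDatum N (↑S : Set ℕ) O θ T) :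
    H.ρ.DetIsCyclotomic p := by
  have hpT : (p : T) ∈ maximalIdeal T := FlatModel.natCast_mem_maximalIdeal_of_map hp
  obtain ⟨ψ⟩ := exists_padicHom p T hpT
  refine ⟨hpT, fun n σ a ha => ?_⟩
  rw [← LinearMap.det_toMatrix (repBasis H.ρ)]
  rw [show LinearMap.toMatrix (repBasis H.ρ) (repBasis H.ρ) (H.ρ.ρ σ) = repMat H.ρ σ from rfl,
    FlatModel.det_repMat_eq_cyclo M hd H ψ hpT σ]
  obtain ⟨ζ, hζ⟩ := HasEnoughRootsOfUnity.exists_primitiveRoot (AlgebraicClosure ℚ) (p ^ n)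
  have h : (cyclo p σ : ℤ_[p]) - a ∈ Ideal.span {((p : ℤ_[p]) ^ n)} := by
    rw [← PadicInt.ker_toZModPow, RingHom.mem_ker, map_sub, map_natCast,
      toZModPow_cyclo_eq_natCast p σ hζ (ha ζ hζ.pow_eq_one), sub_self]
  have h2 := Ideal.mem_map_of_mem ψ h
  rw [Ideal.map_span, Set.image_singleton, map_sub, map_natCast, map_pow, map_natCast,
    ← Nat.cast_pow] at h2
  exact h2

theorem flatProblem_datum (M : MatModel N p ↑S) (hd : FrobeniusDense)
    (hp : (p : O) ∈ maximalIdeal O) (H : CuspForm.HeckeGaloisRepDatum N (↑S : Set ℕ) O θ T)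
    (S' T' : Finset ℕ) (hS' : ∀ q : ℕ, q.Prime → q ∣ N * p → q ∈ S')
    (hflat : H.ρ.IsFlatAt p)
    (hunip : ∀ q ∈ T', q.Prime → q ≠ p → H.ρ.IsUnipotentOnInertiaAt q) :
    RTCond.flatProblem O p S' T' H.ρ :=
  ⟨⟨detIsCyclotomic_datum M hd hp H, hflat, fun q hq hqS =>
    isUnramifiedAt_of_matModel M hd hp H q hq fun h => hqS (hS' q hq h)⟩, hunip⟩

theorem strictProblem_datum (M : MatModel N p ↑S) (hd : FrobeniusDense)
    (hp : (p : O) ∈ maximalIdeal O) (H : CuspForm.HeckeGaloisRepDatum N (↑S : Set ℕ) O θ T)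
    (S' T' : Finset ℕ) (hS' : ∀ q : ℕ, q.Prime → q ∣ N * p → q ∈ S')
    (hord : H.ρ.IsStrictOrdinaryAt p)
    (hunip : ∀ q ∈ T', q.Prime → q ≠ p → H.ρ.IsUnipotentOnInertiaAt q) :
    RTCond.strictProblem O p S' T' H.ρ :=
  ⟨⟨detIsCyclotomic_datum M hd hp H, hord, fun q hq hqS =>
    isUnramifiedAt_of_matModel M hd hp H q hq fun h => hqS (hS' q hq h)⟩, hunip⟩

end FLTAgent.RT
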