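import Fermat.Agent.RT.HeckeRep.GenericPoints
import Fermat.Agent.GalRep.Eigen
import Mathlib.RingTheory.MatrixAlgebra
import Mathlib.RingTheory.Flat.Basic
import Mathlib.RingTheory.Flat.TorsionFree
import Mathlib.LinearAlgebra.FreeModule.PID
import Mathlib.LinearAlgebra.Matrix.ToLin

/-!
# Relations among commuting operators checked on eigenvectors

On a finite free module over a principal ideal domain, an element of a commutative algebra of
operators which vanishes on every simultaneous eigenvector over the algebraic closure of the
fraction field is nilpotent.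
-/

set_option autoImplicit false

namespace FLTAgent.RT

open Matrix
open scoped TensorProduct

variable {O : Type} [CommRing O] [IsDomain O] [IsPrincipalIdealRing O]
  {A : Type} [CommRing A] [Algebra O A] [Module.Finite O A] [Module.Free O A]

/-- A point of a faithful matrix algebra has an eigenvector. -/
theorem exists_eigenvector_of_point {r : ℕ} (L : A →ₐ[O] Matrix (Fin r) (Fin r) O)
    (hL : Function.Injective L) (χ : A →ₐ[O] AlgebraicClosure (FractionRing O)) :
    ∃ v : Fin r → AlgebraicClosure (FractionRing O), v ≠ 0 ∧
      ∀ y, (L y).map (algebraMap O (AlgebraicClosure (FractionRing O))) *ᵥ v = χ y • v := by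
  classical
  let K := AlgebraicClosure (FractionRing O)
  have hK : Function.Injective (algebraMap O K) := by
    rw [IsScalarTower.algebraMap_eq O (FractionRing O) K]
    exact (algebraMap (FractionRing O) K).injective.comp (IsFractionRing.injective O _)
  have : Module.IsTorsionFree O K := (Module.isTorsionFree_iff_algebraMap_injective).mpr hK
  let LK : A →ₐ[O] Matrix (Fin r) (Fin r) K := ((Algebra.ofId O K).mapMatrix).comp L
  let g : K ⊗[O] A →ₐ[K] Matrix (Fin r) (Fin r) K :=
    Algebra.TensorProduct.lift (Algebra.ofId K _) LK fun c y =>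
      Algebra.commute_algebraMap_left c (LK y)
  have hg : ∀ z, g z = (matrixEquivTensor (Fin r) O K).symm
      (LinearMap.lTensor K L.toLinearMap z) := fun z => by
    induction z using TensorProduct.induction_on with
    | zero => simp
    | tmul c y =>
      rw [LinearMap.lTensor_tmul, matrixEquivTensor_apply_symm, Algebra.TensorProduct.lift_tmul,
        Algebra.ofId_apply, ← Algebra.smul_def]
      rfl
    | add x y hx hy => simp [hx, hy]
  have hginj : Function.Injective g.toLinearMap := fun x y h => by
    have h' : g x = g y := h
    rw [hg, hg] at h'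
    exact Module.Flat.lTensor_preserves_injective_linearMap L.toLinearMap hL
      ((matrixEquivTensor (Fin r) O K).symm.injective h')
  obtain ⟨π, hπ⟩ := g.toLinearMap.exists_leftInverse_of_injective (LinearMap.ker_eq_bot.mpr hginj)
  let χK : K ⊗[O] A →ₐ[K] K := Algebra.TensorProduct.lift (AlgHom.id K K) χ fun c y => Commute.all _ _
  refine GalRep.exists_eigenvector (LK : A →+* Matrix (Fin r) (Fin r) K) χ.toRingHom
    (χK.toLinearMap ∘ₗ π) fun y => ?_
  have h1 : g (1 ⊗ₜ y) = LK y := by simp [g]
  show χK (π (LK y)) = χ y
  rw [← h1, show π (g (1 ⊗ₜ y)) = (1 ⊗ₜ y : K ⊗[O] A) from LinearMap.congr_fun hπ (1 ⊗ₜ y)]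
  simp [χK]

/-- **Relations are checked on eigenvectors**, up to nilpotents. -/
theorem isNilpotent_of_forall_eigen {r : ℕ} (L : A →ₐ[O] Matrix (Fin r) (Fin r) O)
    (hL : Function.Injective L) (x : A)
    (h : ∀ (χ : A →ₐ[O] AlgebraicClosure (FractionRing O))
      (v : Fin r → AlgebraicClosure (FractionRing O)), v ≠ 0 →
      (∀ y, (L y).map (algebraMap O (AlgebraicClosure (FractionRing O))) *ᵥ v = χ y • v) →
      χ x = 0) : IsNilpotent x :=
  isNilpotent_of_forall_point x fun χ => by
    obtain ⟨v, hv, hev⟩ := exists_eigenvector_of_point L hL χ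
    exact h χ v hv hev

end FLTAgent.RT
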