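import Fermat.Agent.RT.HeckeRep.Image
import Fermat.Agent.RT.Coh.Part
import Mathlib.Algebra.Algebra.Bilinear

/-!
# The local factor of a finite algebra at a residual point
-/

set_option autoImplicit false

namespace FLTAgent.RT

open IsLocalRing MvPolynomial

variable {O : Type} [CommRing O] [IsDomain O] [IsDiscreteValuationRing O]

section Retract

variable {P M : Type} [AddCommGroup P] [Module O P] [Module.Finite O P] [Module.Free O P]
  [AddCommGroup M] [Module O M]

omit [Module.Finite O P] [Module.Free O P] in
/-- Topological nilpotence passes to a direct summand. -/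
theorem isTopNilpotent_of_retract (i : P →ₗ[O] M) (r : M →ₗ[O] P) (hri : ∀ v, r (i v) = v)
    {x : Module.End O P} {X : Module.End O M} (hx : ∀ v, i (x v) = X (i v)) {k : ℕ}
    (hk : ∀ v, (X ^ k) (i v) ∈ maximalIdeal O • (⊤ : Submodule O M)) : IsTopNilpotent x := by
  refine ⟨k, fun v => ?_⟩
  have hpow : ∀ (j : ℕ) (w : P), i ((x ^ j) w) = (X ^ j) (i w) := fun j => by
    induction j with
    | zero => intro w; rfl
    | succ j ih => intro w; rw [pow_succ, pow_succ, Module.End.mul_apply, Module.End.mul_apply, ih, hx]
  have h := Submodule.mem_map_of_mem (f := r) (hk v)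
  rw [← hpow, hri, Submodule.map_smul''] at h
  exact Submodule.smul_mono le_rfl le_top h

end Retract

variable [IsAdicComplete (maximalIdeal O) O] [Finite (ResidueField O)]
  {R : Type} [CommRing R] [Algebra O R] [Module.Finite O R] {ι : Type} (x : ι → R) (a : ι → O)

/-- **The idempotent of the local factor at a residual point.** -/
theorem exists_factorIdem :
    ∃ ε : R, IsIdempotentElem ε ∧
      (∀ i, ∃ k : ℕ, ∀ r : R, (x i - algebraMap O R (a i)) ^ k * (ε * r) ∈
        maximalIdeal O • (⊤ : Submodule O R)) ∧
      ∀ (B : Type) [CommRing B] [IsLocalRing B] [Algebra O B] [IsLocalHom (algebraMap O B)]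
        (f : R →ₐ[O] B),
        (∀ i, f (x i) - algebraMap O B (a i) ∈ maximalIdeal B) → f ε = 1 := by
  have hX : ∀ i j, Commute (LinearMap.mulLeft O (x i)) (LinearMap.mulLeft O (x j)) := fun i j =>
    LinearMap.ext fun r => mul_left_comm (x i) (x j) r
  set e := partProj hX a with he
  have hmul : ∀ r, e r = e 1 * r := fun r => by
    have h := LinearMap.congr_fun (partProj_comm hX a (g := LinearMap.mulLeft O r)
      (fun i => LinearMap.ext fun s => mul_left_comm r (x i) s)).eq 1
    simp only [Module.End.mul_apply, LinearMap.mulLeft_apply, mul_one, ← he] at h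
    rw [← h, mul_comm]
  refine ⟨e 1, ?_, fun i => ?_, ?_⟩
  · show e 1 * e 1 = e 1
    rw [← hmul, he, partProj_idem]
  · obtain ⟨k, hk⟩ := exists_pow_sub_mem hX a i 1
    refine ⟨k, fun r => ?_⟩
    have h := hk r
    rw [pow_one, ← he, hmul] at h
    have hsub : LinearMap.mulLeft O (x i) - a i • (1 : Module.End O R) =
        LinearMap.mulLeft O (x i - algebraMap O R (a i)) := by
      refine LinearMap.ext fun s => ?_
      simp [sub_mul, Algebra.smul_def]
    rwa [hsub, LinearMap.pow_mulLeft, LinearMap.mulLeft_apply] at h
  · intro B _ _ _ _ f hf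
    obtain ⟨q, hq, hqe⟩ := (isPartProj_partProj hX a).compl
    have hev : ∀ p, polyAct hX p = Algebra.lmul O R (aeval x p) := by
      have : polyAct hX = (Algebra.lmul O R).comp (aeval x) :=
        MvPolynomial.algHom_ext fun i => by
          rw [polyAct_X, AlgHom.comp_apply, aeval_X]
          rfl
      exact fun p => AlgHom.congr_fun this p
    have h1 : aeval (fun i => f (x i)) q ∈ maximalIdeal B := by
      have hle : polyIdeal O a ≤ (maximalIdeal B).comap (aeval fun i => f (x i)) := by
        refine sup_le (Ideal.map_le_iff_le_comap.mpr fun c hc => ?_) ?_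
        · simp only [Ideal.mem_comap, aeval_C]
          exact map_nonunit (algebraMap O B) c hc
        · rw [Ideal.span_le]
          rintro _ ⟨i, rfl⟩
          simpa using hf i
      exact hle hq
    have h2 : aeval x q = 1 - e 1 := by
      have := LinearMap.congr_fun (hqe.symm.trans (hev q)) 1
      simpa using this.symm
    have h3 : (1 : B) - f (e 1) ∈ maximalIdeal B := by
      rw [← map_one f, ← map_sub, ← h2, MvPolynomial.comp_aeval_apply]
      exact h1
    have hunit : IsUnit (f (e 1)) := by
      by_contra hu
      have := Ideal.add_mem _ h3 ((IsLocalRing.mem_maximalIdeal _).mpr hu)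
      rw [sub_add_cancel] at this
      exact (maximalIdeal.isMaximal B).ne_top ((Ideal.eq_top_iff_one _).mpr this)
    refine hunit.mul_left_cancel ?_
    rw [mul_one, ← map_mul, ← hmul, he, partProj_idem]

end FLTAgent.RT
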