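import Fermat.Agent.RT.HeckeRep.Datum
import Fermat.Agent.RT.HeckeRep.Factor
import Fermat.Agent.RT.HeckeRep.TraceExt
import Mathlib.RingTheory.TensorProduct.Finite
import Mathlib.RingTheory.TensorProduct.Free

/-!
# The maximal Hecke algebra at a residual system of eigenvalues

A Hecke Galois representation datum which maps to every local Hecke algebra with the same residual
eigenvalues: local conditions proved for data transfer to the Hecke algebras of lattices.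
-/

set_option autoImplicit false

namespace FLTAgent.RT

open FLTAgent.GalRep IsLocalRing
open scoped TensorProduct

local notation "Γℚ" => AlgebraicClosure ℚ ≃ₐ[ℚ] AlgebraicClosure ℚ

variable {N : ℕ} [NeZero N] {S : Finset ℕ}

/-- A datum receiving every point with prescribed residual eigenvalues. -/
structure MaxDatum (N : ℕ) [NeZero N] (S : Finset ℕ) (O : Type) [CommRing O] [IsDomain O]
    [IsDiscreteValuationRing O] [IsAdicComplete (maximalIdeal O) O] (a : ℕ → O)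
    (ρbar : ResidualGaloisRep (ResidueField O)) : Type 1 where
  θ : CuspForm.heckeAlgebra N 2 (↑S : Set ℕ) →+* ResidueField O
  θ_T : ∀ (ℓ : ℕ) (hℓ : ℓ.Prime) (hℓN : ¬ ℓ ∣ N) (hℓS : ℓ ∉ (↑S : Set ℕ)),
    θ (CuspForm.heckeAlgebra.T hℓ hℓN hℓS) = residue O (a ℓ)
  T : Type
  [instCommRing : CommRing T]
  [instIsLocalRing : IsLocalRing T]
  [instIsNoetherianRing : IsNoetherianRing T]
  [instIsAdicComplete : IsAdicComplete (maximalIdeal T) T]
  [instAlgebra : Algebra O T]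
  [instIsLocalHom : IsLocalHom (algebraMap O T)]
  [instFinite : Module.Finite O T]
  [instFree : Module.Free O T]
  H : CuspForm.HeckeGaloisRepDatum N (↑S : Set ℕ) O θ T
  residual : H.ρ.residual.IsEquiv (ρbar.baseChangeAlong (ResidueField.map (algebraMap O T)))
  lift : ∀ (B : Type) [CommRing B] [IsLocalRing B] [Algebra O B] [IsLocalHom (algebraMap O B)]
    (χ : CuspForm.heckeAlgebra N 2 (↑S : Set ℕ) →+* B),
    (∀ (ℓ : ℕ) (hℓ : ℓ.Prime) (hℓN : ¬ ℓ ∣ N) (hℓS : ℓ ∉ (↑S : Set ℕ)),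
      χ (CuspForm.heckeAlgebra.T hℓ hℓN hℓS) - algebraMap O B (a ℓ) ∈ maximalIdeal B) →
    ∃ ψ : T →ₐ[O] B, ∀ t, ψ (H.π t) = χ t

attribute [instance] MaxDatum.instCommRing MaxDatum.instIsLocalRing MaxDatum.instIsNoetherianRing
  MaxDatum.instIsAdicComplete MaxDatum.instAlgebra MaxDatum.instIsLocalHom MaxDatum.instFinite
  MaxDatum.instFree

section Ring

variable {O : Type} [CommRing O] {R : Type} [CommRing R] [Algebra O R]

/-- Multiplications on an ideal cut out by an element. -/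
def mulOn (ε : R) : R →+* Module.End O (LinearMap.range (LinearMap.mulLeft O ε)) where
  toFun r := (LinearMap.mulLeft O r).restrict fun v hv => by
    obtain ⟨w, rfl⟩ := hv
    exact ⟨r * w, mul_left_comm ε r w⟩
  map_one' := LinearMap.ext fun v => Subtype.ext (one_mul v.1)
  map_mul' r s := LinearMap.ext fun v => Subtype.ext (mul_assoc r s v.1)
  map_zero' := LinearMap.ext fun v => Subtype.ext (zero_mul v.1)
  map_add' r s := LinearMap.ext fun v => Subtype.ext (add_mul r s v.1)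

theorem coe_mulOn (ε r : R) (v : LinearMap.range (LinearMap.mulLeft O ε)) :
    ((mulOn (O := O) ε r v : LinearMap.range (LinearMap.mulLeft O ε)) : R) = r * (v : R) := rfl

/-- The point `ε` of its own ideal. -/
def selfPoint {ε : R} : LinearMap.range (LinearMap.mulLeft O ε) :=
  ⟨ε, 1, mul_one ε⟩

theorem eq_mulOn_of_mem (ε : R) {x : Module.End O (LinearMap.range (LinearMap.mulLeft O ε))}
    (hx : x ∈ Algebra.adjoin O (Set.range (mulOn (O := O) ε))) : ∃ r, x = mulOn ε r := by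
  induction hx using Algebra.adjoin_induction with
  | mem y hy => obtain ⟨r, rfl⟩ := hy; exact ⟨r, rfl⟩
  | algebraMap c =>
    exact ⟨algebraMap O R c, LinearMap.ext fun v => Subtype.ext (Algebra.smul_def c v.1)⟩
  | add y z _ _ hy hz =>
    obtain ⟨r, rfl⟩ := hy
    obtain ⟨s, rfl⟩ := hz
    exact ⟨r + s, (map_add (mulOn (O := O) ε) r s).symm⟩
  | mul y z _ _ hy hz =>
    obtain ⟨r, rfl⟩ := hy
    obtain ⟨s, rfl⟩ := hz
    exact ⟨r * s, (map_mul (mulOn (O := O) ε) r s).symm⟩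

variable {B : Type} [CommRing B] [Algebra O B]

/-- An algebra map which is one at `ε` descends to the operators on the ideal of `ε`. -/
theorem exists_descend (ε : R) (f : R →ₐ[O] B) (hf : f ε = 1)
    (A : Subalgebra O (Module.End O (LinearMap.range (LinearMap.mulLeft O ε))))
    (hA : A ≤ Algebra.adjoin O (Set.range (mulOn (O := O) ε))) :
    ∃ ψ : A →ₐ[O] B, ∀ (x : A) (r : R), (x : Module.End O _) = mulOn ε r → ψ x = f r := by
  let ev : A → B := fun x => f (((x : Module.End O _) (selfPoint (O := O) (ε := ε)) : _) : R)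
  have key : ∀ (x : A) (r : R), (x : Module.End O _) = mulOn ε r → ev x = f r := fun x r h => by
    simp only [ev, h, coe_mulOn]
    show f (r * ε) = f r
    rw [map_mul, hf, mul_one]
  have hex : ∀ x : A, ∃ r, (x : Module.End O _) = mulOn ε r := fun x => eq_mulOn_of_mem ε (hA x.2)
  have halg : ∀ c : O, algebraMap O (Module.End O (LinearMap.range (LinearMap.mulLeft O ε))) c =
      mulOn ε (algebraMap O R c) := fun c =>
    LinearMap.ext fun v => Subtype.ext (Algebra.smul_def c v.1)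
  refine ⟨{ toFun := ev, map_one' := ?_, map_mul' := ?_, map_zero' := ?_, map_add' := ?_,
            commutes' := ?_ }, key⟩
  · exact (key 1 1 (map_one (mulOn (O := O) ε)).symm).trans (map_one f)
  · intro x y
    obtain ⟨r, hr⟩ := hex x
    obtain ⟨s, hs⟩ := hex y
    rw [key (x * y) (r * s) (by rw [map_mul, Subalgebra.coe_mul, hr, hs]), key x r hr, key y s hs,
      map_mul]
  · exact (key 0 0 (map_zero (mulOn (O := O) ε)).symm).trans (map_zero f)
  · intro x y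
    obtain ⟨r, hr⟩ := hex x
    obtain ⟨s, hs⟩ := hex y
    rw [key (x + y) (r + s) (by rw [map_add, Subalgebra.coe_add, hr, hs]), key x r hr, key y s hs,
      map_add]
  · intro c
    exact (key (algebraMap O A c) (algebraMap O R c) (halg c)).trans (f.commutes c)

end Ring

variable {O : Type} [CommRing O] [IsDomain O] [IsDiscreteValuationRing O]
  [IsAdicComplete (maximalIdeal O) O] [Finite (ResidueField O)]

section Pieces

variable {R : Type} [CommRing R] [Algebra O R]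

omit [IsAdicComplete (maximalIdeal O) O] [Finite (ResidueField O)] in
theorem isTopNilpotent_mulOn
    {ε y : R} (hε : IsIdempotentElem ε)
    [Module.Finite O (LinearMap.range (LinearMap.mulLeft O ε))]
    [Module.Free O (LinearMap.range (LinearMap.mulLeft O ε))] {c : O} {k : ℕ}
    (hk : ∀ r : R, (y - algebraMap O R c) ^ k * (ε * r) ∈
      maximalIdeal O • (⊤ : Submodule O R)) :
    IsTopNilpotent (mulOn (O := O) ε y -
      algebraMap O (Module.End O (LinearMap.range (LinearMap.mulLeft O ε))) c) := by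
  refine isTopNilpotent_of_retract (LinearMap.range (LinearMap.mulLeft O ε)).subtype
    ((LinearMap.mulLeft O ε).codRestrict _ fun r => ⟨r, rfl⟩) ?_
    (X := LinearMap.mulLeft O (y - algebraMap O R c)) ?_ (k := k) ?_
  · rintro ⟨_, r, rfl⟩
    refine Subtype.ext ?_
    show ε * (ε * r) = ε * r
    rw [← mul_assoc, hε.eq]
  · intro v
    show (mulOn (O := O) ε y v : R) - c • (v : R) = (y - algebraMap O R c) * (v : R)
    rw [coe_mulOn, sub_mul, Algebra.smul_def]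
  · rintro ⟨_, r, rfl⟩
    rw [LinearMap.pow_mulLeft]
    exact hk r

/-- The eigenvalue map of a local algebra with residue field that of `O`. -/
theorem exists_residual_hom {𝕋 T : Type} [CommRing 𝕋] [CommRing T] [IsLocalRing T] [Algebra O T]
    [IsLocalHom (algebraMap O T)] (hrs : Function.Surjective (residue T ∘ algebraMap O T))
    (π : 𝕋 →+* T) :
    ∃ θ : 𝕋 →+* ResidueField O,
      (∀ t, residue T (π t) = ResidueField.map (algebraMap O T) (θ t)) ∧
      ∀ t c, residue T (π t) = ResidueField.map (algebraMap O T) c → θ t = c := by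
  let e : ResidueField O ≃+* ResidueField T :=
    RingEquiv.ofBijective (ResidueField.map (algebraMap O T))
      ⟨RingHom.injective _, fun y => by
        obtain ⟨c, hc⟩ := hrs y
        exact ⟨residue O c, (ResidueField.map_residue _ c).trans hc⟩⟩
  refine ⟨(e.symm : ResidueField T →+* ResidueField O).comp ((residue T).comp π),
    fun t => (e.apply_symm_apply _).symm, fun t c h => ?_⟩
  show e.symm (residue T (π t)) = c
  rw [h]
  exact e.symm_apply_apply c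

end Pieces

/-- The maximal datum from any finite free algebra with the universal property of
`O ⊗ heckeAlgebra`. -/
theorem exists_maxDatum_of_ring {p : ℕ} [Fact p.Prime] (M : MatModel N p ↑S) (hd : FrobeniusDense)
    (hS : ∀ q : ℕ, q.Prime → q ∣ N → q ∈ S) (hpS : p ∈ S)
    (hp2 : p ≠ 2) (hp : (p : O) ∈ maximalIdeal O) (a : ℕ → O)
    (ρbar : ResidualGaloisRep (ResidueField O)) (habs : ρbar.IsAbsolutelyIrreducible)
    (S₁ : Finset ℕ)
    (hres : ∀ (ℓ : ℕ), ℓ.Prime → ¬ ℓ ∣ N → ℓ ∉ S → ℓ ∉ S₁ → ℓ ≠ p →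
      ∀ A : ValuationSubring (AlgebraicClosure ℚ), A.LiesOverPrime ℓ →
        ∀ σ : Γℚ, A.IsFrobeniusAt σ ℓ →
          LinearMap.trace (ResidueField O) ρbar.V (ρbar.ρ σ) = residue O (a ℓ))
    {R : Type} [CommRing R] [Algebra O R] [Module.Finite O R] [Module.Free O R]
    (inc : CuspForm.heckeAlgebra N 2 (↑S : Set ℕ) →+* R)
    (hlift : ∀ (B : Type) [CommRing B] [Algebra O B]
      (χ : CuspForm.heckeAlgebra N 2 (↑S : Set ℕ) →+* B),
      ∃ f : R →ₐ[O] B, ∀ t, f (inc t) = χ t)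
    (B₀ : Type) [CommRing B₀] [IsLocalRing B₀] [Algebra O B₀] [IsLocalHom (algebraMap O B₀)]
    (χ₀ : CuspForm.heckeAlgebra N 2 (↑S : Set ℕ) →+* B₀)
    (h₀ : ∀ (ℓ : ℕ) (hℓ : ℓ.Prime) (hℓN : ¬ ℓ ∣ N) (hℓS : ℓ ∉ (↑S : Set ℕ)),
      χ₀ (CuspForm.heckeAlgebra.T hℓ hℓN hℓS) - algebraMap O B₀ (a ℓ) ∈ maximalIdeal B₀) :
    Nonempty (MaxDatum N S O a ρbar) := by
  obtain ⟨ε, hε, hnilε, huniv⟩ := exists_factorIdem
    (ι := {ℓ : ℕ // ℓ.Prime ∧ ¬ ℓ ∣ N ∧ ℓ ∉ (↑S : Set ℕ)})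
    (fun i => inc (CuspForm.heckeAlgebra.T i.2.1 i.2.2.1 i.2.2.2)) fun i => a i.1
  have hlift' : ∀ (B : Type) [CommRing B] [IsLocalRing B] [Algebra O B]
      [IsLocalHom (algebraMap O B)] (χ : CuspForm.heckeAlgebra N 2 (↑S : Set ℕ) →+* B),
      (∀ (ℓ : ℕ) (hℓ : ℓ.Prime) (hℓN : ¬ ℓ ∣ N) (hℓS : ℓ ∉ (↑S : Set ℕ)),
        χ (CuspForm.heckeAlgebra.T hℓ hℓN hℓS) - algebraMap O B (a ℓ) ∈ maximalIdeal B) →
      ∃ f : R →ₐ[O] B, f ε = 1 ∧ ∀ t, f (inc t) = χ t := by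
    intro B _ _ _ _ χ hχ
    obtain ⟨f, hf⟩ := hlift B χ
    exact ⟨f, huniv B f fun i => by rw [hf]; exact hχ _ _ _ _, hf⟩
  let P := LinearMap.range (LinearMap.mulLeft O ε)
  let Θ : CuspForm.heckeAlgebra N 2 (↑S : Set ℕ) →+* Module.End O P :=
    (mulOn (O := O) ε).comp inc
  have hPfree : Module.Free O P :=
    Module.Free.of_basis (Submodule.basisOfPid (Module.Free.chooseBasis O R) P).2
  have hPfin : Module.Finite O P := Module.Finite.of_injective P.subtype Subtype.val_injective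
  have hP : Nontrivial P := ⟨⟨selfPoint, 0, fun h => by
    have h0 : ε = 0 := congrArg Subtype.val h
    obtain ⟨f, hf, -⟩ := hlift' B₀ χ₀ h₀
    rw [h0, map_zero] at hf
    exact zero_ne_one hf⟩⟩
  have hnil : ∀ (ℓ : ℕ) (hℓ : ℓ.Prime) (hℓN : ¬ ℓ ∣ N) (hℓS : ℓ ∉ (↑S : Set ℕ)),
      IsTopNilpotent (Θ (CuspForm.heckeAlgebra.T hℓ hℓN hℓS) -
        algebraMap O (Module.End O P) (a ℓ)) := by
    intro ℓ hℓ hℓN hℓS
    obtain ⟨k, hk⟩ := hnilε ⟨ℓ, hℓ, hℓN, hℓS⟩
    exact isTopNilpotent_mulOn hε hk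
  have := isLocalRing_heckeImage Θ hS a hnil
  have := nontrivial_heckeImage Θ
  have hdesc : ∀ (B : Type) [CommRing B] [IsLocalRing B] [Algebra O B]
      [IsLocalHom (algebraMap O B)] (χ : CuspForm.heckeAlgebra N 2 (↑S : Set ℕ) →+* B),
      (∀ (ℓ : ℕ) (hℓ : ℓ.Prime) (hℓN : ¬ ℓ ∣ N) (hℓS : ℓ ∉ (↑S : Set ℕ)),
        χ (CuspForm.heckeAlgebra.T hℓ hℓN hℓS) - algebraMap O B (a ℓ) ∈ maximalIdeal B) →
      ∃ ψ : heckeImage Θ →ₐ[O] B, ∀ t, ψ (toImage Θ t) = χ t := by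
    intro B _ _ _ _ χ hχ
    obtain ⟨f, hfε, hf⟩ := hlift' B χ hχ
    obtain ⟨ψ, hψ⟩ := exists_descend ε f hfε (heckeImage Θ)
      (Algebra.adjoin_mono (Set.range_subset_iff.mpr fun t => ⟨inc t, rfl⟩))
    exact ⟨ψ, fun t => (hψ (toImage Θ t) (inc t) rfl).trans (hf t)⟩
  have hrs := residue_surjective_of_scalar (O := O) (A := heckeImage Θ) (heckeImage_scalar Θ hS a hnil)
  obtain ⟨θ, hθ, hθu⟩ := exists_residual_hom hrs (toImage Θ)
  have hθT : ∀ (ℓ : ℕ) (hℓ : ℓ.Prime) (hℓN : ¬ ℓ ∣ N) (hℓS : ℓ ∉ (↑S : Set ℕ)),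
      θ (CuspForm.heckeAlgebra.T hℓ hℓN hℓS) = residue O (a ℓ) := fun ℓ hℓ hℓN hℓS =>
    hθu _ _ (residue_toImage Θ a hnil ℓ hℓ hℓN hℓS)
  obtain ⟨ρ, hρ, -, -, hρres⟩ := exists_rep_heckeImage Θ M hd hp2 hp a hnil ρbar habs S₁ hres
  exact ⟨{
    θ := θ
    θ_T := hθT
    T := heckeImage Θ
    H :=
      { π := toImage Θ
        residue_π := hθ
        adjoin_range_π := by
          rw [eq_top_iff, ← adjoin_imageGens Θ hS]
          refine Algebra.adjoin_mono ?_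
          rintro _ ⟨ℓ, hℓ, hℓN, hℓS, rfl⟩
          exact ⟨_, rfl⟩
        exists_point := fun χ hχ => hdesc O χ fun ℓ hℓ hℓN hℓS => by
          rw [Algebra.algebraMap_self, RingHom.id_apply]
          exact Ideal.Quotient.eq.mp ((hχ _).trans (hθT ℓ hℓ hℓN hℓS))
        residue_surjective := hrs
        ρ := ρ
        charpoly_frob := fun ℓ hℓ hℓN hℓS A hA σ hσ =>
          (hρ ℓ hℓ hℓN hℓS (fun h => hℓS (by simpa [h] using hpS)) A hA σ hσ).2
        residual_absIrr := isAbsolutelyIrreducible_of_isEquiv hρres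
          (isAbsolutelyIrreducible_baseChangeAlong _ ρbar habs) }
    residual := hρres
    lift := hdesc }⟩

/-- **Existence of the maximal datum**, as soon as some local algebra has the residual
eigenvalues. -/
theorem exists_maxDatum {p : ℕ} [Fact p.Prime] (M : MatModel N p ↑S) (hd : FrobeniusDense)
    (hS : ∀ q : ℕ, q.Prime → q ∣ N → q ∈ S) (hpS : p ∈ S)
    (hp2 : p ≠ 2) (hp : (p : O) ∈ maximalIdeal O) (a : ℕ → O)
    (ρbar : ResidualGaloisRep (ResidueField O)) (habs : ρbar.IsAbsolutelyIrreducible)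
    (S₁ : Finset ℕ)
    (hres : ∀ (ℓ : ℕ), ℓ.Prime → ¬ ℓ ∣ N → ℓ ∉ S → ℓ ∉ S₁ → ℓ ≠ p →
      ∀ A : ValuationSubring (AlgebraicClosure ℚ), A.LiesOverPrime ℓ →
        ∀ σ : Γℚ, A.IsFrobeniusAt σ ℓ →
          LinearMap.trace (ResidueField O) ρbar.V (ρbar.ρ σ) = residue O (a ℓ))
    (B₀ : Type) [CommRing B₀] [IsLocalRing B₀] [Algebra O B₀] [IsLocalHom (algebraMap O B₀)]
    (χ₀ : CuspForm.heckeAlgebra N 2 (↑S : Set ℕ) →+* B₀)
    (h₀ : ∀ (ℓ : ℕ) (hℓ : ℓ.Prime) (hℓN : ¬ ℓ ∣ N) (hℓS : ℓ ∉ (↑S : Set ℕ)),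
      χ₀ (CuspForm.heckeAlgebra.T hℓ hℓN hℓS) - algebraMap O B₀ (a ℓ) ∈ maximalIdeal B₀) :
    Nonempty (MaxDatum N S O a ρbar) := by
  have : Module.Finite ℤ (CuspForm.heckeAlgebra N 2 (↑S : Set ℕ)) :=
    Module.Finite.of_injective M.Tm.toAddMonoidHom.toIntLinearMap M.Tm_injective
  have : Module.Free ℤ (CuspForm.heckeAlgebra N 2 (↑S : Set ℕ)) :=
    Module.Free.of_equiv (LinearEquiv.ofInjective M.Tm.toAddMonoidHom.toIntLinearMap
      M.Tm_injective).symm
  refine exists_maxDatum_of_ring M hd hS hpS hp2 hp a ρbar habs S₁ hres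
    (R := O ⊗[ℤ] (CuspForm.heckeAlgebra N 2 (↑S : Set ℕ)))
    (Algebra.TensorProduct.includeRight (R := ℤ) (A := O)).toRingHom
    (fun B _ _ χ => ⟨Algebra.TensorProduct.lift (Algebra.ofId O B) χ.toIntAlgHom
      fun c t => Commute.all _ _, fun t => ?_⟩) B₀ χ₀ h₀
  show Algebra.TensorProduct.lift (Algebra.ofId O B) χ.toIntAlgHom _ (1 ⊗ₜ t) = χ t
  rw [Algebra.TensorProduct.lift_tmul, map_one, one_mul]
  rfl

/-- **Transfer**: a representation over a Hecke algebra of a lattice is a quotient of the maximal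
one. -/
theorem exists_quotient_maxDatum {p : ℕ} (hd : FrobeniusDense)
    {P : Type} [AddCommGroup P] [Module O P] [Module.Finite O P] [Module.Free O P]
    (Θ : CuspForm.heckeAlgebra N 2 (↑S : Set ℕ) →+* Module.End O P)
    [IsLocalRing (heckeImage Θ)] (hS : ∀ q : ℕ, q.Prime → q ∣ N → q ∈ S) (hpS : p ∈ S)
    (a : ℕ → O)
    (hnil : ∀ (ℓ : ℕ) (hℓ : ℓ.Prime) (hℓN : ¬ ℓ ∣ N) (hℓS : ℓ ∉ (↑S : Set ℕ)),
      IsTopNilpotent (Θ (CuspForm.heckeAlgebra.T hℓ hℓN hℓS) -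
        algebraMap O (Module.End O P) (a ℓ)))
    {ρbar : ResidualGaloisRep (ResidueField O)} (D : MaxDatum N S O a ρbar)
    (ρ : GaloisRepAdic (heckeImage Θ))
    (habs : ρ.residual.IsAbsolutelyIrreducible)
    (htr : ∀ (ℓ : ℕ) (hℓ : ℓ.Prime) (hℓN : ¬ ℓ ∣ N) (hℓS : ℓ ∉ (↑S : Set ℕ)), ℓ ≠ p →
      ∀ A : ValuationSubring (AlgebraicClosure ℚ), A.LiesOverPrime ℓ →
        ∀ σ : Γℚ, A.IsFrobeniusAt σ ℓ →
          ρ.trace σ = toImage Θ (CuspForm.heckeAlgebra.T hℓ hℓN hℓS)) :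
    ∃ ψ : D.T →ₐ[O] heckeImage Θ, Function.Surjective ψ ∧
      (∀ t, ψ (D.H.π t) = toImage Θ t) ∧
      ∃ hψ : IsLocalHom (ψ : D.T →+* heckeImage Θ),
        ρ.IsEquiv (D.H.ρ.baseChangeAlong (ψ : D.T →+* heckeImage Θ) hψ) := by
  obtain ⟨ψ, hψπ⟩ := D.lift (heckeImage Θ) (toImage Θ) fun ℓ hℓ hℓN hℓS =>
    mem_of_isTopNilpotent (heckeImage Θ).val Subtype.val_injective
      (by simpa [coe_toImage] using hnil ℓ hℓ hℓN hℓS) _
  have hsurj : Function.Surjective ψ := fun y => by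
    have hle : Algebra.adjoin O (imageGens Θ) ≤ ψ.range := by
      refine Algebra.adjoin_le ?_
      rintro _ ⟨ℓ, hℓ, hℓN, hℓS, rfl⟩
      exact ⟨_, hψπ _⟩
    rw [adjoin_imageGens Θ hS] at hle
    exact hle (x := y) Algebra.mem_top
  have hψ : IsLocalHom (ψ : D.T →+* heckeImage Θ) := IsLocalHom.of_surjective _ hsurj
  refine ⟨ψ, hsurj, hψπ, hψ,
    isEquiv_of_frobenius hd habs (S ∪ N.divisors) fun ℓ hℓ hℓS A hA σ hσ => ?_⟩
  simp only [Finset.mem_union, Nat.mem_divisors, not_or] at hℓS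
  have hℓN : ¬ ℓ ∣ N := fun h => hℓS.2 ⟨h, NeZero.ne N⟩
  have hℓS' : ℓ ∉ (↑S : Set ℕ) := by simpa using hℓS.1
  rw [CommAlg.trace_baseChangeAlong, htr ℓ hℓ hℓN hℓS' (fun h => hℓS.1 (h ▸ hpS)) A hA σ hσ,
    ← hψπ]
  exact (congrArg ψ (CommAlg.trace_eq_of_charpoly_eq D.H.ρ.finrank_eq
    (D.H.charpoly_frob ℓ hℓ hℓN hℓS' A hA σ hσ))).symm

end FLTAgent.RT
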