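import Fermat.Agent.RT.HeckeRep.Away
import Fermat.Agent.Newform.Occurs
import Fermat.Agent.CommAlg.FrobeniusExists

/-!
# Points of the deformation ring in the support of a part come from eigenforms
-/

set_option autoImplicit false

namespace FLTAgent.RT

open FLTAgent.GalRep CuspForm ModularFormClass

local notation "Γℚ" => AlgebraicClosure ℚ ≃ₐ[ℚ] AlgebraicClosure ℚ

variable {N : ℕ} [NeZero N] {S : Finset ℕ}

/-- A character with integer values at the good Hecke operators comes from an eigenform with these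
coefficients. -/
theorem exists_eigenform_of_intValues (hS : ∀ q : ℕ, q.Prime → q ∣ N → q ∈ S) {B : Type*}
    [CommRing B] [CharZero B] (χ : heckeAlgebra N 2 (↑S : Set ℕ) →+* B) (c : ℕ → ℤ)
    (hc : ∀ (ℓ : ℕ) (hℓ : ℓ.Prime) (hℓN : ¬ ℓ ∣ N) (hℓS : ℓ ∉ (↑S : Set ℕ)),
      χ (heckeAlgebra.T hℓ hℓN hℓS) = c ℓ) :
    ∃ g : CuspForm (CongruenceSubgroup.Gamma0 N) 2, g.IsNormalizedEigenform ∧
      ∀ ℓ : ℕ, ℓ.Prime → ¬ ℓ ∣ N → ℓ ∉ S → qCoeff g ℓ = c ℓ := by
  have hmem : ∀ t, χ t ∈ (Int.castRingHom B).range := by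
    rintro ⟨x, hx⟩
    change x ∈ Algebra.adjoin ℤ (heckeGenerators N 2 (↑S : Set ℕ)) at hx
    induction hx using Algebra.adjoin_induction with
    | mem x hx =>
      rcases hx with ⟨l, hl, hlN, hlS, rfl⟩ | ⟨q, hqN, hq, hqS, -⟩
      · exact ⟨c l, (hc l hl hlN hlS).symm⟩
      · exact absurd (hS q hq hqN) hqS
    | algebraMap n =>
      rw [show (⟨_, algebraMap_mem (heckeAlgebra N 2 (↑S : Set ℕ)) n⟩ :
        heckeAlgebra N 2 (↑S : Set ℕ)) = algebraMap ℤ _ n from rfl, eq_intCast, map_intCast]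
      exact ⟨n, rfl⟩
    | add x y hx hy ihx ihy => exact map_add χ ⟨x, hx⟩ ⟨y, hy⟩ ▸ add_mem ihx ihy
    | mul x y hx hy ihx ihy => exact map_mul χ ⟨x, hx⟩ ⟨y, hy⟩ ▸ mul_mem ihx ihy
  let e : ℤ ≃+* (Int.castRingHom B).range :=
    RingEquiv.ofBijective (Int.castRingHom B).rangeRestrict
      ⟨fun m n h => Int.cast_injective (congrArg Subtype.val h),
        RingHom.rangeRestrict_surjective _⟩
  let χZ : heckeAlgebra N 2 (↑S : Set ℕ) →+* ℤ :=
    (e.symm : (Int.castRingHom B).range →+* ℤ).comp (χ.codRestrict _ hmem)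
  have hχZ : ∀ t, ((χZ t : ℤ) : B) = χ t := fun t =>
    congrArg Subtype.val (e.apply_symm_apply (χ.codRestrict _ hmem t))
  obtain ⟨g, hg, hgT, -⟩ :=
    FLTAgent.Newform.exists_eigenform_of_partialChar ((Int.castRingHom ℂ).comp χZ)
  refine ⟨g, hg, fun ℓ hℓ hℓN hℓS => ?_⟩
  rw [hgT ℓ hℓ hℓN (by simpa using hℓS)]
  have h := hχZ (heckeAlgebra.T hℓ hℓN (by simpa using hℓS : ℓ ∉ (↑S : Set ℕ)))
  rw [hc] at h
  show ((χZ _ : ℤ) : ℂ) = _
  rw [Int.cast_injective h]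

/-- **A point of a deformation ring killing the kernel of its action** on a part gives an
eigenform: if the point has integer Frobenius traces `c ℓ`, so does the eigenform. -/
theorem exists_eigenform_of_point {O R P : Type} [CommRing O] [CommRing R] [Algebra O R]
    [AddCommGroup P] [Module O P] {B : Type} [CommRing B] [CharZero B] [Algebra O B]
    (hS : ∀ q : ℕ, q.Prime → q ∣ N → q ∈ S) (Θ : awayHecke N →+* Module.End O P)
    (tr : Γℚ → R) (φ : R →ₐ[O] Module.End O P)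
    (hΘ : ∀ t, Θ (restrictAway hS t) ∈ φ.range)
    (hφ : ∀ (ℓ : ℕ) (hℓ : ℓ.Prime) (hℓN : ¬ ℓ ∣ N), ℓ ∉ S →
      ∀ A : ValuationSubring (AlgebraicClosure ℚ), A.LiesOverPrime ℓ →
        ∀ σ : Γℚ, A.IsFrobeniusAt σ ℓ → φ (tr σ) = Θ (awayT N hℓ hℓN))
    (x : R →ₐ[O] B) (hx : ∀ r, φ r = 0 → x r = 0) (c : ℕ → ℤ)
    (hc : ∀ ℓ : ℕ, ℓ.Prime → ¬ ℓ ∣ N → ℓ ∉ S →
      ∀ A : ValuationSubring (AlgebraicClosure ℚ), A.LiesOverPrime ℓ →
        ∀ σ : Γℚ, A.IsFrobeniusAt σ ℓ → x (tr σ) = c ℓ) :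
    ∃ g : CuspForm (CongruenceSubgroup.Gamma0 N) 2, g.IsNormalizedEigenform ∧
      ∀ ℓ : ℕ, ℓ.Prime → ¬ ℓ ∣ N → ℓ ∉ S → qCoeff g ℓ = c ℓ := by
  have hwell : ∀ r s, φ r = φ s → x r = x s := fun r s h => by
    rw [← sub_eq_zero, ← map_sub]
    exact hx _ (by rw [map_sub, h, sub_self])
  choose f hf using fun t => AlgHom.mem_range φ |>.mp (hΘ t)
  let χ : heckeAlgebra N 2 (↑S : Set ℕ) →+* B :=
    { toFun := fun t => x (f t)
      map_one' := (hwell _ 1 (by rw [hf, map_one, map_one, map_one])).trans (map_one x)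
      map_mul' := fun s t => (hwell _ (f s * f t)
        (by rw [map_mul φ, hf, hf, hf, map_mul, map_mul])).trans (map_mul x _ _)
      map_zero' := (hwell _ 0 (by rw [hf, map_zero, map_zero, map_zero])).trans (map_zero x)
      map_add' := fun s t => (hwell _ (f s + f t)
        (by rw [map_add φ, hf, hf, hf, map_add, map_add])).trans (map_add x _ _) }
  refine exists_eigenform_of_intValues hS χ c fun ℓ hℓ hℓN hℓS => ?_
  obtain ⟨A, hA, σ, hσ⟩ := CommAlg.exists_liesOverPrime_isFrobeniusAt hℓ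
  show x (f _) = _
  rw [hwell _ (tr σ) (by rw [hf, restrictAway_T, hφ ℓ hℓ hℓN (by simpa using hℓS) A hA σ hσ])]
  exact hc ℓ hℓ hℓN (by simpa using hℓS) A hA σ hσ

end FLTAgent.RT
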