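import Mathlib.RingTheory.LocalRing.ResidueField.Basic
import Mathlib.LinearAlgebra.Matrix.Charpoly.Coeff
import Mathlib.LinearAlgebra.Matrix.NonsingularInverse
import Mathlib.LinearAlgebra.Span.Basic
import Mathlib.Algebra.Module.Pi
import Mathlib.Algebra.Module.LinearMap.End

/-!
# Two-dimensional representations from pseudo-representations with an odd element

If `τ` satisfies the trace identity of a two-dimensional representation of determinant `χ`, there
is an element `c` with `c² = 1`, `χ c = -1`, and some Gram matrix `(τ (gᵢ gⱼ))` is invertible, then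
`τ` is the trace of a representation in `GL₂`. The coefficient ring may have nilpotents.
-/

set_option autoImplicit false

namespace FLTAgent.RT.Pseudo

variable {T : Type*} [CommRing T] {Γ : Type*} [Group Γ]

/-- The trace identity in dimension two. -/
structure IsPseudo (τ : Γ → T) (χ : Γ →* Tˣ) : Prop where
  one : τ 1 = 2
  comm : ∀ g h, τ (g * h) = τ (h * g)
  rel : ∀ g h, τ (g * h) + (χ h : T) * τ (g * h⁻¹) = τ g * τ h

namespace IsPseudo

variable {τ : Γ → T} {χ : Γ →* Tˣ} (hτ : IsPseudo τ χ)

include hτ

theorem chi_mul_inv (g : Γ) : (χ g : T) * τ g⁻¹ = τ g := by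
  have h := hτ.rel 1 g
  rw [one_mul, one_mul, hτ.one] at h
  linear_combination h

theorem map_odd (h2 : IsUnit (2 : T)) {c : Γ} (hc : c * c = 1) (hχc : (χ c : T) = -1) :
    τ c = 0 := by
  have h := hτ.chi_mul_inv c
  rw [hχc, inv_eq_of_mul_eq_one_right hc] at h
  exact h2.mul_right_eq_zero.mp (by linear_combination -h)

/-- The identity behind the quadratic relation: `h ↦ τ (h g)` satisfies it. -/
theorem rel_mid (g h g' : Γ) :
    τ (h * g * g') + (χ g : T) * τ (h * g⁻¹ * g') = τ g * τ (h * g') := by
  rw [hτ.comm (h * g) g', hτ.comm (h * g⁻¹) g', ← mul_assoc, ← mul_assoc, hτ.rel,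
    hτ.comm g' h, mul_comm]

end IsPseudo

/-- Left translation on functions. -/
def translate (g : Γ) : (Γ → T) →ₗ[T] (Γ → T) where
  toFun f h := f (h * g)
  map_add' _ _ := rfl
  map_smul' _ _ := rfl

@[simp] theorem translate_apply (g : Γ) (f : Γ → T) (h : Γ) : translate g f h = f (h * g) := rfl

/-- The span of the translates of `τ`. -/
def orbitSpan (τ : Γ → T) : Submodule T (Γ → T) :=
  Submodule.span T (Set.range fun g => translate g τ)

theorem translate_mem (τ : Γ → T) (g : Γ) {f : Γ → T} (hf : f ∈ orbitSpan τ) :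
    translate g f ∈ orbitSpan τ := by
  induction hf using Submodule.span_induction with
  | mem f hf =>
    obtain ⟨g', rfl⟩ := hf
    exact Submodule.subset_span ⟨g * g', funext fun h => by simp [mul_assoc]⟩
  | zero => rw [map_zero]; exact zero_mem _
  | add f f' _ _ h h' => rw [map_add]; exact add_mem h h'
  | smul t f _ h => rw [map_smul]; exact Submodule.smul_mem _ t h

/-- The action of the group on the span of the translates. -/
def act (τ : Γ → T) : Γ →* Module.End T (orbitSpan τ) where
  toFun g := (translate g).restrict fun _ hf => translate_mem τ g hf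
  map_one' := LinearMap.ext fun f => Subtype.ext (funext fun h => by simp)
  map_mul' g g' := LinearMap.ext fun f => Subtype.ext (funext fun h => by simp [mul_assoc])

@[simp] theorem coe_act_apply (τ : Γ → T) (g : Γ) (f : orbitSpan τ) (h : Γ) :
    (act τ g f : Γ → T) h = (f : Γ → T) (h * g) := rfl

/-- `τ` itself, as an element of the span of its translates. -/
def base (τ : Γ → T) : orbitSpan τ :=
  ⟨τ, Submodule.subset_span ⟨1, funext fun h => by simp⟩⟩

@[simp] theorem coe_base (τ : Γ → T) : (base τ : Γ → T) = τ := rfl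

theorem act_rel {τ : Γ → T} {χ : Γ →* Tˣ} (hτ : IsPseudo τ χ) (g : Γ) :
    act τ g + (χ g : T) • act τ g⁻¹ = τ g • 1 := by
  refine LinearMap.ext fun ⟨f, hf⟩ => Subtype.ext (funext fun h => ?_)
  show f (h * g) + (χ g : T) * f (h * g⁻¹) = τ g * f h
  induction hf using Submodule.span_induction with
  | mem f hf =>
    obtain ⟨g', rfl⟩ := hf
    exact hτ.rel_mid g h g'
  | zero => simp
  | add f f' _ _ h h' =>
    simp only [Pi.add_apply]
    linear_combination h + h'
  | smul t f _ h =>
    simp only [Pi.smul_apply, smul_eq_mul]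
    linear_combination t * h

theorem act_smul_idem_eq_zero {τ : Γ → T} {χ : Γ →* Tˣ} (hτ : IsPseudo τ χ) (h2 : IsUnit (2 : T))
    {c : Γ} (hc : c * c = 1) (hχc : (χ c : T) = -1) {t : T} (h : t • (1 + act τ c) = 0) :
    t = 0 := by
  have h0 := congrFun (congrArg Subtype.val (LinearMap.congr_fun h (base τ))) 1
  change t * (τ 1 + τ (1 * c)) = 0 at h0
  rw [one_mul, hτ.one, hτ.map_odd h2 hc hχc, add_zero] at h0
  exact h2.mul_left_eq_zero.mp h0

/-! The quadratic relation in an abstract algebra gives the matrix units. -/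

section Main

variable {E : Type*} [Ring E] [Algebra T E] {L : Γ →* E}
variable {τ : Γ → T} {χ : Γ →* Tˣ} (hτ : IsPseudo τ χ) {c : Γ} (hc : c * c = 1)
  (hχc : (χ c : T) = -1) [Invertible (2 : T)]
  (hL : ∀ g, L g + (χ g : T) • L g⁻¹ = τ g • 1)
  (hfree : ∀ t : T, t • (1 + L c) = 0 → t = 0)

/-- The upper diagonal entry. -/
def diagA (τ : Γ → T) (c g : Γ) : T := ⅟2 * (τ g + τ (c * g))

/-- The lower diagonal entry. -/
def diagD (τ : Γ → T) (c g : Γ) : T := ⅟2 * (τ g - τ (c * g))

/-- The idempotent of the eigenvalue `1` of `c`. -/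
def idemE (L : Γ →* E) (c : Γ) : E := (⅟2 : T) • (1 + L c)

/-- The idempotent of the eigenvalue `-1` of `c`. -/
def idemF (L : Γ →* E) (c : Γ) : E := (⅟2 : T) • (1 - L c)

theorem idemE_add_idemF (L : Γ →* E) (c : Γ) : idemE (T := T) L c + idemF (T := T) L c = 1 := by
  rw [idemE, idemF, ← smul_add, add_add_sub_cancel, smul_add, ← add_smul,
    invOf_two_add_invOf_two, one_smul]

include hc in
theorem act_c_mul_self : L c * L c = 1 := by rw [← map_mul, hc, map_one]

include hc in
theorem idemE_mul_self : idemE (T := T) L c * idemE (T := T) L c = idemE (T := T) L c := by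
  rw [idemE, smul_mul_smul_comm, mul_add, add_mul, add_mul, one_mul, mul_one, one_mul,
    act_c_mul_self hc]
  rw [show (1 : E) + L c + (L c + 1) = (2 : T) • (1 + L c) by
    rw [two_smul]; abel]
  rw [smul_smul, mul_assoc, invOf_mul_self, mul_one]

include hc in
theorem idemE_mul_idemF : idemE (T := T) L c * idemF (T := T) L c = 0 := by
  rw [show idemF (T := T) L c = 1 - idemE (T := T) L c from eq_sub_of_add_eq' (idemE_add_idemF (T := T) L c),
    mul_sub, mul_one, idemE_mul_self hc, sub_self]

include hc in
theorem idemF_mul_idemE : idemF (T := T) L c * idemE (T := T) L c = 0 := by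
  rw [show idemF (T := T) L c = 1 - idemE (T := T) L c from eq_sub_of_add_eq' (idemE_add_idemF (T := T) L c),
    sub_mul, one_mul, idemE_mul_self hc, sub_self]

include hc in
theorem idemF_mul_self : idemF (T := T) L c * idemF (T := T) L c = idemF (T := T) L c := by
  conv_lhs => arg 1; rw [show idemF (T := T) L c = 1 - idemE (T := T) L c from eq_sub_of_add_eq' (idemE_add_idemF (T := T) L c)]
  rw [sub_mul, one_mul, idemE_mul_idemF hc, sub_zero]

include hτ hc hχc hL in
/-- Anticommutation of `c` and a group element. -/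
theorem act_c_anticomm (g : Γ) :
    L c * L g + L g * L c = τ g • L c + τ (c * g) • 1 := by
  have h1 := hL g
  have h2 := hL (c * g)
  rw [mul_inv_rev, inv_eq_of_mul_eq_one_right hc, map_mul, map_mul, Units.val_mul, hχc,
    map_mul] at h2
  have h3 : (χ g : T) • (L g⁻¹ * L c) = τ g • L c - L g * L c := by
    rw [← smul_mul_assoc, show (χ g : T) • L g⁻¹ = τ g • 1 - L g from
      eq_sub_of_add_eq' h1, sub_mul, smul_mul_assoc, one_mul]
  rw [neg_one_mul, neg_smul, h3] at h2
  rw [← h2]
  abel

include hτ hc hχc hL in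
theorem corner_E (g : Γ) : idemE (T := T) L c * L g * idemE (T := T) L c = diagA τ c g • idemE (T := T) L c := by
  have hcc := act_c_mul_self (L := L) hc
  have hanti := act_c_anticomm hτ hc hχc hL g
  have key : (1 + L c) * L g * (1 + L c) = (τ g + τ (c * g)) • (1 + L c) := by
    have h1 : L c * L g * L c = τ g • 1 + τ (c * g) • L c - L g := by
      have := congrArg (· * L c) hanti
      simp only [add_mul, mul_assoc, hcc, mul_one, smul_mul_assoc, one_mul] at this
      rw [← this, mul_assoc]
      abel
    simp only [add_mul, mul_add, one_mul, mul_one]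
    rw [show L g + L c * L g + (L g * L c + L c * L g * L c) =
        L g + (L c * L g + L g * L c) + L c * L g * L c by abel, hanti, h1]
    simp only [smul_add, add_smul]
    abel
  rw [idemE, smul_mul_assoc, smul_mul_assoc, mul_smul_comm, key, diagA]
  simp only [smul_smul, mul_assoc]
  congr 1
  ring

include hτ hc hχc hL in
theorem corner_F (g : Γ) : idemF (T := T) L c * L g * idemF (T := T) L c = diagD τ c g • idemF (T := T) L c := by
  have hcc := act_c_mul_self (L := L) hc
  have hanti := act_c_anticomm hτ hc hχc hL g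
  have key : (1 - L c) * L g * (1 - L c) = (τ g - τ (c * g)) • (1 - L c) := by
    have h1 : L c * L g * L c = τ g • 1 + τ (c * g) • L c - L g := by
      have := congrArg (· * L c) hanti
      simp only [add_mul, mul_assoc, hcc, mul_one, smul_mul_assoc, one_mul] at this
      rw [← this, mul_assoc]
      abel
    simp only [sub_mul, mul_sub, one_mul, mul_one]
    rw [h1]
    rw [show L g - L c * L g - (L g * L c - (τ g • 1 + τ (c * g) • L c - L g)) =
      τ g • 1 + τ (c * g) • L c - (L c * L g + L g * L c) by abel, hanti]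
    simp only [smul_sub, sub_smul]
    abel
  rw [idemF, smul_mul_assoc, smul_mul_assoc, mul_smul_comm, key, diagD]
  simp only [smul_smul, mul_assoc]
  congr 1
  ring

include hfree in
theorem eq_zero_of_smul_idemE {t : T} (h : t • idemE (T := T) L c = 0) : t = 0 := by
  refine hfree t ?_
  have := congrArg (fun x => (2 : T) • x) h
  simp only [idemE, smul_zero, smul_smul] at this
  rwa [mul_left_comm, mul_invOf_self, mul_one] at this

/-- The product of two off-diagonal entries. -/
def offProd (τ : Γ → T) (c g h : Γ) : T := diagA τ c (g * h) - diagA τ c g * diagA τ c h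

include hτ hc hχc hL in
theorem corner_EFE (g h : Γ) :
    idemE (T := T) L c * L g * idemF (T := T) L c * (L h * idemE (T := T) L c) = offProd τ c g h • idemE (T := T) L c := by
  rw [show idemF (T := T) L c = 1 - idemE (T := T) L c from eq_sub_of_add_eq' (idemE_add_idemF (T := T) L c), mul_sub,
    mul_one, sub_mul, offProd, sub_smul]
  congr 1
  · rw [← corner_E hτ hc hχc hL, map_mul]
    simp only [mul_assoc]
  · have := congrArg₂ (· * ·) (corner_E hτ hc hχc hL g) (corner_E hτ hc hχc hL h)
    simp only [mul_assoc, smul_mul_assoc, mul_smul_comm, idemE_mul_self hc, smul_smul] at this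
    rw [← mul_assoc (idemE (T := T) L c) (idemE (T := T) L c), idemE_mul_self hc] at this
    simpa only [mul_assoc, mul_comm (diagA τ c g)] using this

include hτ hc hχc in
theorem diagA_one : diagA τ c 1 = 1 := by
  rw [diagA, hτ.one, mul_one, hτ.map_odd (isUnit_of_invertible 2) hc hχc, add_zero, invOf_mul_self]

include hτ hc hχc in
/-- The lower diagonal entry is the upper one of the inverse. -/
theorem chi_mul_diagA_inv (g : Γ) : (χ g : T) * diagA τ c g⁻¹ = diagD τ c g := by
  have h1 := hτ.chi_mul_inv (g * c)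
  rw [map_mul, Units.val_mul, hχc, mul_inv_rev, inv_eq_of_mul_eq_one_right hc,
    hτ.comm g c] at h1
  rw [diagA, diagD]
  linear_combination ⅟2 * (hτ.chi_mul_inv g) - ⅟2 * h1

section Rep

variable {g₀ h₀ : Γ} (hu : IsUnit (offProd τ c g₀ h₀))

/-- The off-diagonal matrix unit `X`. -/
def unitX (L : Γ →* E) (c g₀ : Γ) : E := idemE (T := T) L c * L g₀ * idemF (T := T) L c

/-- The off-diagonal matrix unit `Y`. -/
noncomputable def unitY (L : Γ →* E) (hu : IsUnit (offProd τ c g₀ h₀)) : E :=
  (↑hu.unit⁻¹ : T) • (idemF (T := T) L c * L h₀ * idemE (T := T) L c)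

/-- The entries of the representation. -/
noncomputable def entries (hu : IsUnit (offProd τ c g₀ h₀)) (g : Γ) : Matrix (Fin 2) (Fin 2) T :=
  !![diagA τ c g, (↑hu.unit⁻¹ : T) * offProd τ c g h₀; offProd τ c g₀ g, diagD τ c g]

include hc in
theorem idemE_mul_unitX : idemE (T := T) L c * unitX (T := T) L c g₀ = unitX (T := T) L c g₀ := by
  rw [unitX, ← mul_assoc, ← mul_assoc, idemE_mul_self hc]

include hτ hc hχc hL in
theorem unitX_mul_unitY : unitX (T := T) L c g₀ * unitY L hu = idemE (T := T) L c := by
  rw [unitY, unitX, mul_smul_comm]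
  rw [show idemE (T := T) L c * L g₀ * idemF (T := T) L c * (idemF (T := T) L c * L h₀ * idemE (T := T) L c) =
    idemE (T := T) L c * L g₀ * (idemF (T := T) L c * idemF (T := T) L c) * (L h₀ * idemE (T := T) L c) by
      simp only [mul_assoc], idemF_mul_self hc, corner_EFE hτ hc hχc hL, smul_smul]
  simp

include hτ hc hχc hL hfree

theorem unitY_mul_unitX : unitY L hu * unitX (T := T) L c g₀ = idemF (T := T) L c := by
  obtain ⟨l, hl⟩ : ∃ l : T, unitY L hu * unitX (T := T) L c g₀ = l • idemF (T := T) L c := by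
    refine ⟨(↑hu.unit⁻¹ : T) * (diagD τ c (h₀ * g₀) - diagD τ c h₀ * diagD τ c g₀), ?_⟩
    rw [unitY, unitX, smul_mul_assoc, mul_smul]
    congr 1
    rw [show idemF (T := T) L c * L h₀ * idemE (T := T) L c * (idemE (T := T) L c * L g₀ * idemF (T := T) L c) =
      idemF (T := T) L c * L h₀ * (idemE (T := T) L c * idemE (T := T) L c) * L g₀ * idemF (T := T) L c by
        simp only [mul_assoc], idemE_mul_self hc,
      show idemE (T := T) L c = 1 - idemF (T := T) L c from eq_sub_of_add_eq (idemE_add_idemF (T := T) L c)]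
    rw [mul_sub, mul_one, sub_mul, sub_mul, sub_smul]
    congr 1
    · rw [← corner_F hτ hc hχc hL, map_mul]
      simp only [mul_assoc]
    · have := congrArg₂ (· * ·) (corner_F hτ hc hχc hL h₀) (corner_F hτ hc hχc hL g₀)
      simp only [mul_assoc, smul_mul_assoc, mul_smul_comm, idemF_mul_self hc, smul_smul] at this
      rw [← mul_assoc (idemF (T := T) L c) (idemF (T := T) L c), idemF_mul_self hc] at this
      simpa only [mul_assoc, mul_comm (diagD τ c h₀)] using this
  have hX : unitX (T := T) L c g₀ * idemF (T := T) L c = unitX (T := T) L c g₀ := by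
    rw [unitX, mul_assoc, idemF_mul_self hc]
  have h1 : l • unitX (T := T) L c g₀ = unitX (T := T) L c g₀ := by
    conv_lhs => rw [← hX, ← mul_smul_comm, ← hl, ← mul_assoc, unitX_mul_unitY hτ hc hχc hL hu,
      idemE_mul_unitX hc]
  have h2 : (l - 1) • idemE (T := T) L c = 0 := by
    rw [← unitX_mul_unitY hτ hc hχc hL hu, ← smul_mul_assoc, sub_smul, one_smul, h1, sub_self,
      zero_mul]
  rw [hl, sub_eq_zero.mp (eq_zero_of_smul_idemE hfree h2), one_smul]

theorem corner_EF (g : Γ) :
    idemE (T := T) L c * L g * idemF (T := T) L c = ((↑hu.unit⁻¹ : T) * offProd τ c g h₀) • unitX (T := T) L c g₀ := by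
  conv_lhs => rw [← idemF_mul_self (L := L) hc, ← mul_assoc]; arg 2
              rw [← unitY_mul_unitX hτ hc hχc hL hfree hu]
  rw [← mul_assoc, unitY, mul_smul_comm,
    show idemE (T := T) L c * L g * idemF (T := T) L c * (idemF (T := T) L c * L h₀ * idemE (T := T) L c) =
      idemE (T := T) L c * L g * (idemF (T := T) L c * idemF (T := T) L c) * (L h₀ * idemE (T := T) L c) by
        simp only [mul_assoc], idemF_mul_self hc, corner_EFE hτ hc hχc hL, smul_smul, smul_mul_assoc,
    idemE_mul_unitX hc]

theorem corner_FE (g : Γ) :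
    idemF (T := T) L c * L g * idemE (T := T) L c = offProd τ c g₀ g • unitY L hu := by
  have h1 : unitY L hu * idemE (T := T) L c = unitY L hu := by
    rw [unitY, smul_mul_assoc, mul_assoc, idemE_mul_self hc]
  conv_lhs => arg 1; arg 1; rw [← unitY_mul_unitX hτ hc hχc hL hfree hu]
  rw [unitX, show unitY L hu * (idemE (T := T) L c * L g₀ * idemF (T := T) L c) * L g * idemE (T := T) L c =
    unitY L hu * (idemE (T := T) L c * L g₀ * idemF (T := T) L c * (L g * idemE (T := T) L c)) by simp only [mul_assoc],
    corner_EFE hτ hc hχc hL, mul_smul_comm, h1]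

/-- The representation. -/
noncomputable def rep : Γ →* Matrix (Fin 2) (Fin 2) T where
  toFun := entries hu
  map_one' := by
    have hA := diagA_one hτ hc hχc
    have hD : diagD τ c 1 = 1 := by
      have := chi_mul_diagA_inv hτ hc hχc 1
      rwa [map_one, Units.val_one, one_mul, inv_one, hA, eq_comm] at this
    have hB₀ : offProd τ c 1 h₀ = 0 := by rw [offProd, one_mul, hA, one_mul, sub_self]
    have hB : (↑hu.unit⁻¹ : T) * offProd τ c 1 h₀ = 0 := by rw [hB₀, mul_zero]
    have hC : offProd τ c g₀ 1 = 0 := by rw [offProd, mul_one, hA, mul_one, sub_self]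
    rw [entries, hA, hB, hC, hD, Matrix.one_fin_two]
  map_mul' g h := by
    have hE0 : ∀ t : T, t • idemE (T := T) L c = 0 → t = 0 := fun t => eq_zero_of_smul_idemE hfree
    have hXY := unitX_mul_unitY hτ hc hχc hL hu
    have hYX := unitY_mul_unitX hτ hc hχc hL hfree hu
    have hX0 : ∀ t : T, t • unitX (T := T) L c g₀ = 0 → t = 0 := fun t ht => hE0 t (by
      rw [← hXY, ← smul_mul_assoc, ht, zero_mul])
    have hY0 : ∀ t : T, t • unitY L hu = 0 → t = 0 := fun t ht => hE0 t (by
      rw [← hXY, ← mul_smul_comm, ht, mul_zero])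
    have hF0 : ∀ t : T, t • idemF (T := T) L c = 0 → t = 0 := fun t ht => hY0 t (by
      have hY : idemF (T := T) L c * unitY L hu = unitY L hu := by
        rw [unitY, mul_smul_comm, ← mul_assoc, ← mul_assoc, idemF_mul_self hc]
      rw [← hY, ← smul_mul_assoc, ht, zero_mul])
    have split : ∀ P Q : E, P * L (g * h) * Q =
        P * L g * idemE (T := T) L c * (idemE (T := T) L c * L h * Q) +
          P * L g * idemF (T := T) L c * (idemF (T := T) L c * L h * Q) := fun P Q => by
      rw [show P * L g * idemE (T := T) L c * (idemE (T := T) L c * L h * Q) =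
          P * L g * (idemE (T := T) L c * idemE (T := T) L c) * (L h * Q) by simp only [mul_assoc],
        show P * L g * idemF (T := T) L c * (idemF (T := T) L c * L h * Q) =
          P * L g * (idemF (T := T) L c * idemF (T := T) L c) * (L h * Q) by simp only [mul_assoc],
        idemE_mul_self hc, idemF_mul_self hc, ← add_mul, ← mul_add, idemE_add_idemF, mul_one,
        map_mul]
      simp only [mul_assoc]
    have hEX : idemE (T := T) L c * unitX (T := T) L c g₀ = unitX (T := T) L c g₀ := idemE_mul_unitX hc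
    have hXF : unitX (T := T) L c g₀ * idemF (T := T) L c = unitX (T := T) L c g₀ := by
      rw [unitX, mul_assoc, idemF_mul_self hc]
    have hYE : unitY L hu * idemE (T := T) L c = unitY L hu := by
      rw [unitY, smul_mul_assoc, mul_assoc, idemE_mul_self hc]
    have hFY : idemF (T := T) L c * unitY L hu = unitY L hu := by
      rw [unitY, mul_smul_comm, ← mul_assoc, ← mul_assoc, idemF_mul_self hc]
    refine Matrix.ext fun i j => ?_
    fin_cases i <;> fin_cases j <;>
      simp [entries, Matrix.mul_apply, Fin.sum_univ_two] <;>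
      apply sub_eq_zero.mp
    · apply hE0
      have := split (idemE (T := T) L c) (idemE (T := T) L c)
      rw [corner_E hτ hc hχc hL, corner_E hτ hc hχc hL, corner_E hτ hc hχc hL, corner_EF hτ hc hχc hL hfree hu,
        corner_FE hτ hc hχc hL hfree hu, smul_mul_smul_comm, smul_mul_smul_comm, idemE_mul_self hc, hXY,
        ← add_smul] at this
      rw [sub_smul, this, sub_self]
    · apply hX0
      have := split (idemE (T := T) L c) (idemF (T := T) L c)
      rw [corner_EF hτ hc hχc hL hfree hu, corner_E hτ hc hχc hL, corner_EF hτ hc hχc hL hfree hu,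
        corner_EF hτ hc hχc hL hfree hu, corner_F hτ hc hχc hL, smul_mul_smul_comm, smul_mul_smul_comm,
        hEX, hXF, ← add_smul] at this
      rw [sub_smul, this, sub_self]
    · apply hY0
      have := split (idemF (T := T) L c) (idemE (T := T) L c)
      rw [corner_FE hτ hc hχc hL hfree hu, corner_FE hτ hc hχc hL hfree hu, corner_E hτ hc hχc hL,
        corner_F hτ hc hχc hL, corner_FE hτ hc hχc hL hfree hu, smul_mul_smul_comm, smul_mul_smul_comm,
        hYE, hFY, ← add_smul] at this
      rw [sub_smul, this, sub_self]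
    · apply hF0
      have := split (idemF (T := T) L c) (idemF (T := T) L c)
      rw [corner_F hτ hc hχc hL, corner_FE hτ hc hχc hL hfree hu, corner_EF hτ hc hχc hL hfree hu,
        corner_F hτ hc hχc hL, corner_F hτ hc hχc hL, smul_mul_smul_comm, smul_mul_smul_comm,
        hYX, idemF_mul_self hc, ← add_smul] at this
      rw [sub_smul, this, sub_self]

theorem trace_rep (g : Γ) : (rep hτ hc hχc hL hfree hu g).trace = τ g := by
  simp only [rep, MonoidHom.coe_mk, OneHom.coe_mk, entries, Matrix.trace_fin_two_of, diagA, diagD]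
  linear_combination τ g * invOf_two_add_invOf_two (R := T)

theorem det_rep (g : Γ) : (rep hτ hc hχc hL hfree hu g).det = (χ g : T) := by
  set M := rep hτ hc hχc hL hfree hu g with hM
  set N := rep hτ hc hχc hL hfree hu g⁻¹ with hN
  have hMN : M * N = 1 := by rw [hM, hN, ← map_mul, mul_inv_cancel, map_one]
  have hlow : M 1 0 + (χ g : T) * N 1 0 = 0 := by
    have h := congrArg (fun Z => idemF (T := T) L c * Z * idemE (T := T) L c) (hL g)
    simp only [mul_add, add_mul, mul_smul_comm, smul_mul_assoc, mul_one, idemF_mul_idemE hc,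
      smul_zero, corner_FE hτ hc hχc hL hfree hu, smul_smul, ← add_smul] at h
    refine eq_zero_of_smul_idemE hfree ?_
    rw [← unitX_mul_unitY hτ hc hχc hL hu, ← mul_smul_comm]
    simp only [hM, hN, rep, MonoidHom.coe_mk, OneHom.coe_mk, entries]
    simp [h]
  have hdiag : (χ g : T) * N 0 0 = M 1 1 := by
    simp only [hM, hN, rep, MonoidHom.coe_mk, OneHom.coe_mk, entries]
    simpa using chi_mul_diagA_inv hτ hc hχc g
  have h00 := congrFun (congrFun hMN 0) 0
  rw [Matrix.mul_apply, Fin.sum_univ_two, Matrix.one_apply_eq] at h00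
  rw [Matrix.det_fin_two]
  linear_combination (χ g : T) * h00 - M 0 0 * hdiag - M 0 1 * hlow

/-- If `τ` is invariant modulo an ideal under right translation by `σ`, the representation is
trivial at `σ` modulo that ideal. -/
theorem rep_sub_one_mem {I : Ideal T} {σ : Γ} (hσ : ∀ h, τ (h * σ) - τ h ∈ I) (i j : Fin 2) :
    (rep hτ hc hχc hL hfree hu σ - 1) i j ∈ I := by
  have hA : ∀ h, diagA τ c (h * σ) - diagA τ c h ∈ I := fun h => by
    have := I.mul_mem_left (⅟2) (I.add_mem (hσ h) (hσ (c * h)))
    convert this using 1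
    rw [diagA, diagA, mul_assoc]
    ring
  have hA1 : diagA τ c σ - 1 ∈ I := by
    have := hA 1
    rwa [one_mul, diagA_one hτ hc hχc] at this
  have hD : diagD τ c σ - 1 ∈ I := by
    have := I.mul_mem_left (⅟2) (I.sub_mem (hσ 1) (hσ c))
    convert this using 1
    rw [diagD, one_mul, hτ.one, hτ.map_odd (isUnit_of_invertible 2) hc hχc]
    linear_combination invOf_mul_self (2 : T)
  have hB : offProd τ c σ h₀ ∈ I := by
    rw [offProd]
    have h1 : diagA τ c (σ * h₀) - diagA τ c h₀ ∈ I := by
      have := I.mul_mem_left (⅟2) (I.add_mem (hσ h₀) (hσ (h₀ * c)))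
      convert this using 1
      rw [diagA, diagA, hτ.comm σ h₀, hτ.comm c (σ * h₀), hτ.comm c h₀,
        show σ * h₀ * c = σ * (h₀ * c) by group, hτ.comm σ (h₀ * c)]
      ring
    convert I.sub_mem h1 (I.mul_mem_right (diagA τ c h₀) hA1) using 1
    ring
  have hC : offProd τ c g₀ σ ∈ I := by
    rw [offProd]
    convert I.sub_mem (hA g₀) (I.mul_mem_left (diagA τ c g₀) hA1) using 1
    ring
  fin_cases i <;> fin_cases j <;> simp [rep, entries]
  · exact hA1
  · exact hB
  · exact hC
  · exact hD

end Rep

end Main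

/-- A pseudo-representation with an odd element and invertible Gram matrix is the trace of a
representation. -/
theorem exists_rep {T : Type*} [CommRing T] [IsLocalRing T] {Γ : Type*} [Group Γ] {τ : Γ → T}
    {χ : Γ →* Tˣ} (hτ : IsPseudo τ χ) (h2 : IsUnit (2 : T)) {c : Γ} (hc : c * c = 1)
    (hχc : (χ c : T) = -1) {g : Fin 2 × Fin 2 → Γ}
    (hgram : IsUnit (Matrix.det (Matrix.of fun a b => τ (g a * g b)))) :
    ∃ ρ : Γ →* Matrix (Fin 2) (Fin 2) T, (∀ σ, (ρ σ).trace = τ σ ∧ (ρ σ).det = (χ σ : T)) ∧
      ∀ (I : Ideal T) (σ : Γ), (∀ h, τ (h * σ) - τ h ∈ I) → ∀ i j, (ρ σ - 1) i j ∈ I := by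
  classical
  letI := h2.invertible
  suffices ∃ g₀ h₀, IsUnit (offProd τ c g₀ h₀) by
    obtain ⟨g₀, h₀, hu⟩ := this
    have hfree : ∀ t : T, t • (1 + act τ c) = 0 → t = 0 := fun t =>
      act_smul_idem_eq_zero hτ h2 hc hχc
    exact ⟨rep (E := Module.End T (orbitSpan τ)) (L := act τ) hτ hc hχc (act_rel hτ) hfree hu,
      fun σ => ⟨trace_rep (E := Module.End T (orbitSpan τ)) (L := act τ) hτ hc hχc (act_rel hτ) hfree hu σ,
        det_rep (E := Module.End T (orbitSpan τ)) (L := act τ) hτ hc hχc (act_rel hτ) hfree hu σ⟩,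
      fun I σ hσ => rep_sub_one_mem (E := Module.End T (orbitSpan τ)) (L := act τ) hτ hc hχc (act_rel hτ) hfree hu hσ⟩
  by_contra hall
  push Not at hall
  let r := IsLocalRing.residue T
  have hmul : ∀ x y, r (diagA τ c (x * y)) = r (diagA τ c x) * r (diagA τ c y) := fun x y => by
    rw [← map_mul, ← sub_eq_zero, ← map_sub, IsLocalRing.residue_eq_zero_iff,
      IsLocalRing.mem_maximalIdeal]
    exact hall x y
  have hD : ∀ x, r (diagD τ c x) = r (χ x : T) * r (diagA τ c x⁻¹) := fun x => by
    rw [← chi_mul_diagA_inv hτ hc hχc, map_mul]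
  let P : Matrix (Fin 2 × Fin 2) (Fin 2 × Fin 2) (IsLocalRing.ResidueField T) :=
    Matrix.of fun a b => if b = (0, 0) then r (diagA τ c (g a))
      else if b = (1, 1) then r (diagD τ c (g a)) else 0
  have hkey : (Matrix.of fun a b => τ (g a * g b)).map r = P * P.transpose := by
    refine Matrix.ext fun a b => ?_
    rw [Matrix.map_apply, Matrix.of_apply, Matrix.mul_apply, Fintype.sum_prod_type,
      Fin.sum_univ_two, Fin.sum_univ_two, Fin.sum_univ_two]
    simp only [P, Matrix.transpose_apply, Matrix.of_apply, Prod.mk.injEq, Fin.one_eq_zero_iff,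
      show (0 : Fin 2) ≠ 1 by decide, show (1 : Fin 2) ≠ 0 by decide, and_true, and_false,
      if_true, if_false, mul_zero, add_zero, zero_add]
    have hsum : τ (g a * g b) = diagA τ c (g a * g b) + diagD τ c (g a * g b) := by
      rw [diagA, diagD]
      linear_combination -τ (g a * g b) * invOf_two_add_invOf_two (R := T)
    rw [hsum, map_add, hmul, hD, hD (g a), hD (g b), map_mul, Units.val_mul, map_mul,
      mul_inv_rev, hmul]
    ring
  have hP : P.det = 0 := Matrix.det_eq_zero_of_column_eq_zero (0, 1) fun a => by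
    simp [P]
  have h := hgram.map r
  rw [RingHom.map_det, RingHom.mapMatrix_apply, hkey, Matrix.det_mul, hP, zero_mul] at h
  exact not_isUnit_zero h

end FLTAgent.RT.Pseudo
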