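import Fermat.Agent.RT.HeckeRep.Max
import Fermat.Agent.Deformation.Export

/-!
# Deformation conditions pass from the maximal datum to the Hecke algebras of lattices
-/

set_option autoImplicit false

namespace FLTAgent.RT

open FLTAgent.GalRep FLTAgent.Deformation IsLocalRing

local notation "Γℚ" => AlgebraicClosure ℚ ≃ₐ[ℚ] AlgebraicClosure ℚ

variable {O : Type} [CommRing O] [IsDomain O] [IsDiscreteValuationRing O]
  [IsAdicComplete (maximalIdeal O) O] [Finite (ResidueField O)]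
  {𝒟 : ∀ ⦃A : Type⦄ [CommRing A] [IsLocalRing A] [Algebra O A], GaloisRepAdic A → Prop}

section Complete

variable {A B : Type} [CommRing A] [IsLocalRing A] [IsNoetherianRing A]
  [IsAdicComplete (maximalIdeal A) A] [Algebra O A] [CommRing B] [IsLocalRing B]
  [IsNoetherianRing B] [IsAdicComplete (maximalIdeal B) B] [Algebra O B]

/-- A deformation condition on a complete algebra only depends on the equivalence class. -/
theorem cond_of_isEquiv (h𝒟 : GaloisRep.IsDeformationCondition O 𝒟) (hA : IsCoeff O A)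
    {ρ ρ' : GaloisRepAdic A} (h : ρ.IsEquiv ρ') (hρ : 𝒟 ρ) : 𝒟 ρ' := by
  rw [h𝒟.iff_forall_surjective hA.isLocalHom hA.residue_surjective] at hρ ⊢
  intro C _ _ _ hC q hq hqs
  obtain ⟨e⟩ := h
  exact h𝒟.of_isEquiv hC ⟨e.baseChangeAlong _ hq⟩ (hρ hC q hq hqs)

/-- A deformation condition is preserved by base change between complete algebras. -/
theorem cond_baseChangeAlong (h𝒟 : GaloisRep.IsDeformationCondition O 𝒟) (hA : IsCoeff O A)
    (hB : IsCoeff O B) (ψ : A →ₐ[O] B) (hψ : IsLocalHom (ψ : A →+* B)) {ρ : GaloisRepAdic A}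
    (hρ : 𝒟 ρ) : 𝒟 (ρ.baseChangeAlong (ψ : A →+* B) hψ) := by
  rw [h𝒟.iff_forall_surjective hB.isLocalHom hB.residue_surjective]
  intro C _ _ _ hC q hq _
  have hqψ : IsLocalHom ((q.comp ψ : A →ₐ[O] C) : A →+* C) := hA.isLocalHom_algHom hC.isCoeff _
  have h1 := cond_baseChangeAlong_of_complete h𝒟 hA hC (q.comp ψ) hqψ hρ
  have he := isEquiv_matRep ρ (stdBasis ρ)
  have e1 := baseChangeAlong_isEquiv_matRep _ hqψ he
  have e2 := baseChangeAlong_isEquiv_matRep _ hq (baseChangeAlong_isEquiv_matRep _ hψ he)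
  have e3 := matRep_congr
    ((matCont_repMatrix ρ (stdBasis ρ)).map _ hqψ)
    (((matCont_repMatrix ρ (stdBasis ρ)).map _ hψ).map _ hq)
    (MonoidHom.ext fun σ => Matrix.ext fun i j => rfl)
  exact h𝒟.of_isEquiv hC (isEquiv_trans e1 (isEquiv_trans e3 (isEquiv_symm e2))) h1

end Complete

variable {N : ℕ} [NeZero N] {S : Finset ℕ}
  {P : Type} [AddCommGroup P] [Module O P] [Module.Finite O P] [Module.Free O P]
  (Θ : CuspForm.heckeAlgebra N 2 (↑S : Set ℕ) →+* Module.End O P)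

/-- **The deformation ring maps onto the Hecke algebra of a lattice**, if the condition holds for
the maximal datum. -/
theorem exists_algHom_of_maxDatum [Nontrivial P] {p : ℕ} [Fact p.Prime] (M : MatModel N p ↑S)
    (hd : FrobeniusDense) (hS : ∀ q : ℕ, q.Prime → q ∣ N → q ∈ S) (hpS : p ∈ S)
    (hp2 : p ≠ 2) (hp : (p : O) ∈ maximalIdeal O) (a : ℕ → O)
    (hnil : ∀ (ℓ : ℕ) (hℓ : ℓ.Prime) (hℓN : ¬ ℓ ∣ N) (hℓS : ℓ ∉ (↑S : Set ℕ)),
      IsTopNilpotent (Θ (CuspForm.heckeAlgebra.T hℓ hℓN hℓS) -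
        algebraMap O (Module.End O P) (a ℓ)))
    {ρbar : ResidualGaloisRep (ResidueField O)} (habs : ρbar.IsAbsolutelyIrreducible)
    (S₁ : Finset ℕ)
    (hres : ∀ (ℓ : ℕ), ℓ.Prime → ¬ ℓ ∣ N → ℓ ∉ S → ℓ ∉ S₁ → ℓ ≠ p →
      ∀ A : ValuationSubring (AlgebraicClosure ℚ), A.LiesOverPrime ℓ →
        ∀ σ : Γℚ, A.IsFrobeniusAt σ ℓ →
          LinearMap.trace (ResidueField O) ρbar.V (ρbar.ρ σ) = residue O (a ℓ))
    (h𝒟 : GaloisRep.IsDeformationCondition O 𝒟) (D : GaloisRep.DeformationRingData O ρbar 𝒟)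
    (hmax : ∀ H : MaxDatum N S O a ρbar, 𝒟 H.H.ρ) :
    ∃ (_ : IsLocalRing (heckeImage Θ)) (ρ : GaloisRepAdic (heckeImage Θ))
      (φ : D.R →ₐ[O] heckeImage Θ) (hφ : IsLocalHom (φ : D.R →+* heckeImage Θ)),
      Function.Surjective φ ∧ 𝒟 ρ ∧
      (D.ρ.baseChangeAlong (φ : D.R →+* heckeImage Θ) hφ).IsEquiv ρ ∧
      (∀ q : ℕ, q.Prime → ¬ q ∣ N * p → ρ.IsUnramifiedAt q) ∧
      (∀ σ, φ (D.ρ.trace σ) = ρ.trace σ) ∧
      ∀ (ℓ : ℕ) (hℓ : ℓ.Prime) (hℓN : ¬ ℓ ∣ N) (hℓS : ℓ ∉ (↑S : Set ℕ)),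
        ∀ A : ValuationSubring (AlgebraicClosure ℚ), A.LiesOverPrime ℓ →
          ∀ σ : Γℚ, A.IsFrobeniusAt σ ℓ →
            ρ.trace σ = toImage Θ (CuspForm.heckeAlgebra.T hℓ hℓN hℓS) ∧
            LinearMap.charpoly (ρ.ρ σ) = Polynomial.X ^ 2 -
              Polynomial.C (toImage Θ (CuspForm.heckeAlgebra.T hℓ hℓN hℓS)) * Polynomial.X +
                Polynomial.C ((ℓ : heckeImage Θ)) := by
  have hloc := isLocalRing_heckeImage Θ hS a hnil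
  obtain ⟨ρ, hρ, -, hunr, hρres⟩ := exists_rep_heckeImage Θ M hd hp2 hp a hnil ρbar habs S₁ hres
  have hcoeff : IsCoeff O (heckeImage Θ) :=
    ⟨heckeImage.instIsLocalHom Θ, residue_surjective_of_scalar (O := O) (A := heckeImage Θ)
      (heckeImage_scalar Θ hS a hnil)⟩
  obtain ⟨H⟩ := exists_maxDatum M hd hS hpS hp2 hp a ρbar habs S₁ hres (heckeImage Θ)
    (toImage Θ) fun ℓ hℓ hℓN hℓS =>
      mem_of_isTopNilpotent (heckeImage Θ).val Subtype.val_injective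
        (by simpa [coe_toImage] using hnil ℓ hℓ hℓN hℓS) _
  have htr : ∀ (ℓ : ℕ) (hℓ : ℓ.Prime) (hℓN : ¬ ℓ ∣ N) (hℓS : ℓ ∉ (↑S : Set ℕ)), ℓ ≠ p →
      ∀ A : ValuationSubring (AlgebraicClosure ℚ), A.LiesOverPrime ℓ →
        ∀ σ : Γℚ, A.IsFrobeniusAt σ ℓ →
          ρ.trace σ = toImage Θ (CuspForm.heckeAlgebra.T hℓ hℓN hℓS) :=
    fun ℓ hℓ hℓN hℓS hℓp A hA σ hσ => (hρ ℓ hℓ hℓN hℓS hℓp A hA σ hσ).1
  obtain ⟨ψ, -, -, hψ, he⟩ := exists_quotient_maxDatum hd Θ hS hpS a hnil H ρ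
    (isAbsolutelyIrreducible_of_isEquiv hρres
      (isAbsolutelyIrreducible_baseChangeAlong _ ρbar habs)) htr
  have hDρ : 𝒟 ρ := cond_of_isEquiv h𝒟 hcoeff (isEquiv_symm he)
    (cond_baseChangeAlong h𝒟 ⟨H.instIsLocalHom, H.H.residue_surjective⟩ hcoeff ψ hψ (hmax H))
  obtain ⟨φ, hsurj, htrφ, hφ, heq⟩ :=
    exists_algHom_heckeImage Θ hS hpS a hnil D ρ htr hDρ hρres
  refine ⟨hloc, ρ, φ, hφ, hsurj, hDρ, heq, hunr, htrφ, fun ℓ hℓ hℓN hℓS A hA σ hσ => ?_⟩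
  exact hρ ℓ hℓ hℓN hℓS (fun h => hℓS (by simpa [h] using hpS)) A hA σ hσ

end FLTAgent.RT
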